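import Mathlib
import Fermat.Prelude.Def_CuspForm_HeckeAlgebra
import Fermat.Agent.S22
import Fermat.Agent.R.H99_Newform

/-!
# S59, layer 2, package (A) (helper53): a point of the Hecke algebra is an eigenform

* `exists_annihilated_of_ringHom` (pure algebra): `T` a commutative ring, finite as a `ℤ`-module,
  `χ : T →+* 𝒪` with `𝒪` a domain of characteristic `0`; then some `x ≠ 0` in `T` is killed by
  `ker χ` (every element of `ker χ` is a zero divisor, prime avoidance, associated primes).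
* `exists_eigenvector_of_point` : a ring homomorphism `χ` from the Hecke algebra (away from `S`)
  to a domain of characteristic `0` has a nonzero cusp form killed by `ker χ`.
* `exists_normalizedEigenform_of_point` : if moreover `χ (T_ℓ) = a ℓ ∈ ℤ` for all `ℓ ∤ N`, `ℓ ∉ S`,
  there is a normalised eigenform `g` of level `N` with `a_ℓ(g) = a ℓ` for these `ℓ`.
-/

set_option autoImplicit false

namespace Fermat.Agent.S59

open Polynomial

/-- An element of the kernel of a ring homomorphism to a domain of characteristic `0`, in a ring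
integral over `ℤ`, is a zero divisor. -/
theorem not_mem_nonZeroDivisors_of_mem_ker {T 𝒪 : Type*} [CommRing T] [CommRing 𝒪] [IsDomain 𝒪]
    [CharZero 𝒪] (χ : T →+* 𝒪) {g : T} (hint : IsIntegral ℤ g) (hg : χ g = 0) :
    g ∉ nonZeroDivisors T := by
  intro hnzd
  set P := minpoly ℤ g with hP
  have hmonic : P.Monic := minpoly.monic hint
  have haeval : aeval g P = 0 := minpoly.aeval ℤ g
  -- apply `χ`: the constant coefficient vanishes
  have hχ : (P.map (Int.castRingHom 𝒪)).eval (χ g) = 0 := by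
    have h1 : χ (aeval g P) = 0 := by rw [haeval, map_zero]
    rw [← h1, aeval_def, hom_eval₂, eval_map]
    congr 1
    exact RingHom.ext_int _ _
  rw [hg, ← coeff_zero_eq_eval_zero, coeff_map] at hχ
  have hc0 : P.coeff 0 = 0 := by
    have : ((P.coeff 0 : ℤ) : 𝒪) = 0 := by simpa using hχ
    exact_mod_cast this
  obtain ⟨Q, hQ⟩ := X_dvd_iff.mpr hc0
  have hQmonic : Q.Monic := by
    have := hmonic
    rw [hQ] at this
    exact (Monic.of_mul_monic_left monic_X this)
  have hQ0 : aeval g Q = 0 := by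
    have h1 : g * aeval g Q = 0 := by
      have := haeval
      rw [hQ, map_mul, aeval_X] at this
      exact this
    exact (mul_right_mem_nonZeroDivisors_eq_zero_iff hnzd).mp (by rwa [mul_comm] at h1)
  have hdeg := minpoly.min ℤ g hQmonic hQ0
  have hlt : Q.degree < P.degree := by
    have hQne : Q ≠ 0 := hQmonic.ne_zero
    rw [hQ, mul_comm]
    exact degree_lt_degree_mul_X hQne
  exact absurd hdeg (not_le.mpr hlt)

/-- Pure algebra: the kernel of a ring homomorphism from a finite `ℤ`-algebra to a domain of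
characteristic `0` kills a nonzero element. -/
theorem exists_annihilated_of_ringHom {T 𝒪 : Type*} [CommRing T] [Module.Finite ℤ T]
    [CommRing 𝒪] [IsDomain 𝒪] [CharZero 𝒪] (χ : T →+* 𝒪) :
    ∃ x : T, x ≠ 0 ∧ ∀ t ∈ RingHom.ker χ, t * x = 0 := by
  classical
  have : IsNoetherianRing T := IsNoetherianRing.of_finite ℤ T
  have hint : ∀ g : T, IsIntegral ℤ g := fun g => Algebra.IsIntegral.isIntegral g
  have hsub : ((RingHom.ker χ : Ideal T) : Set T) ⊆
      ⋃ p ∈ ((associatedPrimes.finite T T).toFinset : Set (Ideal T)), (p : Set T) := by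
    intro g hg
    have hz : g ∈ (nonZeroDivisors T : Set T)ᶜ :=
      not_mem_nonZeroDivisors_of_mem_ker χ (hint g) (RingHom.mem_ker.mp hg)
    rw [← biUnion_associatedPrimes_eq_compl_nonZeroDivisors T] at hz
    simpa using hz
  have hprime : ∀ i ∈ (associatedPrimes.finite T T).toFinset,
      i ≠ (⊥ : Ideal T) → i ≠ (⊥ : Ideal T) → Ideal.IsPrime (id i) := by
    intro i hi _ _
    exact ((associatedPrimes.finite T T).mem_toFinset.mp hi).isPrime
  obtain ⟨𝔮, h𝔮, hle⟩ := (Ideal.subset_union_prime (f := id) ⊥ ⊥ hprime).mp hsub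
  have hass : IsAssociatedPrime 𝔮 T := (associatedPrimes.finite T T).mem_toFinset.mp h𝔮
  obtain ⟨hq, x, hx⟩ := isAssociatedPrime_iff.mp hass
  refine ⟨x, ?_, fun t ht => ?_⟩
  · rintro rfl
    apply hq.ne_top
    rw [hx]
    ext r
    simp [Submodule.mem_colon_singleton]
  · have : t ∈ 𝔮 := hle ht
    rw [hx, Submodule.mem_colon_singleton] at this
    simpa [smul_eq_mul] using this

open CuspForm CongruenceSubgroup ModularFormClass

variable {N : ℕ} [NeZero N]

/-- A point of the Hecke algebra with values in a domain of characteristic `0` has a nonzero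
cusp form killed by its kernel. -/
theorem exists_eigenvector_of_point (S : Set ℕ) {𝒪 : Type*} [CommRing 𝒪] [IsDomain 𝒪]
    [CharZero 𝒪] (χ : heckeAlgebra N 2 S →+* 𝒪) :
    ∃ v : CuspForm (Gamma0 N) 2, v ≠ 0 ∧ ∀ t ∈ RingHom.ker χ,
      (t : Module.End ℂ (CuspForm (Gamma0 N) 2)) v = 0 := by
  have : Module.Finite ℤ (heckeAlgebra N 2 S) := Fermat.Agent.S22.result N 2 S
  obtain ⟨x, hx0, hx⟩ := exists_annihilated_of_ringHom χ
  have hx0' : (x : Module.End ℂ (CuspForm (Gamma0 N) 2)) ≠ 0 := fun h => hx0 (Subtype.ext h)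
  obtain ⟨w, hw⟩ : ∃ w, (x : Module.End ℂ (CuspForm (Gamma0 N) 2)) w ≠ 0 := by
    by_contra hcon
    push Not at hcon
    exact hx0' (LinearMap.ext hcon)
  refine ⟨(x : Module.End ℂ (CuspForm (Gamma0 N) 2)) w, hw, fun t ht => ?_⟩
  have h1 := hx t ht
  have h2 : ((t * x : heckeAlgebra N 2 S) : Module.End ℂ (CuspForm (Gamma0 N) 2)) = 0 := by
    rw [h1]; rfl
  have h3 : ((t * x : heckeAlgebra N 2 S) : Module.End ℂ (CuspForm (Gamma0 N) 2))
      = (t : Module.End ℂ (CuspForm (Gamma0 N) 2)) * (x : Module.End ℂ (CuspForm (Gamma0 N) 2)) :=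
    rfl
  rw [h3] at h2
  have := congrArg (fun f : Module.End ℂ (CuspForm (Gamma0 N) 2) => f w) h2
  simpa using this

/-- **Package (A)**: a point of the Hecke algebra away from `S` with integral values `a ℓ` on the
`T_ℓ` comes from a normalised eigenform of level `N`. -/
theorem exists_normalizedEigenform_of_point (S : Set ℕ) {𝒪 : Type*} [CommRing 𝒪] [IsDomain 𝒪]
    [CharZero 𝒪] (χ : heckeAlgebra N 2 S →+* 𝒪) (a : ℕ → ℤ)
    (ha : ∀ (ℓ : ℕ) (hℓ : ℓ.Prime) (hℓN : ¬ ℓ ∣ N) (hℓS : ℓ ∉ S),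
      χ (heckeAlgebra.T hℓ hℓN hℓS) = ((a ℓ : ℤ) : 𝒪)) :
    ∃ g : CuspForm (Gamma0 N) 2, g.IsNormalizedEigenform ∧
      ∀ ℓ : ℕ, ℓ.Prime → ¬ ℓ ∣ N → ℓ ∉ S → qCoeff ⇑g ℓ = (a ℓ : ℂ) := by
  obtain ⟨v, hv0, hv⟩ := exists_eigenvector_of_point S χ
  refine Fermat.Agent.R.H99.exists_normalizedEigenform_of_eigenvector S (fun ℓ => (a ℓ : ℂ))
    v hv0 ?_
  intro ℓ hℓ hℓN hℓS
  -- `T_ℓ - a_ℓ ∈ ker χ`
  set t : heckeAlgebra N 2 S := heckeAlgebra.T hℓ hℓN hℓS - ((a ℓ : ℤ) : heckeAlgebra N 2 S)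
    with ht
  have hker : t ∈ RingHom.ker χ := by
    rw [RingHom.mem_ker, ht, map_sub, ha ℓ hℓ hℓN hℓS, map_intCast, sub_self]
  have h1 := hv t hker
  have h2 : (t : Module.End ℂ (CuspForm (Gamma0 N) 2))
      = heckeTLin 2 hℓ hℓN - ((a ℓ : ℤ) : Module.End ℂ (CuspForm (Gamma0 N) 2)) := by
    rw [ht]
    push_cast
    rfl
  rw [h2, LinearMap.sub_apply, sub_eq_zero] at h1
  rw [h1]
  simp [Int.cast_smul_eq_zsmul]

end Fermat.Agent.S59
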