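import Mathlib
import Fermat.Prelude.Def_CuspForm_HeckeGaloisRepDatum
import Fermat.Prelude.Def_GaloisRep_DeformationRingData
import Fermat.Agent.S54.Core
import Fermat.Agent.Lib.FrobExists
import Fermat.Agent.S59.EigenOfPoint

/-!
# S59 wiring (helper53), layer 2a: from `R = T` to an eigenform

`eigenform_of_RT_points`: let `D` be a universal deformation ring for `(ρbar, 𝒟)`, `H` a
Hecke–Galois datum of level `N` away from `S` with coefficient ring `T`, and `φ : D.R → T` the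
surjection of S54.  If every `𝒪`-point of `D.R` factors through `φ` (for instance if `φ` is
injective: `R = T`), then every representation `ρ` over `𝒪` of type `𝒟` lifting `ρbar`, with
integral Frobenius traces `a ℓ`, comes from a normalised eigenform of level `N`.

Everything is formal: universal property, `LinearMap.charpoly_baseChange`, existence of
Frobenius elements (`Lib/FrobExists`), and `exists_normalizedEigenform_of_point`.
-/

set_option autoImplicit false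

open Polynomial CuspForm CongruenceSubgroup ModularFormClass

namespace Fermat.Agent.S59

/-- `R = T`, points form: a point of the deformation ring which factors through the Hecke ring
gives a normalised eigenform. -/
theorem eigenform_of_RT_points
    {𝒪 : Type} [CommRing 𝒪] [IsDomain 𝒪] [IsDiscreteValuationRing 𝒪]
    [IsAdicComplete (IsLocalRing.maximalIdeal 𝒪) 𝒪] [CharZero 𝒪]
    {ρbar : ResidualGaloisRep (IsLocalRing.ResidueField 𝒪)}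
    {𝒟 : ∀ ⦃A : Type⦄ [CommRing A] [IsLocalRing A] [Algebra 𝒪 A], GaloisRepAdic A → Prop}
    (D : GaloisRep.DeformationRingData 𝒪 ρbar 𝒟)
    {N : ℕ} [NeZero N] {S : Set ℕ}
    {θ : CuspForm.heckeAlgebra N 2 S →+* IsLocalRing.ResidueField 𝒪}
    {T : Type} [CommRing T] [IsLocalRing T] [IsNoetherianRing T]
    [IsAdicComplete (IsLocalRing.maximalIdeal T) T] [Algebra 𝒪 T] [IsLocalHom (algebraMap 𝒪 T)]
    [Module.Finite 𝒪 T] [Module.Free 𝒪 T]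
    (H : CuspForm.HeckeGaloisRepDatum N S 𝒪 θ T)
    (φ : D.R →ₐ[𝒪] T) (hφs : Function.Surjective φ) (hφ : IsLocalHom (φ : D.R →+* T))
    (e : (D.ρ.baseChangeAlong (φ : D.R →+* T) hφ).IsEquiv H.ρ)
    (hpts : ∀ x : D.R →ₐ[𝒪] 𝒪, RingHom.ker (φ : D.R →+* T) ≤ RingHom.ker (x : D.R →+* 𝒪))
    (ρ : GaloisRepAdic 𝒪) (hρ : 𝒟 ρ)
    (hres : ρ.residual.IsEquiv
      (ρbar.baseChangeAlong (IsLocalRing.ResidueField.map (algebraMap 𝒪 𝒪))))
    (a : ℕ → ℤ)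
    (hfrob : ∀ ℓ : ℕ, ℓ.Prime → ¬ ℓ ∣ N → ℓ ∉ S →
      ∀ A : ValuationSubring (AlgebraicClosure ℚ), A.LiesOverPrime ℓ →
        ∀ σ : AlgebraicClosure ℚ ≃ₐ[ℚ] AlgebraicClosure ℚ, A.IsFrobeniusAt σ ℓ →
          LinearMap.charpoly (ρ.ρ σ) = X ^ 2 - C (((a ℓ : ℤ) : 𝒪)) * X + C ((ℓ : 𝒪))) :
    ∃ g : CuspForm (Gamma0 N) 2, g.IsNormalizedEigenform ∧
      ∀ ℓ : ℕ, ℓ.Prime → ¬ ℓ ∣ N → ℓ ∉ S → qCoeff ⇑g ℓ = (a ℓ : ℂ) := by
  -- the point of `D.R` given by `ρ`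
  have hsurj : Function.Surjective (IsLocalRing.residue 𝒪 ∘ algebraMap 𝒪 𝒪) := by
    intro y
    obtain ⟨x, rfl⟩ := IsLocalRing.residue_surjective y
    exact ⟨x, rfl⟩
  obtain ⟨x, ⟨hx, ⟨ex⟩⟩, -⟩ := D.universal 𝒪 hsurj ρ hρ hres
  obtain ⟨eφ⟩ := e
  -- it factors through `T`
  let ψ : T →ₐ[𝒪] 𝒪 := AlgHom.liftOfSurjective φ hφs x (hpts x)
  have hψ : ∀ r : D.R, ψ (φ r) = x r := fun r => AlgHom.liftOfSurjective_apply φ hφs x (hpts x) r
  -- the corresponding point of the Hecke algebra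
  let χ : CuspForm.heckeAlgebra N 2 S →+* 𝒪 := (ψ : T →+* 𝒪).comp H.π
  refine exists_normalizedEigenform_of_point S χ a ?_
  intro ℓ hℓ hℓN hℓS
  obtain ⟨A, σ, hA, hσ⟩ := Fermat.Agent.Lib.FrobExists.exists_place_and_frobenius ℓ hℓ
  have h1 := hfrob ℓ hℓ hℓN hℓS A hA σ hσ
  have h2 := H.charpoly_frob ℓ hℓ hℓN hℓS A hA σ hσ
  rw [Fermat.Agent.S54.charpoly_eq_map_of_equiv (φ : D.R →+* T) hφ D.ρ H.ρ eφ σ] at h2
  rw [Fermat.Agent.S54.charpoly_eq_map_of_equiv (x : D.R →+* 𝒪) hx D.ρ ρ ex σ] at h1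
  -- compare the coefficients of `X`
  have h3 := congrArg (fun p => p.coeff 1) h1
  have h4 := congrArg (fun p => p.coeff 1) h2
  simp only [coeff_map, coeff_add, coeff_sub, coeff_X_pow, coeff_C_mul, coeff_X_one,
    coeff_C] at h3 h4
  norm_num at h3 h4
  -- `h3 : x c = - a ℓ`, `h4 : φ c = - π T_ℓ`
  have h5 : ψ (φ ((LinearMap.charpoly (D.ρ.ρ σ)).coeff 1)) =
      x ((LinearMap.charpoly (D.ρ.ρ σ)).coeff 1) := hψ _
  have h6 : χ (CuspForm.heckeAlgebra.T hℓ hℓN hℓS) =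
      ψ (H.π (CuspForm.heckeAlgebra.T hℓ hℓN hℓS)) := rfl
  have h4' : H.π (CuspForm.heckeAlgebra.T hℓ hℓN hℓS) =
      - φ ((LinearMap.charpoly (D.ρ.ρ σ)).coeff 1) := by
    have := h4
    rw [this, neg_neg]
  have h3' : x ((LinearMap.charpoly (D.ρ.ρ σ)).coeff 1) = - ((a ℓ : ℤ) : 𝒪) := by
    exact h3
  rw [h6, h4', map_neg, h5, h3', neg_neg]

/-- `R = T` (injective form) gives an eigenform. -/
theorem eigenform_of_RT
    {𝒪 : Type} [CommRing 𝒪] [IsDomain 𝒪] [IsDiscreteValuationRing 𝒪]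
    [IsAdicComplete (IsLocalRing.maximalIdeal 𝒪) 𝒪] [CharZero 𝒪]
    {ρbar : ResidualGaloisRep (IsLocalRing.ResidueField 𝒪)}
    {𝒟 : ∀ ⦃A : Type⦄ [CommRing A] [IsLocalRing A] [Algebra 𝒪 A], GaloisRepAdic A → Prop}
    (D : GaloisRep.DeformationRingData 𝒪 ρbar 𝒟)
    {N : ℕ} [NeZero N] {S : Set ℕ}
    {θ : CuspForm.heckeAlgebra N 2 S →+* IsLocalRing.ResidueField 𝒪}
    {T : Type} [CommRing T] [IsLocalRing T] [IsNoetherianRing T]
    [IsAdicComplete (IsLocalRing.maximalIdeal T) T] [Algebra 𝒪 T] [IsLocalHom (algebraMap 𝒪 T)]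
    [Module.Finite 𝒪 T] [Module.Free 𝒪 T]
    (H : CuspForm.HeckeGaloisRepDatum N S 𝒪 θ T)
    (φ : D.R →ₐ[𝒪] T) (hφs : Function.Surjective φ) (hφi : Function.Injective φ)
    (hφ : IsLocalHom (φ : D.R →+* T))
    (e : (D.ρ.baseChangeAlong (φ : D.R →+* T) hφ).IsEquiv H.ρ)
    (ρ : GaloisRepAdic 𝒪) (hρ : 𝒟 ρ)
    (hres : ρ.residual.IsEquiv
      (ρbar.baseChangeAlong (IsLocalRing.ResidueField.map (algebraMap 𝒪 𝒪))))
    (a : ℕ → ℤ)
    (hfrob : ∀ ℓ : ℕ, ℓ.Prime → ¬ ℓ ∣ N → ℓ ∉ S →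
      ∀ A : ValuationSubring (AlgebraicClosure ℚ), A.LiesOverPrime ℓ →
        ∀ σ : AlgebraicClosure ℚ ≃ₐ[ℚ] AlgebraicClosure ℚ, A.IsFrobeniusAt σ ℓ →
          LinearMap.charpoly (ρ.ρ σ) = X ^ 2 - C (((a ℓ : ℤ) : 𝒪)) * X + C ((ℓ : 𝒪))) :
    ∃ g : CuspForm (Gamma0 N) 2, g.IsNormalizedEigenform ∧
      ∀ ℓ : ℕ, ℓ.Prime → ¬ ℓ ∣ N → ℓ ∉ S → qCoeff ⇑g ℓ = (a ℓ : ℂ) := by
  refine eigenform_of_RT_points D H φ hφs hφ e ?_ ρ hρ hres a hfrob
  intro x r hr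
  have : r = 0 := hφi (by simpa using hr)
  rw [this]
  exact Submodule.zero_mem _

end Fermat.Agent.S59
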