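import Mathlib
import Fermat.Prelude.Def_Algebra_PatchingDatum
import Fermat.Prelude.Def_CuspForm_HeckeGaloisRepDatum
import Fermat.Prelude.Def_GaloisRep_DeformationRingData
import Fermat.Agent.S57
import Fermat.Agent.S59.Patch.Main
import Fermat.Agent.S59.RT

/-!
# S59 wiring (helper53), layer 3: `R = T` from a Taylor–Wiles patching datum

* `injective_of_patchingDatum` : if `M ≠ 0` is a module over the deformation ring `D.R` on which
  `ker (φ : D.R → T)` acts trivially, and there is a patching datum for `(D.R, M)`, then `φ` is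
  injective.  (PATCH + S57: `M` is a faithful `D.R`-module.)
* `eigenform_of_patchingDatum` : hence every representation of type `𝒟` over `𝒪` lifting `ρbar`
  with integral Frobenius traces comes from a normalised eigenform of the level of `T`.

What remains for the minimal case of the modularity lifting theorem is therefore exactly the
construction of the patching datum (package TW-DATUM of `NOTES/plan/S59.md`).
-/

set_option autoImplicit false

open Polynomial CuspForm CongruenceSubgroup ModularFormClass IsLocalRing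

namespace Fermat.Agent.S59

/-- `R = T` from a patching datum. -/
theorem injective_of_patchingDatum
    {𝒪 : Type} [CommRing 𝒪] [IsDomain 𝒪] [IsDiscreteValuationRing 𝒪]
    [IsAdicComplete (maximalIdeal 𝒪) 𝒪] [Finite (ResidueField 𝒪)]
    {p : ℕ} (hp : (p : 𝒪) ∈ maximalIdeal 𝒪)
    {ρbar : ResidualGaloisRep (ResidueField 𝒪)}
    {𝒟 : ∀ ⦃A : Type⦄ [CommRing A] [IsLocalRing A] [Algebra 𝒪 A], GaloisRepAdic A → Prop}
    (D : GaloisRep.DeformationRingData 𝒪 ρbar 𝒟)
    {T : Type} [CommRing T] [Algebra 𝒪 T] (φ : D.R →ₐ[𝒪] T)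
    {M : Type} [AddCommGroup M] [Module D.R M] [Nontrivial M]
    (hM : ∀ a ∈ RingHom.ker (φ : D.R →+* T), ∀ x : M, a • x = 0)
    {r : ℕ} (P : Algebra.PatchingDatum 𝒪 p r D.R M) :
    Function.Injective φ := by
  obtain ⟨L⟩ := Fermat.Agent.S59.Patch.patch hp D.residue_surjective P
  obtain ⟨-, hann, -⟩ := Fermat.Agent.S57.result L
  rw [injective_iff_map_eq_zero]
  intro a ha
  have h1 : a ∈ Module.annihilator D.R M := by
    rw [Module.mem_annihilator]
    exact hM a ha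
  rw [hann] at h1
  exact (Submodule.mem_bot _).mp h1

/-- The minimal case of modularity lifting, from a patching datum. -/
theorem eigenform_of_patchingDatum
    {𝒪 : Type} [CommRing 𝒪] [IsDomain 𝒪] [IsDiscreteValuationRing 𝒪]
    [IsAdicComplete (maximalIdeal 𝒪) 𝒪] [Finite (ResidueField 𝒪)] [CharZero 𝒪]
    {p : ℕ} (hp : (p : 𝒪) ∈ maximalIdeal 𝒪)
    {ρbar : ResidualGaloisRep (ResidueField 𝒪)}
    {𝒟 : ∀ ⦃A : Type⦄ [CommRing A] [IsLocalRing A] [Algebra 𝒪 A], GaloisRepAdic A → Prop}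
    (D : GaloisRep.DeformationRingData 𝒪 ρbar 𝒟)
    {N : ℕ} [NeZero N] {S : Set ℕ}
    {θ : CuspForm.heckeAlgebra N 2 S →+* ResidueField 𝒪}
    {T : Type} [CommRing T] [IsLocalRing T] [IsNoetherianRing T]
    [IsAdicComplete (maximalIdeal T) T] [Algebra 𝒪 T] [IsLocalHom (algebraMap 𝒪 T)]
    [Module.Finite 𝒪 T] [Module.Free 𝒪 T]
    (H : CuspForm.HeckeGaloisRepDatum N S 𝒪 θ T)
    (φ : D.R →ₐ[𝒪] T) (hφs : Function.Surjective φ) (hφ : IsLocalHom (φ : D.R →+* T))
    (e : (D.ρ.baseChangeAlong (φ : D.R →+* T) hφ).IsEquiv H.ρ)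
    {M : Type} [AddCommGroup M] [Module D.R M] [Nontrivial M]
    (hM : ∀ a ∈ RingHom.ker (φ : D.R →+* T), ∀ x : M, a • x = 0)
    {r : ℕ} (P : Algebra.PatchingDatum 𝒪 p r D.R M)
    (ρ : GaloisRepAdic 𝒪) (hρ : 𝒟 ρ)
    (hres : ρ.residual.IsEquiv
      (ρbar.baseChangeAlong (ResidueField.map (algebraMap 𝒪 𝒪))))
    (a : ℕ → ℤ)
    (hfrob : ∀ ℓ : ℕ, ℓ.Prime → ¬ ℓ ∣ N → ℓ ∉ S →
      ∀ A : ValuationSubring (AlgebraicClosure ℚ), A.LiesOverPrime ℓ →
        ∀ σ : AlgebraicClosure ℚ ≃ₐ[ℚ] AlgebraicClosure ℚ, A.IsFrobeniusAt σ ℓ →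
          LinearMap.charpoly (ρ.ρ σ) = X ^ 2 - C (((a ℓ : ℤ) : 𝒪)) * X + C ((ℓ : 𝒪))) :
    ∃ g : CuspForm (Gamma0 N) 2, g.IsNormalizedEigenform ∧
      ∀ ℓ : ℕ, ℓ.Prime → ¬ ℓ ∣ N → ℓ ∉ S → qCoeff ⇑g ℓ = (a ℓ : ℂ) :=
  eigenform_of_RT D H φ hφs (injective_of_patchingDatum hp D φ hM P) hφ e ρ hρ hres a hfrob

end Fermat.Agent.S59
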