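import Mathlib
import Fermat.Prelude.Def_Algebra_PatchingDatum
import Fermat.Agent.S53.Limit
import Fermat.Agent.S56.H50_Gen
import Fermat.Agent.S59.Patch.Limit

/-!
# S59 wiring (helper53): package TW-DATUM

The interface between the three inputs of the Taylor–Wiles argument
(S56: `γ : 𝒪⟦x₁,…,x_r⟧ ↠ R_Q`; TW-GAL: the elements `δ_j = χ₁(σ_{q_j}) ∈ R_Q` and `τ : R_Q ↠ R`;
TW-HECKE: the `R_Q`-module `N` free over `𝒪[Δ_Q / p^n]`) and the prelude structure
`Algebra.PatchingDatum`.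

* `TWLevel 𝒪 p r R M n` : the data at level `n`, in ring-theoretic form.
* `Stmt_DIV` : division by the ideal `J_n = ((1 + X_j)^(p^n) - 1)_j` in `𝒪⟦X₁,…,X_r⟧`.
* `TWLevel.toPatchingLevel`, `patchingDatum_of_twLevels` : the assembly.
-/

set_option autoImplicit false
set_option linter.style.haveILetI false
set_option linter.unusedSectionVars false

open IsLocalRing MvPowerSeries

namespace Fermat.Agent.S59

/-- The monomial `∏_j (1 + X_j)^(e_j)` in `𝒪⟦X₁,…,X_r⟧`. -/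
noncomputable def onePlusXPow (𝒪 : Type) [CommRing 𝒪] {r : ℕ} {m : ℕ} (e : Fin r → Fin m) :
    MvPowerSeries (Fin r) 𝒪 :=
  ∏ j, (1 + X j) ^ (e j : ℕ)

/-- The relation ideal `J_n` of `Algebra.PatchingDatum.level`. -/
noncomputable def twIdeal (𝒪 : Type) [CommRing 𝒪] (p r n : ℕ) : Ideal (MvPowerSeries (Fin r) 𝒪) :=
  Ideal.span (Set.range fun j : Fin r =>
    ((1 + MvPowerSeries.X j) ^ (p ^ n) - 1 : MvPowerSeries (Fin r) 𝒪))

/-- **DIV**: every power series is congruent modulo `J_n` to an `𝒪`-combination of the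
`∏_j (1 + X_j)^(e_j)`, `e_j < p^n`. -/
def Stmt_DIV (𝒪 : Type) [CommRing 𝒪] (p r n : ℕ) : Prop :=
  ∀ c : MvPowerSeries (Fin r) 𝒪, ∃ a : (Fin r → Fin (p ^ n)) → 𝒪,
    c - ∑ e, C (a e) * onePlusXPow 𝒪 e ∈ twIdeal 𝒪 p r n

/-- The data of the Taylor–Wiles argument at level `n`. -/
structure TWLevel (𝒪 : Type) [CommRing 𝒪] [IsLocalRing 𝒪] (p r : ℕ) (R : Type) [CommRing R]
    [Algebra 𝒪 R]
    (M : Type) [AddCommGroup M] [Module R M] (n : ℕ) : Type 1 where
  /-- the deformation ring `R_Q` -/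
  RQ : Type
  [instCommRing : CommRing RQ]
  [instAlgebra : Algebra 𝒪 RQ]
  /-- S56 -/
  γ : MvPowerSeries (Fin r) 𝒪 →ₐ[𝒪] RQ
  γ_surjective : Function.Surjective γ
  /-- forgetting the ramification at `Q` -/
  τ : RQ →ₐ[𝒪] R
  τ_surjective : Function.Surjective τ
  /-- the images of the generators of `Δ_Q` (TW-GAL) -/
  δ : Fin r → RQ
  δ_sub_one : ∀ j, ∃ y ∈ maximalIdeal (MvPowerSeries (Fin r) 𝒪), γ y = δ j - 1
  τ_δ : ∀ j, τ (δ j) = 1
  /-- the Hecke module (TW-HECKE) -/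
  N : Type
  [instAddCommGroup : AddCommGroup N]
  [instModule : Module RQ N]
  δ_pow : ∀ (j : Fin r) (x : N), (δ j ^ (p ^ n)) • x = x
  π : N →+ M
  π_smul : ∀ (a : RQ) (x : N), π (a • x) = τ a • π x
  π_surjective : Function.Surjective π
  ker_π : ∀ x : N, π x = 0 ↔
    x ∈ (Ideal.span (Set.range fun j : Fin r => δ j - 1)) • (⊤ : Submodule RQ N)
  d : ℕ
  b : Fin d → N
  b_basis : Function.Bijective (fun f : Fin d × (Fin r → Fin (p ^ n)) → 𝒪 =>
    ∑ x : Fin d × (Fin r → Fin (p ^ n)),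
      (algebraMap 𝒪 RQ (f x) * ∏ j, δ j ^ (x.2 j : ℕ)) • b x.1)

attribute [instance] TWLevel.instCommRing TWLevel.instAlgebra TWLevel.instAddCommGroup
  TWLevel.instModule

namespace TWLevel

variable {𝒪 : Type} [CommRing 𝒪] [IsLocalRing 𝒪] [IsNoetherianRing 𝒪]
  [IsAdicComplete (maximalIdeal 𝒪) 𝒪]
  {p r : ℕ} {R : Type} [CommRing R] [Algebra 𝒪 R]
  {M : Type} [AddCommGroup M] [Module R M] {n : ℕ}

/-- the chosen preimages of `δ_j - 1` -/
noncomputable def y (L : TWLevel 𝒪 p r R M n) (j : Fin r) : MvPowerSeries (Fin r) 𝒪 :=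
  (L.δ_sub_one j).choose

theorem y_mem (L : TWLevel 𝒪 p r R M n) (j : Fin r) :
    L.y j ∈ maximalIdeal (MvPowerSeries (Fin r) 𝒪) :=
  (L.δ_sub_one j).choose_spec.1

theorem γ_y (L : TWLevel 𝒪 p r R M n) (j : Fin r) : L.γ (L.y j) = L.δ j - 1 :=
  (L.δ_sub_one j).choose_spec.2

theorem exists_φ (L : TWLevel 𝒪 p r R M n) :
    ∃ φ : MvPowerSeries (Fin r) 𝒪 →ₐ[𝒪] MvPowerSeries (Fin r) 𝒪,
      ∀ j, φ (X j) = L.y j := by
  haveI : IsAdicComplete (maximalIdeal (MvPowerSeries (Fin r) 𝒪)) (MvPowerSeries (Fin r) 𝒪) :=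
    Fermat.Agent.S53.Limit.isAdicComplete_mvPowerSeries_fin 𝒪 r
  exact Fermat.Agent.S56.H50.exists_eval r (fun j => L.y j) (fun j => L.y_mem j)

/-- the substitution `X_j ↦ y_j` -/
noncomputable def φ (L : TWLevel 𝒪 p r R M n) :
    MvPowerSeries (Fin r) 𝒪 →ₐ[𝒪] MvPowerSeries (Fin r) 𝒪 :=
  L.exists_φ.choose

theorem φ_X (L : TWLevel 𝒪 p r R M n) (j : Fin r) : L.φ (X j) = L.y j :=
  L.exists_φ.choose_spec j

theorem γ_φ_X (L : TWLevel 𝒪 p r R M n) (j : Fin r) : L.γ (L.φ (X j)) = L.δ j - 1 := by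
  rw [L.φ_X, L.γ_y]

theorem γ_φ_onePlusXPow (L : TWLevel 𝒪 p r R M n) {m : ℕ} (e : Fin r → Fin m) :
    L.γ (L.φ (onePlusXPow 𝒪 e)) = ∏ j, L.δ j ^ (e j : ℕ) := by
  rw [onePlusXPow, map_prod, map_prod]
  refine Finset.prod_congr rfl fun j _ => ?_
  rw [map_pow, map_pow, map_add, map_add, map_one, map_one, L.γ_φ_X]
  congr 1
  ring

theorem γ_φ_C (L : TWLevel 𝒪 p r R M n) (a : 𝒪) :
    L.γ (L.φ (C a)) = algebraMap 𝒪 L.RQ a := by
  have h1 : (C a : MvPowerSeries (Fin r) 𝒪) = algebraMap 𝒪 (MvPowerSeries (Fin r) 𝒪) a := rfl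
  rw [h1, AlgHom.commutes, AlgHom.commutes]

/-- elements of `γ (φ J_n)` kill `N` -/
theorem γ_φ_smul_eq_zero (L : TWLevel 𝒪 p r R M n) {c : MvPowerSeries (Fin r) 𝒪}
    (hc : c ∈ twIdeal 𝒪 p r n) (x : L.N) : L.γ (L.φ c) • x = 0 := by
  rw [twIdeal] at hc
  obtain ⟨h, rfl⟩ := (Ideal.mem_span_range_iff_exists_fun).mp hc
  rw [map_sum, map_sum, Finset.sum_smul]
  refine Finset.sum_eq_zero fun j _ => ?_
  rw [map_mul, map_mul, map_sub, map_sub, map_pow, map_pow, map_add, map_add, map_one, map_one,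
    L.γ_φ_X, mul_smul]
  have : (1 + (L.δ j - 1)) ^ (p ^ n) = L.δ j ^ (p ^ n) := by congr 1; ring
  rw [this, sub_smul, L.δ_pow, one_smul, sub_self, smul_zero]

/-- The patching level attached to a Taylor–Wiles level. -/
noncomputable def toPatchingLevel (L : TWLevel 𝒪 p r R M n) (hDIV : Stmt_DIV 𝒪 p r n) :
    Algebra.PatchingLevel 𝒪 r R M (twIdeal 𝒪 p r n) :=
  letI : Module (MvPowerSeries (Fin r) 𝒪) L.N :=
    Module.compHom L.N (L.γ : MvPowerSeries (Fin r) 𝒪 →+* L.RQ)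
  have hsm : ∀ (f : MvPowerSeries (Fin r) 𝒪) (x : L.N), f • x = L.γ f • x := fun _ _ => rfl
  { N := L.N
    φ := L.φ
    ψ := L.τ.comp L.γ
    ψ_surjective := L.τ_surjective.comp L.γ_surjective
    ψ_φ_X := fun j => by
      show L.τ (L.γ (L.φ (X j))) = 0
      rw [L.γ_φ_X, map_sub, L.τ_δ, map_one, sub_self]
    π := L.π
    π_smul := fun f x => by
      rw [hsm, L.π_smul]
      rfl
    π_surjective := L.π_surjective
    ker_π := fun x => by
      rw [L.ker_π]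
      constructor
      · intro hx
        obtain ⟨z, rfl⟩ := Fermat.Agent.S59.Patch.exists_sum_of_mem_span_smul_top _ hx
        refine Submodule.sum_mem _ fun j _ => ?_
        have : (L.δ j - 1) • z j = L.φ (X j) • z j := by
          rw [hsm, L.γ_φ_X]
        rw [this]
        exact Submodule.smul_mem_smul (Ideal.subset_span ⟨j, rfl⟩) Submodule.mem_top
      · intro hx
        obtain ⟨z, rfl⟩ := Fermat.Agent.S59.Patch.exists_sum_of_mem_span_smul_top _ hx
        refine Submodule.sum_mem _ fun j _ => ?_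
        have : L.φ (X j) • z j = (L.δ j - 1) • z j := by
          rw [hsm, L.γ_φ_X]
        rw [this]
        exact Submodule.smul_mem_smul (Ideal.subset_span ⟨j, rfl⟩) Submodule.mem_top
    d := L.d
    b := L.b
    b_span := fun x => by
      obtain ⟨f, hf⟩ := L.b_basis.2 x
      refine ⟨fun i => ∑ e, C (f (i, e)) * onePlusXPow 𝒪 e, ?_⟩
      rw [← hf]
      show ∑ x : Fin L.d × (Fin r → Fin (p ^ n)),
          (algebraMap 𝒪 L.RQ (f x) * ∏ j, L.δ j ^ (x.2 j : ℕ)) • L.b x.1 = _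
      rw [Fintype.sum_prod_type]
      refine Finset.sum_congr rfl fun i _ => ?_
      rw [hsm, map_sum, map_sum, Finset.sum_smul]
      refine Finset.sum_congr rfl fun e _ => ?_
      rw [map_mul, map_mul, L.γ_φ_C, L.γ_φ_onePlusXPow]
    b_rel := fun c => by
      constructor
      · intro h i
        choose a ha using fun i => hDIV (c i)
        have h1 : ∀ i, L.φ (c i) • L.b i =
            ∑ e, (algebraMap 𝒪 L.RQ (a i e) * ∏ j, L.δ j ^ (e j : ℕ)) • L.b i := by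
          intro i
          have h2 : c i = (c i - ∑ e, C (a i e) * onePlusXPow 𝒪 e) +
              ∑ e, C (a i e) * onePlusXPow 𝒪 e := by ring
          rw [hsm]
          conv_lhs => rw [h2]
          rw [map_add, map_add, add_smul, L.γ_φ_smul_eq_zero (ha i), zero_add, map_sum, map_sum,
            Finset.sum_smul]
          refine Finset.sum_congr rfl fun e _ => ?_
          rw [map_mul, map_mul, L.γ_φ_C, L.γ_φ_onePlusXPow]
        have h3 : (fun f : Fin L.d × (Fin r → Fin (p ^ n)) → 𝒪 =>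
            ∑ x : Fin L.d × (Fin r → Fin (p ^ n)),
              (algebraMap 𝒪 L.RQ (f x) * ∏ j, L.δ j ^ (x.2 j : ℕ)) • L.b x.1)
            (fun x => a x.1 x.2) = 0 := by
          show ∑ x : Fin L.d × (Fin r → Fin (p ^ n)),
              (algebraMap 𝒪 L.RQ (a x.1 x.2) * ∏ j, L.δ j ^ (x.2 j : ℕ)) • L.b x.1 = 0
          rw [Fintype.sum_prod_type, ← h]
          exact Finset.sum_congr rfl fun i _ => (h1 i).symm
        have h4 : (fun f : Fin L.d × (Fin r → Fin (p ^ n)) → 𝒪 =>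
            ∑ x : Fin L.d × (Fin r → Fin (p ^ n)),
              (algebraMap 𝒪 L.RQ (f x) * ∏ j, L.δ j ^ (x.2 j : ℕ)) • L.b x.1) 0 = 0 := by
          show ∑ x : Fin L.d × (Fin r → Fin (p ^ n)),
              (algebraMap 𝒪 L.RQ ((0 : Fin L.d × (Fin r → Fin (p ^ n)) → 𝒪) x) *
                ∏ j, L.δ j ^ (x.2 j : ℕ)) • L.b x.1 = 0
          simp
        have h5 := L.b_basis.1 (h3.trans h4.symm)
        have h6 : ∀ e, a i e = 0 := fun e => congrFun h5 (i, e)
        have h7 := ha i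
        simp only [h6, map_zero, zero_mul, Finset.sum_const_zero, sub_zero] at h7
        exact h7
      · intro h
        refine Finset.sum_eq_zero fun i _ => ?_
        rw [hsm]
        exact L.γ_φ_smul_eq_zero (h i) _ }

end TWLevel

/-- **TW-DATUM**: Taylor–Wiles levels for all `n` give a patching datum. -/
theorem patchingDatum_of_twLevels
    {𝒪 : Type} [CommRing 𝒪] [IsLocalRing 𝒪] [IsNoetherianRing 𝒪]
    [IsAdicComplete (maximalIdeal 𝒪) 𝒪]
    {p r : ℕ} {R : Type} [CommRing R] [Algebra 𝒪 R]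
    {M : Type} [AddCommGroup M] [Module R M]
    (hDIV : ∀ n, Stmt_DIV 𝒪 p r n)
    (L : ∀ n, Nonempty (TWLevel 𝒪 p r R M n)) :
    Nonempty (Algebra.PatchingDatum 𝒪 p r R M) :=
  ⟨⟨fun n => (L n).some.toPatchingLevel (hDIV n)⟩⟩

end Fermat.Agent.S59
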