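import Mathlib
import Fermat.Agent.S56.Defs
import Fermat.Agent.S59.TW
import Fermat.Agent.S59.TWDatum

/-!
# S59 wiring (helper53), layer 2: the MINIMAL case of the modularity lifting theorem

`mlt_min : Stmt_DEF → Stmt_TWprimes → Stmt_TWH → Stmt_DIVall → Stmt_MLTmin`

* `cond 𝒪 p fl Smin T` : the deformation condition (flat if `fl = true`, strictly ordinary if
  `fl = false`) of the frozen S56: determinant cyclotomic, local type at `p`, unramified outside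
  `Smin ∪ T`, unipotent on inertia at `Smin ∖ {p}`.
* `minLevel p fl Smin` : the minimal level `∏_{q ∈ Smin, q ≠ p} q · (1 or p)`.
* `Stmt_DEF`      : the universal deformation ring of `cond` exists (S53 + deformation condition
                    + finite tangent space).
* `Stmt_TWprimes` : one half of the frozen S56, in terms of `cond`.
* `Stmt_TWH`      : the Hecke side: Hecke–Galois datum over the FULL Hecke ring `T` at the minimal
                    level, `φ : R ↠ T`, a nonzero `T`-module `M`, and for every Taylor–Wiles family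
                    `Q` of level `n` a `TWLevel` (TW-GAL + TW-HECKE = LG-NEB).
* `Stmt_MLTmin`   : modularity lifting for `ρ` of minimal type.
-/

set_option autoImplicit false
set_option linter.style.haveILetI false
set_option linter.unusedSectionVars false

open Polynomial CuspForm CongruenceSubgroup ModularFormClass IsLocalRing

namespace Fermat.Agent.S59

/-- The deformation condition of the frozen S56: flat (`fl = true`) or strictly ordinary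
(`fl = false`) at `p`. -/
def cond (𝒪 : Type) [CommRing 𝒪] (p : ℕ) : Bool → Finset ℕ → Finset ℕ →
    ∀ ⦃A : Type⦄ [CommRing A] [IsLocalRing A] [Algebra 𝒪 A], GaloisRepAdic A → Prop
  | true => Fermat.Agent.S56.condFl 𝒪 p
  | false => Fermat.Agent.S56.condSO 𝒪 p

/-- The minimal level. -/
def minLevel (p : ℕ) (fl : Bool) (Smin : Finset ℕ) : ℕ :=
  (∏ q ∈ Smin.erase p, q) * (if fl then 1 else p)

theorem minLevel_ne_zero {p : ℕ} (hp : p.Prime) (fl : Bool) {Smin : Finset ℕ}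
    (hS : ∀ q ∈ Smin, q.Prime) : minLevel p fl Smin ≠ 0 := by
  unfold minLevel
  refine mul_ne_zero (Finset.prod_ne_zero_iff.mpr fun q hq => ?_) ?_
  · exact (hS q (Finset.mem_of_mem_erase hq)).ne_zero
  · split
    · exact one_ne_zero
    · exact hp.ne_zero

/-- **DEF**: the universal deformation ring of `cond` exists. -/
def Stmt_DEF : Prop :=
  ∀ (𝒪 : Type) [CommRing 𝒪] [IsDomain 𝒪] [IsDiscreteValuationRing 𝒪]
    [IsAdicComplete (maximalIdeal 𝒪) 𝒪] [Finite (ResidueField 𝒪)]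
    (p : ℕ) [Fact p.Prime], p ≠ 2 → (p : 𝒪) ∈ maximalIdeal 𝒪 →
    ∀ (fl : Bool) (ρbar : ResidualGaloisRep (ResidueField 𝒪)),
    ρbar.IsAbsolutelyIrreducible →
    ∀ (Smin T : Finset ℕ), p ∈ Smin → (∀ q ∈ Smin ∪ T, q.Prime) →
    cond 𝒪 p fl Smin T (GaloisRepAdic.ofResidualGaloisRep ρbar) →
    Nonempty (GaloisRep.DeformationRingData 𝒪 ρbar (cond 𝒪 p fl Smin T))

/-- The standing hypotheses on the residual representation. -/
structure ResHyp {𝒪 : Type} [CommRing 𝒪] [IsLocalRing 𝒪] (p : ℕ)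
    (ρbar : ResidualGaloisRep (ResidueField 𝒪)) (Smin : Finset ℕ) : Prop where
  habs : ρbar.IsAbsolutelyIrreducible
  hdet : (GaloisRepAdic.ofResidualGaloisRep ρbar).DetIsCyclotomic p
  hsplit : ∀ σ : AlgebraicClosure ℚ ≃ₐ[ℚ] AlgebraicClosure ℚ,
    ∃ α β : ResidueField 𝒪, LinearMap.charpoly (ρbar.ρ σ) = (X - C α) * (X - C β)
  hTW : ∀ (K : Type) [Field K] [Algebra (ResidueField 𝒪) K]
    (G : Subgroup (AlgebraicClosure ℚ ≃ₐ[ℚ] AlgebraicClosure ℚ)), G.index = 2 →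
    ∀ V : Submodule K (ρbar.baseChange K).V,
      (∀ σ ∈ G, ∀ x ∈ V, (ρbar.baseChange K).ρ σ x ∈ V) → V = ⊥ ∨ V = ⊤
  hpSmin : p ∈ Smin
  hS : ∀ q ∈ Smin, q.Prime
  hmin : ∀ q : ℕ, q.Prime → q ≠ p → (q ∈ Smin ↔ ¬ ρbar.IsUnramifiedAt q)

/-- **TW primes** (one half of the frozen S56, with `S = Smin`). -/
def Stmt_TWprimes : Prop :=
  ∀ (𝒪 : Type) [CommRing 𝒪] [IsDomain 𝒪] [IsDiscreteValuationRing 𝒪]
    [IsAdicComplete (maximalIdeal 𝒪) 𝒪] [Finite (ResidueField 𝒪)]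
    (p : ℕ) [Fact p.Prime], p ≠ 2 → (p : 𝒪) ∈ maximalIdeal 𝒪 →
    ∀ (fl : Bool) (ρbar : ResidualGaloisRep (ResidueField 𝒪)) (Smin : Finset ℕ),
    ResHyp p ρbar Smin →
    ∃ r : ℕ, ∀ n : ℕ, ∃ qv : Fin r → ℕ, Fermat.Agent.S56.IsTWFamily ρbar p n Smin qv ∧
      ∀ DQ : GaloisRep.DeformationRingData 𝒪 ρbar (cond 𝒪 p fl Smin (Finset.univ.image qv)),
        ∃ γ : MvPowerSeries (Fin r) 𝒪 →ₐ[𝒪] DQ.R, Function.Surjective γ

/-- The Hecke side at the minimal level: the full Hecke ring with its Galois representation, the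
surjection from the deformation ring and a Hecke module. -/
structure MinData {𝒪 : Type} [CommRing 𝒪] [IsDomain 𝒪] [IsDiscreteValuationRing 𝒪]
    [IsAdicComplete (maximalIdeal 𝒪) 𝒪]
    {ρbar : ResidualGaloisRep (ResidueField 𝒪)}
    {𝒟 : ∀ ⦃A : Type⦄ [CommRing A] [IsLocalRing A] [Algebra 𝒪 A], GaloisRepAdic A → Prop}
    (D : GaloisRep.DeformationRingData 𝒪 ρbar 𝒟)
    (N : ℕ) [NeZero N] (S : Set ℕ) (θ : CuspForm.heckeAlgebra N 2 S →+* ResidueField 𝒪) :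
    Type 1 where
  T : Type
  [instCommRing : CommRing T]
  [instIsLocalRing : IsLocalRing T]
  [instIsNoetherianRing : IsNoetherianRing T]
  [instIsAdicComplete : IsAdicComplete (maximalIdeal T) T]
  [instAlgebra : Algebra 𝒪 T]
  [instIsLocalHom : IsLocalHom (algebraMap 𝒪 T)]
  [instFinite : Module.Finite 𝒪 T]
  [instFree : Module.Free 𝒪 T]
  H : CuspForm.HeckeGaloisRepDatum N S 𝒪 θ T
  φ : D.R →ₐ[𝒪] T
  φ_surjective : Function.Surjective φ
  φ_local : IsLocalHom (φ : D.R →+* T)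
  φ_equiv : (D.ρ.baseChangeAlong (φ : D.R →+* T) φ_local).IsEquiv H.ρ
  M : Type
  [instAddCommGroup : AddCommGroup M]
  [instModule : Module D.R M]
  [instNontrivial : Nontrivial M]
  ker_smul : ∀ a ∈ RingHom.ker (φ : D.R →+* T), ∀ x : M, a • x = 0

attribute [instance] MinData.instCommRing MinData.instIsLocalRing MinData.instIsNoetherianRing
  MinData.instIsAdicComplete MinData.instAlgebra MinData.instIsLocalHom MinData.instFinite
  MinData.instFree MinData.instAddCommGroup MinData.instModule MinData.instNontrivial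

/-- **TW-HECKE + TW-GAL + DATUM** at the minimal level: the Hecke data and, for every
Taylor–Wiles family, the Taylor–Wiles level. -/
def Stmt_TWH : Prop :=
  ∀ (𝒪 : Type) [CommRing 𝒪] [IsDomain 𝒪] [IsDiscreteValuationRing 𝒪]
    [IsAdicComplete (maximalIdeal 𝒪) 𝒪] [Finite (ResidueField 𝒪)] [CharZero 𝒪]
    (p : ℕ) [Fact p.Prime], p ≠ 2 → (p : 𝒪) ∈ maximalIdeal 𝒪 →
    ∀ (fl : Bool) (ρbar : ResidualGaloisRep (ResidueField 𝒪)) (Smin : Finset ℕ),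
    ResHyp p ρbar Smin →
    ∀ (D : GaloisRep.DeformationRingData 𝒪 ρbar (cond 𝒪 p fl Smin ∅))
      (N : ℕ) [NeZero N], N = minLevel p fl Smin →
    ∀ (θ : CuspForm.heckeAlgebra N 2 (Smin : Set ℕ) →+* ResidueField 𝒪),
    (∀ (ℓ : ℕ) (hℓ : ℓ.Prime) (hℓN : ¬ ℓ ∣ N) (hℓS : ℓ ∉ (Smin : Set ℕ)),
      ∀ A : ValuationSubring (AlgebraicClosure ℚ), A.LiesOverPrime ℓ →
        ∀ σ : AlgebraicClosure ℚ ≃ₐ[ℚ] AlgebraicClosure ℚ, A.IsFrobeniusAt σ ℓ →
          LinearMap.charpoly (ρbar.ρ σ) =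
            X ^ 2 - C (θ (heckeAlgebra.T hℓ hℓN hℓS)) * X + C ((ℓ : ResidueField 𝒪))) →
    ∃ X : MinData D N (Smin : Set ℕ) θ,
      ∀ (r n : ℕ) (qv : Fin r → ℕ), Fermat.Agent.S56.IsTWFamily ρbar p n Smin qv →
        ∀ (DQ : GaloisRep.DeformationRingData 𝒪 ρbar (cond 𝒪 p fl Smin (Finset.univ.image qv)))
          (γ : MvPowerSeries (Fin r) 𝒪 →ₐ[𝒪] DQ.R), Function.Surjective γ →
          Nonempty (TWLevel 𝒪 p r D.R X.M n)

/-- DIV for all complete discrete valuation rings. -/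
def Stmt_DIVall : Prop :=
  ∀ (𝒪 : Type) [CommRing 𝒪] [IsDomain 𝒪] [IsDiscreteValuationRing 𝒪]
    [IsAdicComplete (maximalIdeal 𝒪) 𝒪] (p : ℕ), (p : 𝒪) ∈ maximalIdeal 𝒪 →
    ∀ (r n : ℕ), Stmt_DIV 𝒪 p r n

/-- **Modularity lifting, minimal case.** -/
def Stmt_MLTmin : Prop :=
  ∀ (𝒪 : Type) [CommRing 𝒪] [IsDomain 𝒪] [IsDiscreteValuationRing 𝒪]
    [IsAdicComplete (maximalIdeal 𝒪) 𝒪] [Finite (ResidueField 𝒪)] [CharZero 𝒪]
    (p : ℕ) [Fact p.Prime], p ≠ 2 → (p : 𝒪) ∈ maximalIdeal 𝒪 →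
    ∀ (fl : Bool) (ρbar : ResidualGaloisRep (ResidueField 𝒪)) (Smin : Finset ℕ),
    ResHyp p ρbar Smin →
    cond 𝒪 p fl Smin ∅ (GaloisRepAdic.ofResidualGaloisRep ρbar) →
    ∀ (N : ℕ) [NeZero N], N = minLevel p fl Smin →
    ∀ (θ : CuspForm.heckeAlgebra N 2 (Smin : Set ℕ) →+* ResidueField 𝒪),
    (∀ (ℓ : ℕ) (hℓ : ℓ.Prime) (hℓN : ¬ ℓ ∣ N) (hℓS : ℓ ∉ (Smin : Set ℕ)),
      ∀ A : ValuationSubring (AlgebraicClosure ℚ), A.LiesOverPrime ℓ →
        ∀ σ : AlgebraicClosure ℚ ≃ₐ[ℚ] AlgebraicClosure ℚ, A.IsFrobeniusAt σ ℓ →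
          LinearMap.charpoly (ρbar.ρ σ) =
            X ^ 2 - C (θ (heckeAlgebra.T hℓ hℓN hℓS)) * X + C ((ℓ : ResidueField 𝒪))) →
    ∀ (ρ : GaloisRepAdic 𝒪), cond 𝒪 p fl Smin ∅ ρ →
    ρ.residual.IsEquiv (ρbar.baseChangeAlong (ResidueField.map (algebraMap 𝒪 𝒪))) →
    ∀ (a : ℕ → ℤ),
    (∀ ℓ : ℕ, ℓ.Prime → ¬ ℓ ∣ N → ℓ ∉ (Smin : Set ℕ) →
      ∀ A : ValuationSubring (AlgebraicClosure ℚ), A.LiesOverPrime ℓ →
        ∀ σ : AlgebraicClosure ℚ ≃ₐ[ℚ] AlgebraicClosure ℚ, A.IsFrobeniusAt σ ℓ →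
          LinearMap.charpoly (ρ.ρ σ) = X ^ 2 - C (((a ℓ : ℤ) : 𝒪)) * X + C ((ℓ : 𝒪))) →
    ∃ g : CuspForm (Gamma0 N) 2, g.IsNormalizedEigenform ∧
      ∀ ℓ : ℕ, ℓ.Prime → ¬ ℓ ∣ N → ℓ ∉ (Smin : Set ℕ) → qCoeff ⇑g ℓ = (a ℓ : ℂ)

/-- **The minimal case of the modularity lifting theorem** from its four inputs. -/
theorem mlt_min (hDEF : Stmt_DEF) (hTWP : Stmt_TWprimes) (hTWH : Stmt_TWH)
    (hDIV : Stmt_DIVall) : Stmt_MLTmin := by
  intro 𝒪 _ _ _ _ _ _ p _ hp2 hp𝒪 fl ρbar Smin hyp hbar N _ hN θ hθ ρ hρ hres a hfrob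
  obtain ⟨D⟩ := hDEF 𝒪 p hp2 hp𝒪 fl ρbar hyp.habs Smin ∅ hyp.hpSmin
    (fun q hq => hyp.hS q (by simpa using hq)) hbar
  obtain ⟨X, hX⟩ := hTWH 𝒪 p hp2 hp𝒪 fl ρbar Smin hyp D N hN θ hθ
  obtain ⟨r, hr⟩ := hTWP 𝒪 p hp2 hp𝒪 fl ρbar Smin hyp
  have hL : ∀ n, Nonempty (TWLevel 𝒪 p r D.R X.M n) := by
    intro n
    obtain ⟨qv, hqv, hγ⟩ := hr n
    have hbarQ : cond 𝒪 p fl Smin (Finset.univ.image qv)
        (GaloisRepAdic.ofResidualGaloisRep ρbar) := by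
      cases fl
      · refine ⟨⟨hbar.1.1, hbar.1.2.1, fun q hq hqS => hbar.1.2.2 q hq ?_⟩, hbar.2⟩
        intro h
        exact hqS (Finset.mem_union_left _ (by simpa using h))
      · refine ⟨⟨hbar.1.1, hbar.1.2.1, fun q hq hqS => hbar.1.2.2 q hq ?_⟩, hbar.2⟩
        intro h
        exact hqS (Finset.mem_union_left _ (by simpa using h))
    obtain ⟨DQ⟩ := hDEF 𝒪 p hp2 hp𝒪 fl ρbar hyp.habs Smin (Finset.univ.image qv) hyp.hpSmin
      (fun q hq => by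
        rcases Finset.mem_union.mp hq with h | h
        · exact hyp.hS q h
        · obtain ⟨i, -, rfl⟩ := Finset.mem_image.mp h
          exact (hqv.2.1 i).1) hbarQ
    obtain ⟨γ, hγs⟩ := hγ DQ
    exact hX r n qv hqv DQ γ hγs
  obtain ⟨P⟩ := patchingDatum_of_twLevels (fun n => hDIV 𝒪 p hp𝒪 r n) hL
  exact eigenform_of_patchingDatum hp𝒪 D X.H X.φ X.φ_surjective X.φ_local X.φ_equiv X.ker_smul P
    ρ hρ hres a hfrob

end Fermat.Agent.S59
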