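import Fermat.Prelude.Def_WeierstrassCurve_Mlc1RowStatement
import Fermat.Prelude.Def_WeierstrassCurve_ConductorLevel
import Fermat.Prelude.Def_FLTPrelim_ModularRep
import Fermat.Prelude.Def_FLTPrelim_Modularity
import Fermat.Prelude.Def_GaloisRep_Adic
import Fermat.Prelude.Def_GaloisRep_LocalConditions
import Fermat.Prelude.Def_GaloisRep_StrictOrdinary
import Fermat.Prelude.Def_GaloisRep_Flat

/-!
# S59 wiring (helper53), layers 0 and 1

Everything here is hypothesis-parametric: no unfinished statement is imported.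

* Layer 0: `S59_of_lift` : frozen S59  ⟸  `Stmt_S58` (frozen type of S58) + `Stmt_Lift`.
* Layer 1: `lift_of` : `Stmt_Lift`  ⟸  `Stmt_Tate` + `Stmt_MLT` + `Stmt_Stab`.

`Stmt_Tate` : the `p`-adic Galois representation of a semistable curve and its local properties
  (elliptic curve side, cluster E).
`Stmt_MLT`  : the modularity lifting theorem in Galois form (no elliptic curves; clusters T, R, L).
`Stmt_Stab` : stabilisation of a normalised eigenform at a prime not dividing the level.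
-/

set_option autoImplicit false

open WeierstrassCurve Polynomial

namespace Fermat.Agent.S59

/-! ## Layer 0 -/

/-- The frozen type of S58 (conductor-level matching). -/
def Stmt_S58 : Prop :=
  ∀ (W : WeierstrassCurve ℤ) (_hss : W.IsSemistableModel) (N : ℕ)
    (p : ℕ) [Fact p.Prime] (_hp2 : p ≠ 2) (_hirr : W.ModRepIsIrreducible p)
    (_hp2N : ¬ p ^ 2 ∣ N)
    (_hN : W.IsModularModelOfLevel N) (_hbad : ∀ ℓ : ℕ, ℓ.Prime → (ℓ : ℤ) ∣ W.Δ → ℓ ∣ N)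
    (_hN3 : ∀ q : ℕ, q.Prime → ¬ q ^ 3 ∣ N),
    W.IsModularModelOfLevel W.conductorLevel

/-- Modularity lifting for a semistable curve, at SOME admissible level. -/
def Stmt_Lift : Prop :=
  ∀ (p : ℕ), p = 3 ∨ p = 5 → ∀ (W : WeierstrassCurve ℤ), W.Δ ≠ 0 → W.IsSemistableModel →
    W.ModRepIsIrreducible p → ∀ (M₀ : ℕ), M₀ ≠ 0 → W.IsResiduallyModularOfLevel p M₀ →
    ¬ p ^ 2 ∣ M₀ → (∀ q : ℕ, q.Prime → q ≠ p → ¬ q ^ 3 ∣ M₀) →
    ∃ N : ℕ, W.IsModularModelOfLevel N ∧ (∀ ℓ : ℕ, ℓ.Prime → (ℓ : ℤ) ∣ W.Δ → ℓ ∣ N) ∧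
      ¬ p ^ 2 ∣ N ∧ ∀ q : ℕ, q.Prime → ¬ q ^ 3 ∣ N

/-- Layer 0: the frozen statement S59 from S58 and `Stmt_Lift`. -/
theorem S59_of_lift (h58 : Stmt_S58) (hL : Stmt_Lift)
    (p : ℕ) (hp : p = 3 ∨ p = 5)
    (W : WeierstrassCurve ℤ) (hΔ : W.Δ ≠ 0) (hW : W.IsSemistableModel)
    (hirr : W.ModRepIsIrreducible p)
    (M₀ : ℕ) [NeZero M₀] (hres₀ : W.IsResiduallyModularOfLevel p M₀)
    (hM₀ : ¬ p ^ 2 ∣ M₀)
    (hM₀3 : ∀ q : ℕ, q.Prime → q ≠ p → ¬ q ^ 3 ∣ M₀) :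
    Mlc1IsModularModelOfExactConductorLevel W := by
  obtain ⟨N, hmod, hbad, hp2N, hN3⟩ := hL p hp W hΔ hW hirr M₀ (NeZero.ne M₀) hres₀ hM₀ hM₀3
  have hpp : p.Prime := by
    rcases hp with rfl | rfl
    · exact Nat.prime_three
    · exact Nat.prime_five
  have : Fact p.Prime := ⟨hpp⟩
  have hp2 : p ≠ 2 := by
    rcases hp with rfl | rfl <;> norm_num
  refine ⟨W.conductorLevel, W.conductorLevel_pos, W.squarefree_conductorLevel,
    fun q hq => W.prime_dvd_conductorLevel_iff hΔ hq, ?_⟩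
  exact h58 W hW N p hp2 hirr hp2N hmod hbad hN3

/-! ## Layer 1 -/

/-- The Taylor–Wiles condition on a residual representation: absolutely irreducible on every
subgroup of index 2 (in the shape of the hypothesis `hTW` of S56). -/
def TWCond {k : Type} [Field k] (ρbar : ResidualGaloisRep k) : Prop :=
  ∀ (K : Type) [Field K] [Algebra k K]
    (G : Subgroup (AlgebraicClosure ℚ ≃ₐ[ℚ] AlgebraicClosure ℚ)), G.index = 2 →
    ∀ V : Submodule K (ρbar.baseChange K).V,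
      (∀ σ ∈ G, ∀ x ∈ V, (ρbar.baseChange K).ρ σ x ∈ V) → V = ⊥ ∨ V = ⊤

/-- **Stmt_Tate** (elliptic curve side): a semistable integral Weierstrass curve has a `p`-adic
Galois representation (its Tate module, over a complete DVR `𝒪` of characteristic `0` with finite
residue field of characteristic `p`) which
* has cyclotomic determinant,
* is unramified at the good primes `q ≠ p`, with Frobenius characteristic polynomial
  `X² - a_q X + q` there,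
* is unipotent on inertia at all `q ≠ p`,
* is flat at `p` if `p` is good, strictly ordinary at `p` if `p` is bad,
* is residually absolutely irreducible, with the Taylor–Wiles condition, if `E[p]` is
  irreducible. -/
def Stmt_Tate : Prop :=
  ∀ (p : ℕ) [Fact p.Prime], p ≠ 2 → ∀ (W : WeierstrassCurve ℤ), W.Δ ≠ 0 →
    W.IsSemistableModel →
    ∃ (𝒪 : Type) (_ : CommRing 𝒪) (_ : IsDomain 𝒪) (_ : IsDiscreteValuationRing 𝒪)
      (_ : IsAdicComplete (IsLocalRing.maximalIdeal 𝒪) 𝒪)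
      (_ : Finite (IsLocalRing.ResidueField 𝒪)) (_ : CharZero 𝒪)
      (ρ : GaloisRepAdic 𝒪),
      ρ.DetIsCyclotomic p ∧
      (∀ q : ℕ, q.Prime → q ≠ p → W.IsGoodPrimeFor q → ρ.IsUnramifiedAt q) ∧
      (∀ q : ℕ, q.Prime → q ≠ p → ρ.IsUnipotentOnInertiaAt q) ∧
      (W.IsGoodPrimeFor p → ρ.IsFlatAt p) ∧
      (¬ W.IsGoodPrimeFor p → ρ.IsStrictOrdinaryAt p) ∧
      (∀ ℓ : ℕ, ℓ.Prime → ℓ ≠ p → W.IsGoodPrimeFor ℓ →
        ∀ A : ValuationSubring (AlgebraicClosure ℚ), A.LiesOverPrime ℓ →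
          ∀ σ : AlgebraicClosure ℚ ≃ₐ[ℚ] AlgebraicClosure ℚ, A.IsFrobeniusAt σ ℓ →
            LinearMap.charpoly (ρ.ρ σ) =
              X ^ 2 - C (((W.apOfModel ℓ : ℤ) : 𝒪)) * X + C ((ℓ : 𝒪))) ∧
      (W.ModRepIsIrreducible p → ρ.residual.IsAbsolutelyIrreducible ∧ TWCond ρ.residual)

/-- **Stmt_MLT** (modularity lifting, Galois form): a `p`-adic representation `ρ` with integral
Frobenius traces `a ℓ` outside `Σ ∪ {p}`, cyclotomic determinant, unramified outside `Σ ∪ {p}`,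
unipotent on inertia at `Σ`, flat or strictly ordinary at `p`, whose residual representation is
absolutely irreducible, satisfies the Taylor–Wiles condition and is modular (the `a ℓ` are
congruent to the eigenvalues of a normalised eigenform `f₀` of a level `M₀` with `p² ∤ M₀`,
cube-free away from `p`), is modular: the `a ℓ` (`ℓ ∤ N`, `ℓ ∉ Σ ∪ {p}`) are the eigenvalues of a
normalised eigenform of a cube-free level `N` with `p² ∤ N`.  (No condition on the support of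
`N`: S58 removes superfluous primes afterwards.) -/
def Stmt_MLT : Prop :=
  ∀ (p : ℕ) [Fact p.Prime], p ≠ 2 →
  ∀ (𝒪 : Type) [CommRing 𝒪] [IsDomain 𝒪] [IsDiscreteValuationRing 𝒪]
    [IsAdicComplete (IsLocalRing.maximalIdeal 𝒪) 𝒪] [Finite (IsLocalRing.ResidueField 𝒪)]
    [CharZero 𝒪] (ρ : GaloisRepAdic 𝒪) (a : ℕ → ℤ) (Sig : Finset ℕ),
    (∀ q ∈ Sig, q.Prime ∧ q ≠ p) →
    ρ.DetIsCyclotomic p →
    (∀ q : ℕ, q.Prime → q ≠ p → q ∉ Sig → ρ.IsUnramifiedAt q) →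
    (∀ q ∈ Sig, ρ.IsUnipotentOnInertiaAt q) →
    (ρ.IsFlatAt p ∨ ρ.IsStrictOrdinaryAt p) →
    (∀ ℓ : ℕ, ℓ.Prime → ℓ ≠ p → ℓ ∉ Sig →
      ∀ A : ValuationSubring (AlgebraicClosure ℚ), A.LiesOverPrime ℓ →
        ∀ σ : AlgebraicClosure ℚ ≃ₐ[ℚ] AlgebraicClosure ℚ, A.IsFrobeniusAt σ ℓ →
          LinearMap.charpoly (ρ.ρ σ) = X ^ 2 - C (((a ℓ : ℤ) : 𝒪)) * X + C ((ℓ : 𝒪))) →
    ρ.residual.IsAbsolutelyIrreducible → TWCond ρ.residual →
    ∀ (M₀ : ℕ), M₀ ≠ 0 → ¬ p ^ 2 ∣ M₀ → (∀ q : ℕ, q.Prime → q ≠ p → ¬ q ^ 3 ∣ M₀) →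
    ∀ (f₀ : CuspForm (CongruenceSubgroup.Gamma0 M₀) 2) (𝔪 : Ideal (integralClosure ℤ ℂ)),
      f₀.IsNormalizedEigenform → 𝔪.IsMaximal → (p : integralClosure ℤ ℂ) ∈ 𝔪 →
      (∀ ℓ : ℕ, ℓ.Prime → ℓ ∉ Sig → ¬ ℓ ∣ M₀ → ℓ ≠ p →
        ∃ b : integralClosure ℤ ℂ, (b : ℂ) = ModularFormClass.qCoeff f₀ ℓ ∧
          b - ((a ℓ : ℤ) : integralClosure ℤ ℂ) ∈ 𝔪) →
    ∃ N : ℕ, ¬ p ^ 2 ∣ N ∧ (∀ q : ℕ, q.Prime → ¬ q ^ 3 ∣ N) ∧
      ∃ f : CuspForm (CongruenceSubgroup.Gamma0 N) 2, f.IsNormalizedEigenform ∧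
        ∀ ℓ : ℕ, ℓ.Prime → ℓ ≠ p → ℓ ∉ Sig → ¬ ℓ ∣ N →
          ModularFormClass.qCoeff f ℓ = (a ℓ : ℂ)

/-- **Stmt_Stab** (stabilisation): a normalised eigenform of level `N` and a prime `q ∤ N` give a
normalised eigenform of level `N q` with the same coefficients at all primes `ℓ ≠ q`
(`g = f - β f(q z)`, `β` a root of `X² - a_q X + q`). -/
def Stmt_Stab : Prop :=
  ∀ (N q : ℕ), q.Prime → ¬ q ∣ N →
    ∀ f : CuspForm (CongruenceSubgroup.Gamma0 N) 2, f.IsNormalizedEigenform →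
      ∃ g : CuspForm (CongruenceSubgroup.Gamma0 (N * q)) 2, g.IsNormalizedEigenform ∧
        ∀ ℓ : ℕ, ℓ.Prime → ℓ ≠ q → ModularFormClass.qCoeff g ℓ = ModularFormClass.qCoeff f ℓ

/-- Iterated stabilisation at a finite set of primes. -/
theorem stab_finset (hS : Stmt_Stab) (s : Finset ℕ) :
    ∀ (N : ℕ) (f : CuspForm (CongruenceSubgroup.Gamma0 N) 2), f.IsNormalizedEigenform →
      (∀ q ∈ s, q.Prime ∧ ¬ q ∣ N) →
      ∃ g : CuspForm (CongruenceSubgroup.Gamma0 (N * ∏ q ∈ s, q)) 2, g.IsNormalizedEigenform ∧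
        ∀ ℓ : ℕ, ℓ.Prime → ℓ ∉ s →
          ModularFormClass.qCoeff g ℓ = ModularFormClass.qCoeff f ℓ := by
  classical
  induction s using Finset.induction_on with
  | empty =>
    intro N f hf _
    have e : N * ∏ q ∈ (∅ : Finset ℕ), q = N := by simp
    rw [e]
    exact ⟨f, hf, fun _ _ _ => rfl⟩
  | insert q s hqs ih =>
    intro N f hf hs
    have hq := hs q (Finset.mem_insert_self q s)
    obtain ⟨g, hg, hgf⟩ := hS N q hq.1 hq.2 f hf
    have hs' : ∀ r ∈ s, r.Prime ∧ ¬ r ∣ N * q := by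
      intro r hr
      have hr' := hs r (Finset.mem_insert_of_mem hr)
      refine ⟨hr'.1, fun hdvd => ?_⟩
      rcases (Nat.Prime.dvd_mul hr'.1).1 hdvd with h | h
      · exact hr'.2 h
      · have : r = q := (Nat.prime_dvd_prime_iff_eq hr'.1 hq.1).1 h
        exact hqs (this ▸ hr)
    obtain ⟨g', hg', hg'g⟩ := ih (N * q) g hg hs'
    have e : N * ∏ r ∈ insert q s, r = N * q * ∏ r ∈ s, r := by
      rw [Finset.prod_insert hqs, mul_assoc]
    rw [e]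
    refine ⟨g', hg', fun ℓ hℓ hℓs => ?_⟩
    have h1 : ℓ ∉ s := fun h => hℓs (Finset.mem_insert_of_mem h)
    have h2 : ℓ ≠ q := fun h => hℓs (h ▸ Finset.mem_insert_self _ _)
    rw [hg'g ℓ hℓ h1, hgf ℓ hℓ h2]

/-- Layer 1: `Stmt_Lift` from the Tate module, the modularity lifting theorem and
stabilisation. -/
theorem lift_of (hT : Stmt_Tate) (hM : Stmt_MLT) (hS : Stmt_Stab) : Stmt_Lift := by
  classical
  intro p hp W hΔ hW hirr M₀ hM₀ne hres hM₀ hM₀3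
  have hpp : p.Prime := by
    rcases hp with rfl | rfl
    · exact Nat.prime_three
    · exact Nat.prime_five
  have : Fact p.Prime := ⟨hpp⟩
  have hp2 : p ≠ 2 := by
    rcases hp with rfl | rfl <;> norm_num
  obtain ⟨𝒪, i1, i2, i3, i4, i5, i6, ρ, hdet, hunr, hunip, hflat, hord, hfrob, hres'⟩ :=
    hT p hp2 W hΔ hW
  obtain ⟨habs, hTW⟩ := hres' hirr
  obtain ⟨f₀, 𝔪, hf₀, h𝔪, hp𝔪, hcong⟩ := hres
  -- the set of bad primes different from `p`
  set Sig : Finset ℕ := (W.Δ.natAbs.primeFactors).erase p with hSig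
  have hnat : W.Δ.natAbs ≠ 0 := Int.natAbs_ne_zero.mpr hΔ
  have hmemSig : ∀ q : ℕ, q ∈ Sig ↔ q.Prime ∧ q ≠ p ∧ (q : ℤ) ∣ W.Δ := by
    intro q
    rw [hSig, Finset.mem_erase, Nat.mem_primeFactors]
    constructor
    · rintro ⟨h1, h2, h3, -⟩
      exact ⟨h2, h1, Int.natCast_dvd.mpr h3⟩
    · rintro ⟨h1, h2, h3⟩
      exact ⟨h2, h1, Int.natCast_dvd.mp h3, hnat⟩
  have hgood : ∀ q : ℕ, q.Prime → q ≠ p → q ∉ Sig → W.IsGoodPrimeFor q := by
    intro q hq hqp hqS hdvd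
    exact hqS ((hmemSig q).2 ⟨hq, hqp, hdvd⟩)
  have hloc : ρ.IsFlatAt p ∨ ρ.IsStrictOrdinaryAt p := by
    by_cases hg : W.IsGoodPrimeFor p
    · exact Or.inl (hflat hg)
    · exact Or.inr (hord hg)
  obtain ⟨N₁, hN₁p, hN₁3, f₁, hf₁, hf₁a⟩ :=
    hM p hp2 𝒪 ρ (fun ℓ => W.apOfModel ℓ) Sig
      (fun q hq => ⟨((hmemSig q).1 hq).1, ((hmemSig q).1 hq).2.1⟩)
      hdet
      (fun q hq hqp hqS => hunr q hq hqp (hgood q hq hqp hqS))
      (fun q hq => hunip q ((hmemSig q).1 hq).1 ((hmemSig q).1 hq).2.1)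
      hloc
      (fun ℓ hℓ hℓp hℓS A hA σ hσ => hfrob ℓ hℓ hℓp (hgood ℓ hℓ hℓp hℓS) A hA σ hσ)
      habs hTW M₀ hM₀ne hM₀ hM₀3 f₀ 𝔪 hf₀ h𝔪 hp𝔪
      (fun ℓ hℓ hℓS hℓM hℓp => hcong ℓ hℓ (hgood ℓ hℓ hℓp hℓS) hℓM hℓp)
  -- add the missing primes of `Sig ∪ {p}` to the level
  set s : Finset ℕ := (insert p Sig).filter (fun q => ¬ q ∣ N₁) with hs
  have hsprime : ∀ q ∈ s, q.Prime ∧ ¬ q ∣ N₁ := by
    intro q hq
    rw [hs, Finset.mem_filter, Finset.mem_insert] at hq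
    refine ⟨?_, hq.2⟩
    rcases hq.1 with rfl | h
    · exact hpp
    · exact ((hmemSig q).1 h).1
  obtain ⟨P, hP⟩ : ∃ P : ℕ, P = ∏ q ∈ s, q := ⟨_, rfl⟩
  obtain ⟨g, hg, hgf⟩ : ∃ g : CuspForm (CongruenceSubgroup.Gamma0 (N₁ * P)) 2,
      g.IsNormalizedEigenform ∧ ∀ ℓ : ℕ, ℓ.Prime → ℓ ∉ s →
        ModularFormClass.qCoeff g ℓ = ModularFormClass.qCoeff f₁ ℓ := by
    rw [hP]
    exact stab_finset hS s N₁ f₁ hf₁ hsprime
  have hN₁ne : N₁ ≠ 0 := by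
    rintro rfl
    exact hN₁3 2 Nat.prime_two (dvd_zero _)
  have hPsq : Squarefree P := by
    rw [hP]
    refine Finset.squarefree_prod_of_pairwise_isCoprime ?_ ?_
    · intro a ha b hb hab
      exact Nat.coprime_iff_isRelPrime.mp
        ((Nat.coprime_primes (hsprime a ha).1 (hsprime b hb).1).2 hab)
    · intro a ha
      exact (hsprime a ha).1.squarefree
  have hPcop : Nat.Coprime N₁ P := by
    rw [hP]
    refine Nat.Coprime.prod_right fun q hq => ?_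
    exact (Nat.Coprime.symm ((Nat.Prime.coprime_iff_not_dvd (hsprime q hq).1).2 (hsprime q hq).2))
  -- divisibility of the new level by the primes of `Sig ∪ {p}`
  have hdvdN : ∀ q ∈ insert p Sig, q ∣ N₁ * P := by
    intro q hq
    by_cases hqN : q ∣ N₁
    · exact Dvd.dvd.mul_right hqN _
    · refine Dvd.dvd.mul_left ?_ _
      rw [hP]
      exact Finset.dvd_prod_of_mem _ (Finset.mem_filter.2 ⟨hq, hqN⟩)
  -- prime powers dividing the new level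
  have hpow : ∀ (q : ℕ) (k : ℕ), q.Prime → 2 ≤ k → q ^ k ∣ N₁ * P → q ^ k ∣ N₁ := by
    intro q k hq hk hdvd
    by_cases hqP : q ∣ P
    · -- then `q ∤ N₁`, so `q ^ k ∣ P`, against squarefreeness
      exfalso
      have hqN : ¬ q ∣ N₁ := fun h =>
        (Nat.Prime.one_lt hq).ne' (Nat.eq_one_of_dvd_coprimes hPcop h hqP)
      have hcop : Nat.Coprime (q ^ k) N₁ :=
        Nat.Coprime.pow_left k ((Nat.Prime.coprime_iff_not_dvd hq).2 hqN)
      have h1 : q ^ k ∣ P := hcop.dvd_of_dvd_mul_left hdvd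
      have h2 : q * q ∣ P := Dvd.dvd.trans ⟨q ^ (k - 2), by
        rw [← pow_two, ← pow_add]; congr 1; omega⟩ h1
      exact hq.one_lt.ne' (Nat.isUnit_iff.mp (hPsq q h2))
    · have hcop : Nat.Coprime (q ^ k) P :=
        Nat.Coprime.pow_left k ((Nat.Prime.coprime_iff_not_dvd hq).2 hqP)
      exact hcop.dvd_of_dvd_mul_right hdvd
  refine ⟨N₁ * P, ⟨g, hg, ?_⟩, ?_, ?_, ?_⟩
  · intro ℓ hℓ hℓgood hℓN
    have hℓp : ℓ ≠ p := by
      rintro rfl
      exact hℓN (hdvdN _ (Finset.mem_insert_self _ _))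
    have hℓS : ℓ ∉ Sig := fun h => hℓgood ((hmemSig ℓ).1 h).2.2
    have hℓs : ℓ ∉ s := fun h => by
      rw [hs, Finset.mem_filter, Finset.mem_insert] at h
      rcases h.1 with h' | h'
      · exact hℓp h'
      · exact hℓS h'
    rw [hgf ℓ hℓ hℓs, hf₁a ℓ hℓ hℓp hℓS (fun h => hℓN (Dvd.dvd.mul_right h _))]
  · intro ℓ hℓ hdvd
    by_cases hℓp : ℓ = p
    · subst hℓp
      exact hdvdN _ (Finset.mem_insert_self _ _)
    · exact hdvdN _ (Finset.mem_insert_of_mem ((hmemSig ℓ).2 ⟨hℓ, hℓp, hdvd⟩))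
  · intro h
    exact hN₁p (hpow p 2 hpp le_rfl h)
  · intro q hq h
    exact hN₁3 q hq (hpow q 3 hq (by norm_num) h)

/-- Layers 0 and 1 together. -/
theorem S59_of (h58 : Stmt_S58) (hT : Stmt_Tate) (hM : Stmt_MLT) (hS : Stmt_Stab)
    (p : ℕ) (hp : p = 3 ∨ p = 5)
    (W : WeierstrassCurve ℤ) (hΔ : W.Δ ≠ 0) (hW : W.IsSemistableModel)
    (hirr : W.ModRepIsIrreducible p)
    (M₀ : ℕ) [NeZero M₀] (hres₀ : W.IsResiduallyModularOfLevel p M₀)
    (hM₀ : ¬ p ^ 2 ∣ M₀)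
    (hM₀3 : ∀ q : ℕ, q.Prime → q ≠ p → ¬ q ^ 3 ∣ M₀) :
    Mlc1IsModularModelOfExactConductorLevel W :=
  S59_of_lift h58 (lift_of hT hM hS) p hp W hΔ hW hirr M₀ hres₀ hM₀ hM₀3

end Fermat.Agent.S59
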