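import Fermat.Agent.S59.H99_DefFl
import Fermat.Prelude.Def_GaloisRep_StrictOrdinary
import Fermat.Prelude.Def_GaloisRep_LocalConditions

/-!
# S59, leaf DEF, part 6 (helper99): the local conditions are invariant under equivalence
-/

set_option autoImplicit false
set_option linter.unusedSectionVars false
set_option linter.style.haveILetI false

open IsLocalRing

namespace Fermat.Agent.S59.H99

variable {A : Type} [CommRing A] [IsLocalRing A] {ρ ρ' : GaloisRepAdic A}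

theorem equiv_rho_eq (e : ρ.Equiv ρ') (σ : AlgebraicClosure ℚ ≃ₐ[ℚ] AlgebraicClosure ℚ) :
    ρ'.ρ σ = e.toLinearEquiv.conj (ρ.ρ σ) := by
  ext x
  rw [LinearEquiv.conj_apply_apply, e.map_apply, LinearEquiv.apply_symm_apply]

theorem detIsCyclotomic_of_isEquiv (he : ρ.IsEquiv ρ') (p : ℕ) (h : ρ.DetIsCyclotomic p) :
    ρ'.DetIsCyclotomic p := by
  obtain ⟨e⟩ := he
  refine ⟨h.1, fun n σ a ha => ?_⟩
  have hd : LinearMap.det (ρ'.ρ σ) = LinearMap.det (ρ.ρ σ) := by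
    rw [equiv_rho_eq e σ]
    exact LinearMap.det_conj (ρ.ρ σ) e.toLinearEquiv
  rw [hd]
  exact h.2 n σ a ha

theorem isUnramifiedAt_of_isEquiv (he : ρ.IsEquiv ρ') (q : ℕ) (h : ρ.IsUnramifiedAt q) :
    ρ'.IsUnramifiedAt q := by
  obtain ⟨e⟩ := he
  intro P hP σ hσ
  rw [equiv_rho_eq e σ, h P hP σ hσ]
  ext x
  rw [LinearEquiv.conj_apply_apply]
  simp

theorem isUnipotentOnInertiaAt_of_isEquiv (he : ρ.IsEquiv ρ') (q : ℕ)
    (h : ρ.IsUnipotentOnInertiaAt q) : ρ'.IsUnipotentOnInertiaAt q := by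
  obtain ⟨e⟩ := he
  intro P hP σ hσ
  rw [equiv_rho_eq e σ, LinearEquiv.charpoly_conj]
  exact h P hP σ hσ

theorem isStrictOrdinaryAt_of_isEquiv (he : ρ.IsEquiv ρ') (p : ℕ)
    (h : ρ.IsStrictOrdinaryAt p) : ρ'.IsStrictOrdinaryAt p := by
  obtain ⟨e⟩ := he
  refine ⟨h.1, fun P hP => ?_⟩
  obtain ⟨L, ⟨b, hb⟩, hD, hI, hX⟩ := h.2 P hP
  refine ⟨L.map (e.toLinearEquiv : ρ.V →ₗ[A] ρ'.V), ⟨b.map e.toLinearEquiv, ?_⟩, ?_, ?_, ?_⟩
  · rw [hb, Submodule.map_span, Set.image_singleton]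
    rfl
  · intro σ hσ v hv
    obtain ⟨w, hw, rfl⟩ := hv
    refine ⟨ρ.ρ σ w, hD σ hσ w hw, ?_⟩
    exact e.map_apply σ w
  · intro σ hσ v
    obtain ⟨w, rfl⟩ := e.toLinearEquiv.surjective v
    refine ⟨ρ.ρ σ w - w, hI σ hσ w, ?_⟩
    change e.toLinearEquiv (ρ.ρ σ w - w) = _
    rw [map_sub, e.map_apply]
  · intro σ hσ
    obtain ⟨x, z, h1, h2, h3⟩ := hX σ hσ
    refine ⟨x, z, ?_, ?_, h3⟩
    · intro w hw
      obtain ⟨u, hu, rfl⟩ := hw
      change ρ'.ρ σ (e.toLinearEquiv u) = x • e.toLinearEquiv u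
      rw [← e.map_apply, h1 u hu, map_smul]
    · intro v
      obtain ⟨w, rfl⟩ := e.toLinearEquiv.surjective v
      refine ⟨ρ.ρ σ w - z • w, h2 w, ?_⟩
      change e.toLinearEquiv (ρ.ρ σ w - z • w) = _
      rw [map_sub, e.map_apply, map_smul]

end Fermat.Agent.S59.H99
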