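import Fermat.Agent.S59.H99_DefSO
import Fermat.Agent.S59.H99_DefEquiv
import Fermat.Agent.S53.TestAlg
import Fermat.Agent.S53.H50_Complete
import Fermat.Agent.S56.Defs

/-!
# S59, leaf DEF, part 7 (helper99): `condB` is a deformation condition

`condB 𝒪 p fl Smin T ρ` : determinant cyclotomic, unramified outside `Smin ∪ T`, unipotent on
inertia at `Smin ∖ {p}`, and flat (`fl = true`) or strictly ordinary (`fl = false`) at `p`.
It is (propositionally) the condition `Fermat.Agent.S59.cond` of the wiring.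

`isDeformationCondition_condB : GaloisRep.IsDeformationCondition 𝒪 (condB 𝒪 p fl Smin T)`.
-/

set_option autoImplicit false
set_option linter.unusedSectionVars false
set_option linter.style.haveILetI false

open IsLocalRing TensorProduct

namespace Fermat.Agent.S59.H99

open Fermat.Agent.S56.H92

section Cond

/-- The local condition at `p`: flat or strictly ordinary. -/
def locP (fl : Bool) (p : ℕ) {A : Type} [CommRing A] [IsLocalRing A] (ρ : GaloisRepAdic A) :
    Prop :=
  match fl with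
  | true => ρ.IsFlatAt p
  | false => ρ.IsStrictOrdinaryAt p

/-- The part of the condition away from the local type at `p`. -/
def condJ (p : ℕ) (Smin T : Finset ℕ) {A : Type} [CommRing A] [IsLocalRing A]
    (ρ : GaloisRepAdic A) : Prop :=
  ρ.DetIsCyclotomic p ∧ (∀ q : ℕ, q.Prime → q ∉ Smin ∪ T → ρ.IsUnramifiedAt q) ∧
    ∀ q ∈ Smin, q.Prime → q ≠ p → ρ.IsUnipotentOnInertiaAt q

/-- The deformation condition. -/
def condB (𝒪 : Type) [CommRing 𝒪] (p : ℕ) (fl : Bool) (Smin T : Finset ℕ) :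
    ∀ ⦃A : Type⦄ [CommRing A] [IsLocalRing A] [Algebra 𝒪 A], GaloisRepAdic A → Prop :=
  fun _A _ _ _ ρ => condJ p Smin T ρ ∧ locP fl p ρ

variable {A : Type} [CommRing A] [IsLocalRing A]

theorem condJ_of_isEquiv {ρ ρ' : GaloisRepAdic A} (he : ρ.IsEquiv ρ') (p : ℕ)
    (Smin T : Finset ℕ) (h : condJ p Smin T ρ) : condJ p Smin T ρ' :=
  ⟨detIsCyclotomic_of_isEquiv he p h.1,
    fun q hq hqS => isUnramifiedAt_of_isEquiv he q (h.2.1 q hq hqS),
    fun q hq hqp hne => isUnipotentOnInertiaAt_of_isEquiv he q (h.2.2 q hq hqp hne)⟩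

theorem locP_of_isEquiv {ρ ρ' : GaloisRepAdic A} (he : ρ.IsEquiv ρ') (fl : Bool) (p : ℕ)
    (hp : p.Prime) (h : locP fl p ρ) : locP fl p ρ' := by
  cases fl
  · exact isStrictOrdinaryAt_of_isEquiv he p h
  · exact isFlatAt_of_isEquiv he p hp h

theorem condJ_baseChangeAlong {B : Type} [CommRing B] [IsLocalRing B] (φ : A →+* B)
    (hφ : IsLocalHom φ) (ρ : GaloisRepAdic A) (p : ℕ) (Smin T : Finset ℕ)
    (h : condJ p Smin T ρ) : condJ p Smin T (ρ.baseChangeAlong φ hφ) :=
  ⟨detIsCyclotomic_baseChangeAlong φ hφ ρ p h.1,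
    fun q hq hqS => isUnramifiedAt_baseChangeAlong φ hφ ρ q (h.2.1 q hq hqS),
    fun q hq hqp hne => isUnipotentOnInertiaAt_baseChangeAlong φ hφ ρ q (h.2.2 q hq hqp hne)⟩

theorem locP_baseChangeAlong {B : Type} [CommRing B] [IsLocalRing B] (φ : A →+* B)
    (hφ : IsLocalHom φ) (hres : Finite (ResidueField B)) (ρ : GaloisRepAdic A) (fl : Bool)
    (p : ℕ) (hp : p.Prime) (h : locP fl p ρ) : locP fl p (ρ.baseChangeAlong φ hφ) := by
  cases fl
  · exact isStrictOrdinaryAt_baseChangeAlong φ hφ ρ p h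
  · exact isFlatAt_baseChangeAlong φ hφ hres ρ p hp h

theorem JFam.condJ {p : ℕ} (F : JFam A p) (ρ : GaloisRepAdic A) (Smin T : Finset ℕ)
    (h : ∀ i, Fermat.Agent.S59.H99.condJ p Smin T (ρ.baseChangeAlong (F.φ i) (F.hφ i))) :
    Fermat.Agent.S59.H99.condJ p Smin T ρ :=
  ⟨F.detIsCyclotomic ρ fun i => (h i).1,
    fun q hq hqS => F.isUnramifiedAt ρ q fun i => (h i).2.1 q hq hqS,
    fun q hq hqp hne => F.isUnipotentOnInertiaAt ρ q fun i => (h i).2.2 q hq hqp hne⟩

end Cond

section Pair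

/-- The two targets of a pair. -/
def pairB (A B : Type) : Bool → Type
  | true => A
  | false => B

instance pairB_commRing (A B : Type) [CommRing A] [CommRing B] : ∀ b, CommRing (pairB A B b)
  | true => inferInstanceAs (CommRing A)
  | false => inferInstanceAs (CommRing B)

instance pairB_isLocalRing (A B : Type) [CommRing A] [CommRing B] [IsLocalRing A]
    [IsLocalRing B] : ∀ b, IsLocalRing (pairB A B b)
  | true => inferInstanceAs (IsLocalRing A)
  | false => inferInstanceAs (IsLocalRing B)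

variable {P A B : Type} [CommRing P] [IsLocalRing P] [CommRing A] [IsLocalRing A]
  [CommRing B] [IsLocalRing B]

/-- The two maps of a pair. -/
def pairφ (pA : P →+* A) (pB : P →+* B) : ∀ b, P →+* pairB A B b
  | true => pA
  | false => pB

theorem pairφ_isLocalHom (pA : P →+* A) (hpA : IsLocalHom pA) (pB : P →+* B)
    (hpB : IsLocalHom pB) : ∀ b, IsLocalHom (pairφ pA pB b)
  | true => hpA
  | false => hpB

/-- The family of a jointly injective pair. -/
def pairFam (p : ℕ) [Fact p.Prime] (pA : P →+* A) (hpA : IsLocalHom pA) (pB : P →+* B)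
    (hpB : IsLocalHom pB) (hinj : ∀ x, pA x = 0 → pB x = 0 → x = 0) (M : ℕ)
    (hMA : ((p ^ M : ℕ) : A) = 0) (hMB : ((p ^ M : ℕ) : B) = 0) : JFam P p :=
  JFam.ofNilp p ⟨true⟩ (pairB A B) (pairφ pA pB) (pairφ_isLocalHom pA hpA pB hpB)
    (fun x hx => hinj x (hx true) (hx false)) M
    (fun b => match b with
      | true => hMA
      | false => hMB)

theorem exists_pow_eq_zero_of_finite (p : ℕ) [Finite A] (h : (p : A) ∈ maximalIdeal A) :
    ∃ M : ℕ, ∀ M' : ℕ, M ≤ M' → ((p ^ M' : ℕ) : A) = 0 := by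
  obtain ⟨n, hn⟩ := Fermat.Agent.S53.exists_pow_maximalIdeal_eq_bot (A := A)
  refine ⟨n, fun M' hM' => ?_⟩
  have h1 : (p : A) ^ M' ∈ maximalIdeal A ^ n :=
    Ideal.pow_le_pow_right hM' (Ideal.pow_mem_pow h M')
  rw [hn] at h1
  rw [Nat.cast_pow]
  exact (Submodule.mem_bot A).mp h1

theorem condJ_of_pair (p : ℕ) [Fact p.Prime] [Finite A] [Finite B]
    (pA : P →+* A) (hpA : IsLocalHom pA) (pB : P →+* B) (hpB : IsLocalHom pB)
    (hinj : ∀ x, pA x = 0 → pB x = 0 → x = 0) (ρ : GaloisRepAdic P) (Smin T : Finset ℕ)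
    (hA : condJ p Smin T (ρ.baseChangeAlong pA hpA))
    (hB : condJ p Smin T (ρ.baseChangeAlong pB hpB)) : condJ p Smin T ρ := by
  obtain ⟨MA, hMA⟩ := exists_pow_eq_zero_of_finite p hA.1.1
  obtain ⟨MB, hMB⟩ := exists_pow_eq_zero_of_finite p hB.1.1
  let F := pairFam p pA hpA pB hpB hinj (MA + MB) (hMA _ (Nat.le_add_right _ _))
    (hMB _ (Nat.le_add_left _ _))
  refine F.condJ ρ Smin T fun i => ?_
  cases i
  · exact hB
  · exact hA

theorem locP_of_pair (p : ℕ) [Fact p.Prime] (hp2 : p ≠ 2) [Finite A] [Finite B]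
    (pA : P →+* A) (hpA : IsLocalHom pA) (pB : P →+* B) (hpB : IsLocalHom pB)
    (hinj : ∀ x, pA x = 0 → pB x = 0 → x = 0) (hres : Finite (ResidueField P))
    (ρ : GaloisRepAdic P) (fl : Bool)
    (hA : locP fl p (ρ.baseChangeAlong pA hpA))
    (hB : locP fl p (ρ.baseChangeAlong pB hpB)) : locP fl p ρ := by
  cases fl
  · have hA' : (ρ.baseChangeAlong pA hpA).IsStrictOrdinaryAt p := hA
    have hB' : (ρ.baseChangeAlong pB hpB).IsStrictOrdinaryAt p := hB
    obtain ⟨MA, hMA⟩ := exists_pow_eq_zero_of_finite p hA'.1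
    obtain ⟨MB, hMB⟩ := exists_pow_eq_zero_of_finite p hB'.1
    let F := pairFam p pA hpA pB hpB hinj (MA + MB) (hMA _ (Nat.le_add_right _ _))
      (hMB _ (Nat.le_add_left _ _))
    refine F.isStrictOrdinaryAt ρ hp2 fun i => ?_
    cases i
    · exact hB'
    · exact hA'
  · exact isFlatAt_of_pair pA hpA pB hpB hinj hres ρ p Fact.out hA hB

end Pair

section Quot

variable {A : Type} [CommRing A] [IsLocalRing A]

theorem nontrivial_quot_of_ne_top {J : Ideal A} (hJ : J ≠ ⊤) : Nontrivial (A ⧸ J) :=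
  Ideal.Quotient.nontrivial_iff.mpr hJ

theorem isLocalRing_quot_of_ne_top {J : Ideal A} (hJ : J ≠ ⊤) : IsLocalRing (A ⧸ J) :=
  haveI := nontrivial_quot_of_ne_top hJ
  IsLocalRing.of_surjective' (Ideal.Quotient.mk J) Ideal.Quotient.mk_surjective

theorem pow_succ_ne_top (m : ℕ) : maximalIdeal A ^ (m + 1) ≠ ⊤ := by
  intro h
  have h1 : maximalIdeal A ^ (m + 1) ≤ maximalIdeal A := Ideal.pow_le_self (Nat.succ_ne_zero m)
  rw [h] at h1
  exact (maximalIdeal.isMaximal A).ne_top (top_le_iff.mp h1)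

theorem natCast_mem_of_map_mem {B : Type} [CommRing B] [IsLocalRing B] (φ : A →+* B) (p : ℕ)
    (h : (p : B) ∈ maximalIdeal B) : (p : A) ∈ maximalIdeal A := by
  rw [IsLocalRing.mem_maximalIdeal, mem_nonunits_iff] at h ⊢
  intro hu
  apply h
  have := hu.map φ
  rwa [map_natCast] at this

/-- Descent of `condJ` and `locP` from the finite quotients of a noetherian local ring. -/
theorem cond_of_quot [IsNoetherianRing A] (hres : Finite (ResidueField A))
    (p : ℕ) [Fact p.Prime] (hp2 : p ≠ 2) (fl : Bool) (Smin T : Finset ℕ) (ρ : GaloisRepAdic A)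
    (h : ∀ (J : Ideal A) (hJ : J ≠ ⊤), Finite (A ⧸ J) →
      letI := isLocalRing_quot_of_ne_top hJ
      ∀ hq : IsLocalHom (Ideal.Quotient.mk J),
        condJ p Smin T (ρ.baseChangeAlong (Ideal.Quotient.mk J) hq) ∧
          locP fl p (ρ.baseChangeAlong (Ideal.Quotient.mk J) hq)) :
    condJ p Smin T ρ ∧ locP fl p ρ := by
  have hfin : ∀ m : ℕ, Finite (A ⧸ maximalIdeal A ^ (m + 1)) := fun m => by
    have : Finite (A ⧸ maximalIdeal A) := hres
    exact Ideal.finite_quotient_pow (IsNoetherian.noetherian (maximalIdeal A)) (m + 1)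
  have hpA : (p : A) ∈ maximalIdeal A := by
    letI := isLocalRing_quot_of_ne_top (pow_succ_ne_top (A := A) 0)
    have hq : IsLocalHom (Ideal.Quotient.mk (maximalIdeal A ^ (0 + 1))) :=
      IsLocalHom.of_surjective _ Ideal.Quotient.mk_surjective
    have := (h _ (pow_succ_ne_top (A := A) 0) (hfin 0) hq).1.1.1
    exact natCast_mem_of_map_mem (Ideal.Quotient.mk (maximalIdeal A ^ (0 + 1))) p this
  let F : JFam A p := JFam.ofQuot p hpA
  have hF : ∀ i, condJ p Smin T (ρ.baseChangeAlong (F.φ i) (F.hφ i)) ∧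
      locP fl p (ρ.baseChangeAlong (F.φ i) (F.hφ i)) := fun i =>
    h _ (pow_succ_ne_top (A := A) i) (hfin i) (F.hφ i)
  refine ⟨F.condJ ρ Smin T fun i => (hF i).1, ?_⟩
  cases fl
  · exact F.isStrictOrdinaryAt ρ hp2 fun i => (hF i).2
  · refine isFlatAt_of_quot hres ρ p Fact.out fun J hJ hJf => ?_
    letI := isLocalRing_quot_of_ne_top hJ
    have hq : IsLocalHom (Ideal.Quotient.mk J) :=
      IsLocalHom.of_surjective _ Ideal.Quotient.mk_surjective
    refine ⟨A ⧸ J, inferInstance, inferInstance, Ideal.Quotient.mk J, hq, hJf, ?_,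
      (h J hJ hJf hq).2⟩
    rw [Ideal.mk_ker]

end Quot

section Main

variable (𝒪 : Type) [CommRing 𝒪] [IsLocalRing 𝒪] [Finite (ResidueField 𝒪)]

theorem finite_residueField_of_finite (B : Type) [CommRing B] [IsLocalRing B] [Finite B] :
    Finite (ResidueField B) :=
  Finite.of_surjective (IsLocalRing.residue B) IsLocalRing.residue_surjective

/-- **`condB` is a deformation condition.** -/
theorem isDeformationCondition_condB (p : ℕ) [Fact p.Prime] (hp2 : p ≠ 2) (fl : Bool)
    (Smin T : Finset ℕ) : GaloisRep.IsDeformationCondition 𝒪 (condB 𝒪 p fl Smin T) where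
  of_isEquiv := by
    intro A _ _ _ _ ρ ρ' he h
    exact ⟨condJ_of_isEquiv he p Smin T h.1, locP_of_isEquiv he fl p Fact.out h.2⟩
  baseChangeAlong := by
    intro A B _ _ _ _ _ _ _ hB φ hφ ρ h
    have : Finite B := Fermat.Agent.S53.finite_of_isArtinianTestAlgebra hB
    exact ⟨condJ_baseChangeAlong _ hφ ρ p Smin T h.1,
      locP_baseChangeAlong _ hφ (finite_residueField_of_finite B) ρ fl p Fact.out h.2⟩
  of_baseChangeAlong_injective := by
    intro A B _ _ _ _ _ _ hA hB φ hφ hinj ρ h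
    have : Finite A := Fermat.Agent.S53.finite_of_isArtinianTestAlgebra hA
    have : Finite B := Fermat.Agent.S53.finite_of_isArtinianTestAlgebra hB
    have hinj' : ∀ x, (φ : A →+* B) x = 0 → (φ : A →+* B) x = 0 → x = 0 := fun x hx _ =>
      hinj (by rw [map_zero]; exact hx)
    exact ⟨condJ_of_pair p _ hφ _ hφ hinj' ρ Smin T h.1 h.1,
      locP_of_pair p hp2 _ hφ _ hφ hinj' (finite_residueField_of_finite A) ρ fl h.2 h.2⟩
  of_fibreProduct := by
    intro A B C P _ _ _ _ _ _ _ _ _ _ _ _ hA hB _ hP f g pA pB hpA hpB _ hinj _ ρ h1 h2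
    have : Finite A := Fermat.Agent.S53.finite_of_isArtinianTestAlgebra hA
    have : Finite B := Fermat.Agent.S53.finite_of_isArtinianTestAlgebra hB
    have : Finite P := Fermat.Agent.S53.finite_of_isArtinianTestAlgebra hP
    have hinj' : ∀ x, (pA : P →+* A) x = 0 → (pB : P →+* B) x = 0 → x = 0 := fun x hx hy =>
      hinj (by
        change (pA x, pB x) = (pA 0, pB 0)
        rw [map_zero, map_zero]
        exact Prod.ext hx hy)
    exact ⟨condJ_of_pair p _ hpA _ hpB hinj' ρ Smin T h1.1 h2.1,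
      locP_of_pair p hp2 _ hpA _ hpB hinj' (finite_residueField_of_finite P) ρ fl h1.2 h2.2⟩
  iff_forall_surjective := by
    intro A _ _ _ _ _ hloc hres ρ
    have hresA : Finite (ResidueField A) :=
      haveI := hloc
      Fermat.Agent.S53.H50.finite_residueField_of_surjective 𝒪 A hres
    constructor
    · intro h B _ _ _ hB q hq _
      have : Finite B := Fermat.Agent.S53.finite_of_isArtinianTestAlgebra hB
      exact ⟨condJ_baseChangeAlong _ hq ρ p Smin T h.1,
        locP_baseChangeAlong _ hq (finite_residueField_of_finite B) ρ fl p Fact.out h.2⟩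
    · intro h
      refine cond_of_quot hresA p hp2 fl Smin T ρ fun J hJ hJf => ?_
      letI := isLocalRing_quot_of_ne_top hJ
      intro hq
      have hlocJ : IsLocalHom (algebraMap 𝒪 (A ⧸ J)) := by
        refine ⟨fun a ha => ?_⟩
        have h1 : IsUnit (algebraMap 𝒪 A a) := by
          haveI := hq
          exact isUnit_of_map_unit (Ideal.Quotient.mk J) _ ha
        haveI := hloc
        exact isUnit_of_map_unit (algebraMap 𝒪 A) a h1
      have hresJ : Function.Surjective (IsLocalRing.residue (A ⧸ J) ∘ algebraMap 𝒪 (A ⧸ J)) := by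
        intro x
        obtain ⟨y, rfl⟩ := IsLocalRing.residue_surjective x
        obtain ⟨a, rfl⟩ := Ideal.Quotient.mk_surjective y
        obtain ⟨c, hc⟩ := Fermat.Agent.S53.exists_sub_mem_maximalIdeal hres a
        refine ⟨c, ?_⟩
        simp only [Function.comp_apply]
        rw [eq_comm, ← sub_eq_zero, ← map_sub, IsLocalRing.residue_eq_zero_iff]
        have h2 : Ideal.Quotient.mk J a - algebraMap 𝒪 (A ⧸ J) c =
            Ideal.Quotient.mk J (a - algebraMap 𝒪 A c) := by
          rw [map_sub]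
          rfl
        rw [h2]
        haveI := hq
        exact map_nonunit (Ideal.Quotient.mk J) _ hc
      have hT : GaloisRep.IsArtinianTestAlgebra 𝒪 (A ⧸ J) :=
        ⟨hlocJ, hresJ, isArtinian_of_finite⟩
      exact h hT (Ideal.Quotient.mkₐ 𝒪 J) hq Ideal.Quotient.mk_surjective

end Main

end Fermat.Agent.S59.H99
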