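import Fermat.Agent.S59.Min
import Fermat.Agent.S59.H99_DefCond
import Fermat.Agent.S53
import Fermat.Agent.S56.Dict.H74_Count
import Fermat.Agent.S56.Dict.H74_Exists
import Fermat.Agent.S56.Dict.H85_Inj
import Fermat.Agent.S56.Dict.H74_Cont
import Fermat.Agent.S56.GW.H92_FinGlobFinal
import Fermat.Agent.S56.H47_Basic

/-!
# S59, leaf DEF (helper99): the universal deformation ring of `cond` exists

`stmt_DEF : Fermat.Agent.S59.Stmt_DEF`.

* `isDeformationCondition_condB` (`H99_DefCond.lean`): `cond` is a deformation condition;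
* `tangentFinite_condB`: its tangent space is finite (the dictionary with
  `H¹(G_{ℚ, Smin ∪ T}, ad⁰ ρbar)` and Hermite–Minkowski);
* `Fermat.Agent.S53.result`: existence of the universal deformation ring.
-/

set_option autoImplicit false
set_option linter.unusedSectionVars false
set_option linter.style.haveILetI false

open IsLocalRing

namespace Fermat.Agent.S59.H99

theorem cond_eq_condB (𝒪 : Type) [CommRing 𝒪] (p : ℕ) (fl : Bool) (Smin T : Finset ℕ) :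
    Fermat.Agent.S59.cond 𝒪 p fl Smin T = condB 𝒪 p fl Smin T := by
  funext A _ _ _ ρ
  cases fl
  · exact propext ⟨fun h => ⟨⟨h.1.1, h.1.2.2, h.2⟩, h.1.2.1⟩,
      fun h => ⟨⟨h.1.1, h.2, h.1.2.1⟩, h.1.2.2⟩⟩
  · exact propext ⟨fun h => ⟨⟨h.1.1, h.1.2.2, h.2⟩, h.1.2.1⟩,
      fun h => ⟨⟨h.1.1, h.2, h.1.2.1⟩, h.1.2.2⟩⟩

/-- The tangent space of `condB` is finite. -/
theorem tangentFinite_condB (𝒪 : Type) [CommRing 𝒪] [IsDomain 𝒪] [IsDiscreteValuationRing 𝒪]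
    [IsAdicComplete (maximalIdeal 𝒪) 𝒪] [Finite (ResidueField 𝒪)]
    (p : ℕ) [Fact p.Prime] (hp2 : p ≠ 2) (hp𝒪 : (p : 𝒪) ∈ maximalIdeal 𝒪) (fl : Bool)
    (ρbar : ResidualGaloisRep (ResidueField 𝒪)) (Smin T : Finset ℕ)
    (hbar : condB 𝒪 p fl Smin T (GaloisRepAdic.ofResidualGaloisRep ρbar)) :
    GaloisRep.TangentFinite 𝒪 ρbar (condB 𝒪 p fl Smin T) := by
  rw [Fermat.Agent.S53.tangentFinite_iff]
  obtain ⟨hfd, hsm, -⟩ := Fermat.Agent.S56.H47.ad0_basic (ResidueField 𝒪) ρbar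
  haveI := hfd
  have hWfin := Fermat.Agent.S56.H92.stmt_fin_glob (ResidueField 𝒪) (Fermat.Agent.S56.ad0 ρbar)
    hsm (Fermat.Agent.S56.primesOf (Smin ∪ T))
  refine (Fermat.Agent.S56.Dict.tangentLE_of_classes ρbar (condB 𝒪 p fl Smin T)
    (Module.finrank (ResidueField 𝒪)
      (groupCohomology.continuousH1S (Fermat.Agent.S56.primesOf (Smin ∪ T))
        (Fermat.Agent.S56.ad0 ρbar)))
    (Fermat.Agent.S56.Dict.stmt_dict_exists 𝒪 p ρbar _ hp2 hp𝒪 hbar.1.1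
      (fun A _ _ _ ρ h => h.1.1))
    (Fermat.Agent.S56.Dict.H85.stmt_dict_inj 𝒪 ρbar _)
    (groupCohomology.continuousH1S (Fermat.Agent.S56.primesOf (Smin ∪ T))
      (Fermat.Agent.S56.ad0 ρbar)) hWfin ?_ le_rfl).1
  intro x ξ hx
  refine Fermat.Agent.S56.Dict.stmt_dict_cont 𝒪 ρbar _ _ x ξ ?_ hx
  intro q hq
  letI := Fermat.Agent.S53.dualNumberAlgebra 𝒪
  exact x.2.1.1.2.1 q q.2 (fun h => hq (Fermat.Agent.S56.mem_primesOf.2 h))

/-- **DEF**: the universal deformation ring of `cond` exists. -/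
theorem stmt_DEF : Fermat.Agent.S59.Stmt_DEF := by
  intro 𝒪 _ _ _ _ _ p _ hp2 hp𝒪 fl ρbar habs Smin T _ _ hbar
  rw [cond_eq_condB] at hbar ⊢
  exact Fermat.Agent.S53.result 𝒪 ρbar _ habs (isDeformationCondition_condB 𝒪 p hp2 fl Smin T)
    hbar (tangentFinite_condB 𝒪 p hp2 hp𝒪 fl ρbar Smin T hbar)

end Fermat.Agent.S59.H99
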