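import Mathlib

/-!
# S59, leaf DEF, part 3 (helper99): rank one idempotents on a free module of rank two over a
local ring

* `trace_of_range_le_line` : an endomorphism with image in the line `A b₀` acting on `b₀` by
  the scalar `c` has trace `c`.
* `exists_basis_range_of_idempotent` : an idempotent endomorphism of trace `1` has as image a
  line `A b₀` spanned by the first vector of a basis.
-/

set_option autoImplicit false
set_option linter.unusedSectionVars false

namespace Fermat.Agent.S59.H99

section Trace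

variable {A : Type} [CommRing A] {V : Type} [AddCommGroup V] [Module A V]

theorem repr_one_eq_zero_of_mem_span (b : Module.Basis (Fin 2) A V) {v : V}
    (hv : v ∈ Submodule.span A {b 0}) : b.repr v 1 = 0 := by
  obtain ⟨r, rfl⟩ := Submodule.mem_span_singleton.mp hv
  rw [map_smul, Finsupp.smul_apply, Module.Basis.repr_self, Finsupp.single_apply,
    if_neg (by decide), smul_zero]

theorem trace_of_range_le_line (b : Module.Basis (Fin 2) A V) (H : V →ₗ[A] V) (c : A)
    (h1 : ∀ v, H v ∈ Submodule.span A {b 0}) (h2 : H (b 0) = c • b 0) :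
    LinearMap.trace A V H = c := by
  rw [LinearMap.trace_eq_matrix_trace A b, Matrix.trace, Fin.sum_univ_two]
  simp only [Matrix.diag_apply, LinearMap.toMatrix_apply]
  rw [h2, repr_one_eq_zero_of_mem_span b (h1 (b 1)), add_zero, map_smul, Finsupp.smul_apply,
    Module.Basis.repr_self, Finsupp.single_eq_same, smul_eq_mul, mul_one]

end Trace

section Idem

variable {A : Type} [CommRing A] [IsLocalRing A] {V : Type} [AddCommGroup V] [Module A V]

theorem exists_basis_of_det (c : Module.Basis (Fin 2) A V) (v₀ v₁ : V)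
    (hdet : IsUnit (c.repr v₀ 0 * c.repr v₁ 1 - c.repr v₁ 0 * c.repr v₀ 1)) :
    ∃ b : Module.Basis (Fin 2) A V, b 0 = v₀ ∧ b 1 = v₁ := by
  have h : IsUnit (c.det ![v₀, v₁]) := by
    rw [Module.Basis.det_apply, Matrix.det_fin_two]
    simp only [Module.Basis.toMatrix_apply, Matrix.cons_val_zero, Matrix.cons_val_one]
    exact hdet
  obtain ⟨hli, hsp⟩ := (Module.Basis.is_basis_iff_det c).mpr h
  refine ⟨Module.Basis.mk hli hsp.ge, ?_, ?_⟩
  · rw [Module.Basis.mk_apply]; rfl
  · rw [Module.Basis.mk_apply]; rfl

theorem exists_basis_range_of_idempotent (c : Module.Basis (Fin 2) A V) (e : V →ₗ[A] V)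
    (he : ∀ v, e (e v) = e v) (htr : LinearMap.trace A V e = 1) :
    ∃ b : Module.Basis (Fin 2) A V, LinearMap.range e = Submodule.span A {b 0} := by
  set α := c.repr (e (c 0)) 0 with hα
  set γ := c.repr (e (c 0)) 1 with hγ
  set β := c.repr (e (c 1)) 0 with hβ
  set δ := c.repr (e (c 1)) 1 with hδ
  have htr' : α + δ = 1 := by
    rw [← htr, LinearMap.trace_eq_matrix_trace A c, Matrix.trace, Fin.sum_univ_two]
    simp only [Matrix.diag_apply, LinearMap.toMatrix_apply]
    rfl
  have e0 : e (c 0) = α • c 0 + γ • c 1 := by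
    conv_lhs => rw [← c.sum_repr (e (c 0)), Fin.sum_univ_two]
  have e1 : e (c 1) = β • c 0 + δ • c 1 := by
    conv_lhs => rw [← c.sum_repr (e (c 1)), Fin.sum_univ_two]
  have hee0 : e (e (c 0)) = α • e (c 0) + γ • e (c 1) := by
    conv_lhs => rw [e0, map_add, map_smul, map_smul]
  have hee1 : e (e (c 1)) = β • e (c 0) + δ • e (c 1) := by
    conv_lhs => rw [e1, map_add, map_smul, map_smul]
  have q0 : α * α + γ * β = α := by
    have := congrArg (fun w => c.repr w 0) ((he (c 0)).symm.trans hee0)
    simp only [map_add, map_smul, Finsupp.add_apply, Finsupp.smul_apply, smul_eq_mul] at this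
    exact this.symm
  have q1 : β * γ + δ * δ = δ := by
    have := congrArg (fun w => c.repr w 1) ((he (c 1)).symm.trans hee1)
    simp only [map_add, map_smul, Finsupp.add_apply, Finsupp.smul_apply, smul_eq_mul] at this
    exact this.symm
  have key : ∀ (b : Module.Basis (Fin 2) A V) (u : V), b 0 = e u → e (b 1) = 0 →
      LinearMap.range e = Submodule.span A {b 0} := by
    intro b u hb0 hb1
    apply le_antisymm
    · rintro _ ⟨w, rfl⟩
      have hw : w = b.repr w 0 • b 0 + b.repr w 1 • b 1 := by
        conv_lhs => rw [← b.sum_repr w, Fin.sum_univ_two]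
      rw [hw, map_add, map_smul, map_smul, hb1, smul_zero, add_zero, hb0, he, ← hb0]
      exact Submodule.smul_mem _ _ (Submodule.mem_span_singleton_self _)
    · rw [Submodule.span_singleton_le_iff_mem, hb0]
      exact ⟨u, rfl⟩
  rcases IsLocalRing.isUnit_or_isUnit_of_add_one htr' with hu | hu
  · -- `α` is a unit
    have hdet : IsUnit (c.repr (e (c 0)) 0 * c.repr (c 1 - e (c 1)) 1 -
        c.repr (c 1 - e (c 1)) 0 * c.repr (e (c 0)) 1) := by
      have : c.repr (e (c 0)) 0 * c.repr (c 1 - e (c 1)) 1 -
          c.repr (c 1 - e (c 1)) 0 * c.repr (e (c 0)) 1 = α := by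
        simp only [map_sub, Finsupp.sub_apply, Module.Basis.repr_self, Finsupp.single_apply]
        simp only [← hα, ← hβ, ← hγ, ← hδ]
        norm_num
        linear_combination (-α) * htr' + q0
      rw [this]
      exact hu
    obtain ⟨b, hb0, hb1⟩ := exists_basis_of_det c _ _ hdet
    refine ⟨b, key b (c 0) hb0 ?_⟩
    rw [hb1, map_sub, he, sub_self]
  · -- `δ` is a unit
    have hdet : IsUnit (c.repr (e (c 1)) 0 * c.repr (c 0 - e (c 0)) 1 -
        c.repr (c 0 - e (c 0)) 0 * c.repr (e (c 1)) 1) := by
      have : c.repr (e (c 1)) 0 * c.repr (c 0 - e (c 0)) 1 -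
          c.repr (c 0 - e (c 0)) 0 * c.repr (e (c 1)) 1 = -δ := by
        simp only [map_sub, Finsupp.sub_apply, Module.Basis.repr_self, Finsupp.single_apply]
        simp only [← hα, ← hβ, ← hγ, ← hδ]
        norm_num
        linear_combination (δ) * htr' - q1
      rw [this]
      exact hu.neg
    obtain ⟨b, hb0, hb1⟩ := exists_basis_of_det c _ _ hdet
    refine ⟨b, key b (c 1) hb0 ?_⟩
    rw [hb1, map_sub, he, sub_self]

end Idem

end Fermat.Agent.S59.H99
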