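import Fermat.Agent.S59.H99_DefFam
import Fermat.Agent.S59.H99_DefIdem
import Fermat.Agent.R.H2_Cyc

/-!
# S59, leaf DEF, part 4 (helper99): the strict-ordinary line is intrinsic

For an odd prime `p` there is `σ₀` in the inertia group of `P` whose cyclotomic exponent is not
`1` modulo `p`.  If `L` is a strict-ordinary line of `ρ` at `P` then `L` is the image of
`F = ρ(σ₀) - 1`, `t = tr F` is a unit, `F ∘ F = t F`, and all the conditions on `L` are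
polynomial identities in `F`, `t` and the `ρ(σ)` (`SOInt`).  Conversely `SOInt` produces the
line.  Polynomial identities descend along jointly injective families (`JFam.soInt`).
-/

set_option autoImplicit false
set_option linter.unusedSectionVars false
set_option linter.style.haveILetI false

open IsLocalRing TensorProduct

namespace Fermat.Agent.S59.H99

variable {A : Type} [CommRing A] [IsLocalRing A]

/-- The prelude's condition on a line `L` at the place `P`. -/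
def IsSOLineAt (ρ : GaloisRepAdic A) (p : ℕ) (P : ValuationSubring (AlgebraicClosure ℚ))
    (L : Submodule A ρ.V) : Prop :=
  (∃ b : Module.Basis (Fin 2) A ρ.V, L = Submodule.span A {b 0}) ∧
  (∀ σ ∈ P.decompositionSubgroup ℚ, ∀ v ∈ L, ρ.ρ σ v ∈ L) ∧
  (∀ σ ∈ P.inertiaSubgroupIn ℚ, ∀ v : ρ.V, ρ.ρ σ v - v ∈ L) ∧
  (∀ σ ∈ P.decompositionSubgroup ℚ, ∃ x z : A,
    (∀ w ∈ L, ρ.ρ σ w = x • w) ∧ (∀ v : ρ.V, ρ.ρ σ v - z • v ∈ L) ∧
    ∀ (n a : ℕ), (∀ μ : AlgebraicClosure ℚ, μ ^ p ^ n = 1 → σ μ = μ ^ a) →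
      x - (a : A) * z ∈ Ideal.span {((p ^ n : ℕ) : A)})

theorem isStrictOrdinaryAt_iff (ρ : GaloisRepAdic A) (p : ℕ) :
    ρ.IsStrictOrdinaryAt p ↔ (p : A) ∈ maximalIdeal A ∧
      ∀ P : ValuationSubring (AlgebraicClosure ℚ), P.LiesOverPrime p →
        ∃ L : Submodule A ρ.V, IsSOLineAt ρ p P L := Iff.rfl

/-- `F = ρ(σ₀) - 1`. -/
noncomputable def soF (ρ : GaloisRepAdic A) (σ₀ : AlgebraicClosure ℚ ≃ₐ[ℚ] AlgebraicClosure ℚ) :
    Module.End A ρ.V := ρ.ρ σ₀ - 1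

/-- `t = tr F`. -/
noncomputable def soT (ρ : GaloisRepAdic A) (σ₀ : AlgebraicClosure ℚ ≃ₐ[ℚ] AlgebraicClosure ℚ) :
    A := LinearMap.trace A ρ.V (soF ρ σ₀)

/-- `X = tr (ρ(σ) F)`  (`= t x`). -/
noncomputable def soX (ρ : GaloisRepAdic A)
    (σ₀ σ : AlgebraicClosure ℚ ≃ₐ[ℚ] AlgebraicClosure ℚ) : A :=
  LinearMap.trace A ρ.V (ρ.ρ σ * soF ρ σ₀)

/-- `Z = t tr ρ(σ) - X`  (`= t z`). -/
noncomputable def soZ (ρ : GaloisRepAdic A)
    (σ₀ σ : AlgebraicClosure ℚ ≃ₐ[ℚ] AlgebraicClosure ℚ) : A :=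
  soT ρ σ₀ * LinearMap.trace A ρ.V (ρ.ρ σ) - soX ρ σ₀ σ

/-- The intrinsic form of the strict-ordinary condition at `P`. -/
structure SOInt (ρ : GaloisRepAdic A) (p : ℕ) (P : ValuationSubring (AlgebraicClosure ℚ))
    (σ₀ : AlgebraicClosure ℚ ≃ₐ[ℚ] AlgebraicClosure ℚ) : Prop where
  unit : IsUnit (soT ρ σ₀)
  sq : soF ρ σ₀ * soF ρ σ₀ = soT ρ σ₀ • soF ρ σ₀
  stab : ∀ σ ∈ P.decompositionSubgroup ℚ,
    soT ρ σ₀ • (ρ.ρ σ * soF ρ σ₀) = soF ρ σ₀ * (ρ.ρ σ * soF ρ σ₀)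
  inert : ∀ σ ∈ P.inertiaSubgroupIn ℚ, soT ρ σ₀ • (ρ.ρ σ - 1) = soF ρ σ₀ * (ρ.ρ σ - 1)
  eig1 : ∀ σ ∈ P.decompositionSubgroup ℚ,
    soT ρ σ₀ • (ρ.ρ σ * soF ρ σ₀) = soX ρ σ₀ σ • soF ρ σ₀
  eig2 : ∀ σ ∈ P.decompositionSubgroup ℚ,
    soT ρ σ₀ • (soT ρ σ₀ • ρ.ρ σ - soZ ρ σ₀ σ • 1) =
      soF ρ σ₀ * (soT ρ σ₀ • ρ.ρ σ - soZ ρ σ₀ σ • 1)
  cyc : ∀ σ ∈ P.decompositionSubgroup ℚ, CycRel p σ (soX ρ σ₀ σ) (soZ ρ σ₀ σ)

/-! ### From the intrinsic form to the line -/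

section ToLine

variable {ρ : GaloisRepAdic A} {p : ℕ} {P : ValuationSubring (AlgebraicClosure ℚ)}
  {σ₀ : AlgebraicClosure ℚ ≃ₐ[ℚ] AlgebraicClosure ℚ}

/-- `t u = F w` implies `u ∈ range F`. -/
theorem mem_range_of_smul_eq (h : SOInt ρ p P σ₀) {u w : ρ.V}
    (huw : soT ρ σ₀ • u = soF ρ σ₀ w) : u ∈ LinearMap.range (soF ρ σ₀) := by
  obtain ⟨s, hs⟩ := h.unit
  refine ⟨((s⁻¹ : Aˣ) : A) • w, ?_⟩
  rw [map_smul, ← huw, smul_smul, ← hs, Units.inv_mul, one_smul]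

theorem isSOLineAt_of_soInt (h : SOInt ρ p P σ₀) :
    IsSOLineAt ρ p P (LinearMap.range (soF ρ σ₀)) := by
  obtain ⟨s, hs⟩ := h.unit
  have hsq : ∀ v, soF ρ σ₀ (soF ρ σ₀ v) = soT ρ σ₀ • soF ρ σ₀ v := fun v =>
    LinearMap.congr_fun h.sq v
  refine ⟨?_, ?_, ?_, ?_⟩
  · -- the basis
    let e : ρ.V →ₗ[A] ρ.V := ((s⁻¹ : Aˣ) : A) • soF ρ σ₀
    have he : ∀ v, e (e v) = e v := by
      intro v
      simp only [e, LinearMap.smul_apply, map_smul]
      rw [hsq, smul_smul, smul_smul, ← hs, mul_assoc, Units.inv_mul, mul_one]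
    have htr : LinearMap.trace A ρ.V e = 1 := by
      simp only [e, map_smul, smul_eq_mul]
      change ((s⁻¹ : Aˣ) : A) * soT ρ σ₀ = 1
      rw [← hs, Units.inv_mul]
    obtain ⟨b, hb⟩ := exists_basis_range_of_idempotent
      (Module.finBasisOfFinrankEq A ρ.V ρ.finrank_eq) e he htr
    refine ⟨b, ?_⟩
    rw [← hb]
    apply le_antisymm
    · rintro _ ⟨v, rfl⟩
      refine ⟨(s : A) • v, ?_⟩
      simp only [e, LinearMap.smul_apply, map_smul]
      rw [smul_smul, Units.mul_inv, one_smul]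
    · rintro _ ⟨v, rfl⟩
      exact ⟨((s⁻¹ : Aˣ) : A) • v, by simp only [e, LinearMap.smul_apply, map_smul]⟩
  · -- stability
    rintro σ hσ _ ⟨v, rfl⟩
    apply mem_range_of_smul_eq h (w := ρ.ρ σ (soF ρ σ₀ v))
    exact LinearMap.congr_fun (h.stab σ hσ) v
  · -- inertia
    intro σ hσ v
    apply mem_range_of_smul_eq h (w := ρ.ρ σ v - v)
    exact LinearMap.congr_fun (h.inert σ hσ) v
  · -- eigenvalues
    intro σ hσ
    refine ⟨((s⁻¹ : Aˣ) : A) * soX ρ σ₀ σ, ((s⁻¹ : Aˣ) : A) * soZ ρ σ₀ σ, ?_, ?_, ?_⟩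
    · rintro _ ⟨v, rfl⟩
      have h1 : soT ρ σ₀ • ρ.ρ σ (soF ρ σ₀ v) = soX ρ σ₀ σ • soF ρ σ₀ v :=
        LinearMap.congr_fun (h.eig1 σ hσ) v
      rw [mul_smul, ← h1, smul_smul, ← hs, Units.inv_mul, one_smul]
    · intro v
      have h1 : soT ρ σ₀ • (soT ρ σ₀ • ρ.ρ σ v - soZ ρ σ₀ σ • v) =
          soF ρ σ₀ (soT ρ σ₀ • ρ.ρ σ v - soZ ρ σ₀ σ • v) :=
        LinearMap.congr_fun (h.eig2 σ hσ) v
      have h2 := mem_range_of_smul_eq h h1
      have h3 : ρ.ρ σ v - (((s⁻¹ : Aˣ) : A) * soZ ρ σ₀ σ) • v =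
          ((s⁻¹ : Aˣ) : A) • (soT ρ σ₀ • ρ.ρ σ v - soZ ρ σ₀ σ • v) := by
        rw [smul_sub, smul_smul, smul_smul, ← hs, Units.inv_mul, one_smul]
      rw [h3]
      exact Submodule.smul_mem _ _ h2
    · intro n a ha
      have h1 := h.cyc σ hσ n a ha
      have h2 : ((s⁻¹ : Aˣ) : A) * soX ρ σ₀ σ - (a : A) * (((s⁻¹ : Aˣ) : A) * soZ ρ σ₀ σ) =
          (soX ρ σ₀ σ - (a : A) * soZ ρ σ₀ σ) * ((s⁻¹ : Aˣ) : A) := by ring
      rw [h2]
      exact Ideal.mul_mem_right _ _ h1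

end ToLine

/-! ### From the line to the intrinsic form -/

section OfLine

theorem isUnit_of_isUnit_add_mem {R : Type} [CommRing R] [IsLocalRing R] {u m : R}
    (hu : IsUnit u) (hm : m ∈ maximalIdeal R) : IsUnit (u + m) := by
  by_contra hcon
  have h1 : u + m ∈ maximalIdeal R := (IsLocalRing.mem_maximalIdeal _).mpr hcon
  have h2 : u ∈ maximalIdeal R := by
    have := Ideal.sub_mem _ h1 hm
    rwa [add_sub_cancel_right] at this
  exact (IsLocalRing.mem_maximalIdeal _).mp h2 hu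

/-- The trace of an endomorphism which is `x` on the line `A b₀` and `z` modulo the line. -/
theorem trace_of_line_quot {V : Type} [AddCommGroup V] [Module A V]
    (b : Module.Basis (Fin 2) A V) (H : V →ₗ[A] V) (x z : A)
    (h1 : H (b 0) = x • b 0) (h2 : H (b 1) - z • b 1 ∈ Submodule.span A {b 0}) :
    LinearMap.trace A V H = x + z := by
  rw [LinearMap.trace_eq_matrix_trace A b, Matrix.trace, Fin.sum_univ_two]
  simp only [Matrix.diag_apply, LinearMap.toMatrix_apply]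
  have h3 := repr_one_eq_zero_of_mem_span b h2
  rw [map_sub, Finsupp.sub_apply, map_smul, Finsupp.smul_apply, Module.Basis.repr_self,
    Finsupp.single_eq_same, smul_eq_mul, mul_one, sub_eq_zero] at h3
  rw [h1, h3, map_smul, Finsupp.smul_apply, Module.Basis.repr_self, Finsupp.single_eq_same,
    smul_eq_mul, mul_one]

variable {ρ : GaloisRepAdic A} {p : ℕ} {P : ValuationSubring (AlgebraicClosure ℚ)}
  {σ₀ : AlgebraicClosure ℚ ≃ₐ[ℚ] AlgebraicClosure ℚ}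

theorem mem_decomposition_of_mem_inertia' (P : ValuationSubring (AlgebraicClosure ℚ))
    (σ : AlgebraicClosure ℚ ≃ₐ[ℚ] AlgebraicClosure ℚ)
    (hσ : σ ∈ P.inertiaSubgroupIn ℚ) : σ ∈ P.decompositionSubgroup ℚ := by
  obtain ⟨τ, -, rfl⟩ := Subgroup.mem_map.1 hσ
  exact τ.2

theorem soInt_of_isSOLineAt (hp : (p : A) ∈ maximalIdeal A)
    (hσ₀ : σ₀ ∈ P.inertiaSubgroupIn ℚ) (a₀ : ℕ) (ha₀ : ActsPow p σ₀ 1 a₀)
    (hu : IsUnit ((a₀ : A) - 1)) {L : Submodule A ρ.V} (hL : IsSOLineAt ρ p P L) :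
    SOInt ρ p P σ₀ := by
  obtain ⟨⟨b, rfl⟩, hstab, hin, heig⟩ := hL
  have hσ₀D := mem_decomposition_of_mem_inertia' P σ₀ hσ₀
  obtain ⟨x₀, z₀, hx₀, hz₀, hc₀⟩ := heig σ₀ hσ₀D
  have hb0 : b 0 ∈ Submodule.span A {b 0} := Submodule.mem_span_singleton_self _
  -- `z₀ = 1`
  have hz : z₀ = 1 := by
    have h1 : (z₀ - 1) • b 1 ∈ Submodule.span A {b 0} := by
      have := Submodule.sub_mem _ (hin σ₀ hσ₀ (b 1)) (hz₀ (b 1))
      have e : ρ.ρ σ₀ (b 1) - b 1 - (ρ.ρ σ₀ (b 1) - z₀ • b 1) = (z₀ - 1) • b 1 := by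
        rw [sub_smul, one_smul]; abel
      rwa [e] at this
    have h2 := repr_one_eq_zero_of_mem_span b h1
    rw [map_smul, Finsupp.smul_apply, Module.Basis.repr_self, Finsupp.single_eq_same,
      smul_eq_mul, mul_one, sub_eq_zero] at h2
    exact h2
  -- `t₀ = x₀ - 1` is a unit
  have hxa : x₀ - (a₀ : A) ∈ maximalIdeal A := by
    have h1 := hc₀ 1 a₀ ha₀
    rw [hz, mul_one] at h1
    have h2 : Ideal.span {((p ^ 1 : ℕ) : A)} ≤ maximalIdeal A := by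
      rw [Ideal.span_singleton_le_iff_mem, pow_one]
      exact hp
    exact h2 h1
  have ht₀ : IsUnit (x₀ - 1) := by
    have := isUnit_of_isUnit_add_mem hu hxa
    have e : (a₀ : A) - 1 + (x₀ - (a₀ : A)) = x₀ - 1 := by ring
    rwa [e] at this
  have hFL : ∀ v, soF ρ σ₀ v ∈ Submodule.span A {b 0} := fun v => hin σ₀ hσ₀ v
  have hFw : ∀ w ∈ Submodule.span A {b 0}, soF ρ σ₀ w = (x₀ - 1) • w := by
    intro w hw
    change ρ.ρ σ₀ w - w = _
    rw [hx₀ w hw, sub_smul, one_smul]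
  have hT : soT ρ σ₀ = x₀ - 1 :=
    trace_of_range_le_line b (soF ρ σ₀) (x₀ - 1) hFL (hFw _ hb0)
  have key : ∀ σ ∈ P.decompositionSubgroup ℚ, ∀ x z : A,
      (∀ w ∈ Submodule.span A {b 0}, ρ.ρ σ w = x • w) →
      (∀ v : ρ.V, ρ.ρ σ v - z • v ∈ Submodule.span A {b 0}) →
      soX ρ σ₀ σ = (x₀ - 1) * x ∧ soZ ρ σ₀ σ = (x₀ - 1) * z := by
    intro σ hσ x z hx hz
    have hX : soX ρ σ₀ σ = (x₀ - 1) * x := by
      apply trace_of_range_le_line b
      · intro v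
        exact hstab σ hσ _ (hFL v)
      · change ρ.ρ σ (soF ρ σ₀ (b 0)) = _
        rw [hFw _ hb0, map_smul, hx _ hb0, smul_smul]
    refine ⟨hX, ?_⟩
    have htr : LinearMap.trace A ρ.V (ρ.ρ σ) = x + z :=
      trace_of_line_quot b (ρ.ρ σ) x z (hx _ hb0) (hz (b 1))
    rw [soZ, hX, hT, htr]
    ring
  refine ⟨?_, ?_, ?_, ?_, ?_, ?_, ?_⟩
  · rw [hT]; exact ht₀
  · ext v
    change soF ρ σ₀ (soF ρ σ₀ v) = soT ρ σ₀ • soF ρ σ₀ v
    rw [hFw _ (hFL v), hT]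
  · intro σ hσ
    ext v
    change soT ρ σ₀ • ρ.ρ σ (soF ρ σ₀ v) = soF ρ σ₀ (ρ.ρ σ (soF ρ σ₀ v))
    rw [hFw _ (hstab σ hσ _ (hFL v)), hT]
  · intro σ hσ
    ext v
    change soT ρ σ₀ • (ρ.ρ σ v - v) = soF ρ σ₀ (ρ.ρ σ v - v)
    rw [hFw _ (hin σ hσ v), hT]
  · intro σ hσ
    obtain ⟨x, z, hx, hz', -⟩ := heig σ hσ
    obtain ⟨hX, -⟩ := key σ hσ x z hx hz'
    ext v
    change soT ρ σ₀ • ρ.ρ σ (soF ρ σ₀ v) = soX ρ σ₀ σ • soF ρ σ₀ v
    rw [hX, hT, hx _ (hFL v), smul_smul]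
  · intro σ hσ
    obtain ⟨x, z, hx, hz', -⟩ := heig σ hσ
    obtain ⟨-, hZ⟩ := key σ hσ x z hx hz'
    ext v
    change soT ρ σ₀ • (soT ρ σ₀ • ρ.ρ σ v - soZ ρ σ₀ σ • v) =
      soF ρ σ₀ (soT ρ σ₀ • ρ.ρ σ v - soZ ρ σ₀ σ • v)
    have hmem : soT ρ σ₀ • ρ.ρ σ v - soZ ρ σ₀ σ • v ∈ Submodule.span A {b 0} := by
      have e : soT ρ σ₀ • ρ.ρ σ v - soZ ρ σ₀ σ • v = (x₀ - 1) • (ρ.ρ σ v - z • v) := by
        rw [hZ, hT, smul_sub, smul_smul]
      rw [e]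
      exact Submodule.smul_mem _ _ (hz' v)
    rw [hFw _ hmem, hT]
  · intro σ hσ
    obtain ⟨x, z, hx, hz', hc⟩ := heig σ hσ
    obtain ⟨hX, hZ⟩ := key σ hσ x z hx hz'
    intro n a ha
    have h1 := hc n a ha
    have e : soX ρ σ₀ σ - (a : A) * soZ ρ σ₀ σ = (x - (a : A) * z) * (x₀ - 1) := by
      rw [hX, hZ]; ring
    rw [e]
    exact Ideal.mul_mem_right _ _ h1

end OfLine

/-! ### Base change of the intrinsic data -/

section BaseChange

variable {B : Type} [CommRing B] [IsLocalRing B] (φ : A →+* B) (hφ : IsLocalHom φ)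
  (ρ : GaloisRepAdic A) (σ₀ σ : AlgebraicClosure ℚ ≃ₐ[ℚ] AlgebraicClosure ℚ)

theorem soF_baseChangeAlong :
    letI := φ.toAlgebra
    soF (ρ.baseChangeAlong φ hφ) σ₀ = (soF ρ σ₀).baseChange B := by
  letI := φ.toAlgebra
  change (ρ.ρ σ₀).baseChange B - 1 = (ρ.ρ σ₀ - 1).baseChange B
  rw [LinearMap.baseChange_sub, LinearMap.baseChange_one]

theorem soT_baseChangeAlong : soT (ρ.baseChangeAlong φ hφ) σ₀ = φ (soT ρ σ₀) := by
  letI := φ.toAlgebra
  have h := LinearMap.trace_baseChange (soF ρ σ₀) B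
  rw [← soF_baseChangeAlong φ hφ ρ σ₀] at h
  exact h

theorem trace_baseChangeAlong :
    LinearMap.trace B (ρ.baseChangeAlong φ hφ).V ((ρ.baseChangeAlong φ hφ).ρ σ) =
      φ (LinearMap.trace A ρ.V (ρ.ρ σ)) := by
  letI := φ.toAlgebra
  exact LinearMap.trace_baseChange (ρ.ρ σ) B

theorem soX_baseChangeAlong : soX (ρ.baseChangeAlong φ hφ) σ₀ σ = φ (soX ρ σ₀ σ) := by
  letI := φ.toAlgebra
  have h := LinearMap.trace_baseChange (ρ.ρ σ * soF ρ σ₀) B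
  rw [LinearMap.baseChange_mul, ← soF_baseChangeAlong φ hφ ρ σ₀] at h
  exact h

theorem soZ_baseChangeAlong : soZ (ρ.baseChangeAlong φ hφ) σ₀ σ = φ (soZ ρ σ₀ σ) := by
  unfold soZ
  rw [soT_baseChangeAlong, soX_baseChangeAlong, trace_baseChangeAlong, map_sub, map_mul]

theorem smul_baseChange_eq {C : Type} [CommRing C] [Algebra A C] {V : Type} [AddCommGroup V]
    [Module A V] (t : A) (f : V →ₗ[A] V) :
    (t • f).baseChange C = (algebraMap A C t) • f.baseChange C := by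
  rw [LinearMap.baseChange_smul]
  ext v
  simp only [TensorProduct.AlgebraTensorModule.curry_apply, LinearMap.restrictScalars_apply,
    TensorProduct.curry_apply, LinearMap.smul_apply, LinearMap.baseChange_tmul]
  rw [algebraMap_smul]

end BaseChange

/-! ### Descent of the intrinsic form -/

section Descent

variable {p : ℕ} (F : JFam A p) (ρ : GaloisRepAdic A)
  (P : ValuationSubring (AlgebraicClosure ℚ))
  (σ₀ : AlgebraicClosure ℚ ≃ₐ[ℚ] AlgebraicClosure ℚ)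

theorem JFam.soInt (h : ∀ i, SOInt (ρ.baseChangeAlong (F.φ i) (F.hφ i)) p P σ₀) :
    SOInt ρ p P σ₀ := by
  refine ⟨?_, ?_, ?_, ?_, ?_, ?_, ?_⟩
  · apply F.isUnit
    intro i
    have := (h i).unit
    rwa [soT_baseChangeAlong] at this
  · apply F.end_eq
    intro i
    letI := (F.φ i).toAlgebra
    have hi := (h i).sq
    rw [soT_baseChangeAlong, soF_baseChangeAlong] at hi
    rw [LinearMap.baseChange_mul, smul_baseChange_eq]
    exact hi
  · intro σ hσ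
    apply F.end_eq
    intro i
    letI := (F.φ i).toAlgebra
    have hi := (h i).stab σ hσ
    rw [soT_baseChangeAlong, soF_baseChangeAlong] at hi
    rw [LinearMap.baseChange_mul, smul_baseChange_eq, LinearMap.baseChange_mul]
    exact hi
  · intro σ hσ
    apply F.end_eq
    intro i
    letI := (F.φ i).toAlgebra
    have hi := (h i).inert σ hσ
    rw [soT_baseChangeAlong, soF_baseChangeAlong] at hi
    rw [LinearMap.baseChange_mul, smul_baseChange_eq, LinearMap.baseChange_sub,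
      LinearMap.baseChange_one]
    exact hi
  · intro σ hσ
    apply F.end_eq
    intro i
    letI := (F.φ i).toAlgebra
    have hi := (h i).eig1 σ hσ
    rw [soT_baseChangeAlong, soX_baseChangeAlong, soF_baseChangeAlong] at hi
    rw [smul_baseChange_eq, smul_baseChange_eq, LinearMap.baseChange_mul]
    exact hi
  · intro σ hσ
    apply F.end_eq
    intro i
    letI := (F.φ i).toAlgebra
    have hi := (h i).eig2 σ hσ
    rw [soT_baseChangeAlong, soZ_baseChangeAlong, soF_baseChangeAlong] at hi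
    rw [LinearMap.baseChange_mul, smul_baseChange_eq, LinearMap.baseChange_sub,
      smul_baseChange_eq, smul_baseChange_eq, LinearMap.baseChange_one]
    exact hi
  · intro σ hσ
    apply F.cyc
    intro i
    have hi := (h i).cyc σ hσ
    rwa [soX_baseChangeAlong, soZ_baseChangeAlong] at hi

end Descent

/-! ### The strict-ordinary condition descends -/

section Final

theorem not_modEq_one_of_ne {p : ℕ} {σ₀ : AlgebraicClosure ℚ ≃ₐ[ℚ] AlgebraicClosure ℚ} {a₀ : ℕ}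
    (ha₀ : ActsPow p σ₀ 1 a₀) {ζ : AlgebraicClosure ℚ} (hζ : ζ ^ p = 1) (hne : σ₀ ζ ≠ ζ) :
    ¬ (a₀ ≡ 1 [MOD p]) := by
  intro hmod
  apply hne
  rw [ha₀ ζ (by rw [pow_one]; exact hζ)]
  have h1 : a₀ % p = 1 % p := hmod
  have h2 : a₀ = p * (a₀ / p) + 1 % p := by
    have := Nat.div_add_mod a₀ p
    omega
  by_cases hp1 : p = 1
  · subst hp1
    rw [pow_one] at hζ
    rw [hζ, one_pow]
  · have hp0 : ζ ^ (1 % p) = ζ := by
      rcases Nat.lt_or_ge 1 p with hlt | hge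
      · rw [Nat.mod_eq_of_lt hlt, pow_one]
      · have : p = 0 := by omega
        subst this
        simp
    rw [h2, pow_add, pow_mul, hζ, one_pow, one_mul, hp0]

theorem isUnit_natCast_sub_one {B : Type} [CommRing B] [IsLocalRing B] {p a₀ : ℕ}
    (hp : p.Prime) (hpB : (p : B) ∈ maximalIdeal B) (h : ¬ a₀ ≡ 1 [MOD p]) :
    IsUnit ((a₀ : B) - 1) := by
  have hndvd : ¬ (p : ℤ) ∣ ((a₀ : ℤ) - 1) := by
    intro hd
    apply h
    have := (Int.modEq_iff_dvd (n := (p : ℤ)) (a := 1) (b := (a₀ : ℤ))).mpr hd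
    have h2 : (a₀ : ℤ) ≡ ((1 : ℕ) : ℤ) [ZMOD (p : ℤ)] := by
      rw [Nat.cast_one]; exact this.symm
    exact (Int.natCast_modEq_iff).mp h2
  have hcop : IsCoprime (p : ℤ) ((a₀ : ℤ) - 1) :=
    (Prime.coprime_iff_not_dvd (Nat.prime_iff_prime_int.mp hp)).mpr hndvd
  obtain ⟨u, v, huv⟩ := hcop
  have h1 : (v : B) * ((a₀ : B) - 1) = 1 - (u : B) * (p : B) := by
    have := congrArg (Int.cast : ℤ → B) huv
    push_cast at this
    linear_combination this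
  have h2 : IsUnit ((v : B) * ((a₀ : B) - 1)) := by
    rw [h1]
    have hm : (u : B) * (p : B) ∈ maximalIdeal B := Ideal.mul_mem_left _ _ hpB
    have := isUnit_of_isUnit_add_mem (R := B) isUnit_one (neg_mem hm)
    rwa [← sub_eq_add_neg] at this
  exact isUnit_of_mul_isUnit_right h2

variable {p : ℕ} [Fact p.Prime] (F : JFam A p) (ρ : GaloisRepAdic A)

theorem JFam.isStrictOrdinaryAt (hp2 : p ≠ 2)
    (h : ∀ i, (ρ.baseChangeAlong (F.φ i) (F.hφ i)).IsStrictOrdinaryAt p) :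
    ρ.IsStrictOrdinaryAt p := by
  have hpp : p.Prime := Fact.out
  have hpA : (p : A) ∈ maximalIdeal A := by
    obtain ⟨i⟩ := F.ne
    apply F.mem_maximalIdeal i
    rw [map_natCast]
    exact (h i).1
  refine ⟨hpA, fun P hP => ?_⟩
  obtain ⟨σ₀, hσ₀, ζ, hζ, hne⟩ := Fermat.Agent.R.H2.stmt_CycInertia p hpp hp2 P hP
  obtain ⟨a₀, ha₀⟩ := exists_actsPow p σ₀ 1
  have hmod := not_modEq_one_of_ne ha₀ hζ hne
  have hint : SOInt ρ p P σ₀ := by
    apply F.soInt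
    intro i
    obtain ⟨L, hL⟩ := (h i).2 P hP
    exact soInt_of_isSOLineAt (h i).1 hσ₀ a₀ ha₀ (isUnit_natCast_sub_one hpp (h i).1 hmod) hL
  exact ⟨_, isSOLineAt_of_soInt hint⟩

end Final

end Fermat.Agent.S59.H99
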