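import Fermat.Agent.S56.H92_StableFl
import Fermat.Agent.R.Flat.H54_ClosurePi
import Fermat.Agent.R.Flat.H54_ClosureQuot

/-!
# S59, leaf SPLIT, part 1 (helper99): flatness passes to finite free local extensions

`isFlatAt_baseChangeAlong_of_finite_free`: if `φ : A → B` is a local homomorphism making `B` a
finite free `A`-module and `ρ` is flat at `p`, then `ρ.baseChangeAlong φ` is flat at `p`.

For an ideal `I'` of `B` of finite index and `I = φ⁻¹ I'`, the Galois module
`(B ⊗ V) / I' (B ⊗ V)` is an equivariant quotient of `(V / I V)^r` (`r` the rank of `B`) via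
`(v_i) ↦ ∑ b_i ⊗ v_i`; flat Galois modules are closed under finite products and quotients
(helper54's FLAT-CLOSURE).
-/

set_option autoImplicit false

open IsLocalRing TensorProduct

namespace Fermat.Agent.S59.H99

open Fermat.Agent.R Fermat.Agent.S56.H92

section

variable {A B : Type} [CommRing A] [CommRing B] [Algebra A B]
variable {V : Type} [AddCommGroup V] [Module A V]

/-- The additive map `(v_i) ↦ ∑ [b_i ⊗ v_i]` from `(V / I V)^r` to `(B ⊗ V) / I' (B ⊗ V)`. -/
noncomputable def sumTheta {r : ℕ} (b : Fin r → B) (I : Ideal A) (I' : Ideal B)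
    (hI : ∀ a ∈ I, algebraMap A B a ∈ I') :
    (Fin r → V ⧸ I • (⊤ : Submodule A V)) →+
      (B ⊗[A] V) ⧸ (I' • (⊤ : Submodule B (B ⊗[A] V))) :=
  ∑ i, ((Submodule.liftQ _ (thetaX (R := A) (V := V) I' (b i))
    (smul_top_le_ker_thetaX I' (b i) I (fun a ha => I'.mul_mem_right _ (hI a ha)))).toAddMonoidHom).comp
      (Pi.evalAddMonoidHom (fun _ : Fin r => V ⧸ I • (⊤ : Submodule A V)) i)

theorem sumTheta_apply {r : ℕ} (b : Fin r → B) (I : Ideal A) (I' : Ideal B)
    (hI : ∀ a ∈ I, algebraMap A B a ∈ I') (x : Fin r → V ⧸ I • (⊤ : Submodule A V)) :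
    sumTheta b I I' hI x = ∑ i, Submodule.liftQ _ (thetaX (R := A) (V := V) I' (b i))
      (smul_top_le_ker_thetaX I' (b i) I (fun a ha => I'.mul_mem_right _ (hI a ha))) (x i) := by
  simp only [sumTheta, AddMonoidHom.finsetSum_apply, AddMonoidHom.comp_apply,
    Pi.evalAddMonoidHom_apply, LinearMap.toAddMonoidHom_coe]

theorem sumTheta_surjective {r : ℕ} (b : Module.Basis (Fin r) A B) (I : Ideal A) (I' : Ideal B)
    (hI : ∀ a ∈ I, algebraMap A B a ∈ I') :
    Function.Surjective (sumTheta (V := V) b I I' hI) := by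
  intro q
  obtain ⟨w, rfl⟩ := Submodule.Quotient.mk_surjective _ q
  induction w using TensorProduct.induction_on with
  | zero => exact ⟨0, by rw [map_zero]; rfl⟩
  | tmul x v =>
    refine ⟨fun i => Submodule.Quotient.mk (b.repr x i • v), ?_⟩
    rw [sumTheta_apply]
    simp only [Submodule.liftQ_apply, thetaX_apply]
    have e : x ⊗ₜ[A] v = ∑ i, (b i) ⊗ₜ[A] (b.repr x i • v) := by
      conv_lhs => rw [← b.sum_repr x, TensorProduct.sum_tmul]
      refine Finset.sum_congr rfl fun i _ => ?_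
      rw [TensorProduct.tmul_smul, TensorProduct.smul_tmul']
    rw [e]
    exact (map_sum (Submodule.mkQ (I' • (⊤ : Submodule B (B ⊗[A] V)))) _ _).symm
  | add x y hx hy =>
    obtain ⟨a, ha⟩ := hx
    obtain ⟨c, hc⟩ := hy
    exact ⟨a + c, by rw [map_add, ha, hc]; rfl⟩

theorem sumTheta_equivariant {r : ℕ} (b : Fin r → B) (I : Ideal A) (I' : Ideal B)
    (hI : ∀ a ∈ I, algebraMap A B a ∈ I') (f : V →ₗ[A] V)
    (h1 : I • (⊤ : Submodule A V) ≤ (I • (⊤ : Submodule A V)).comap f)
    (h2 : I' • (⊤ : Submodule B (B ⊗[A] V)) ≤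
      (I' • (⊤ : Submodule B (B ⊗[A] V))).comap (f.baseChange B))
    (x : Fin r → V ⧸ I • (⊤ : Submodule A V)) :
    sumTheta b I I' hI (fun i => Submodule.mapQ _ _ f h1 (x i)) =
      Submodule.mapQ _ _ (f.baseChange B) h2 (sumTheta b I I' hI x) := by
  rw [sumTheta_apply, sumTheta_apply, map_sum]
  refine Finset.sum_congr rfl fun i _ => ?_
  exact liftQ_thetaX_mapQ I' (b i) I _ f h1 h2 (x i)

end

/-- **Flatness passes to finite free local extensions.** -/
theorem isFlatAt_baseChangeAlong_of_finite_free {A B : Type} [CommRing A] [IsLocalRing A]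
    [CommRing B] [IsLocalRing B] (φ : A →+* B) (hφ : IsLocalHom φ)
    (hfree : letI := φ.toAlgebra; Module.Free A B)
    (hfin : letI := φ.toAlgebra; Module.Finite A B)
    (hres : Finite (ResidueField B))
    (ρ : GaloisRepAdic A) (p : ℕ) (hp : p.Prime) (h : ρ.IsFlatAt p) :
    (ρ.baseChangeAlong φ hφ).IsFlatAt p := by
  let _ : Algebra A B := φ.toAlgebra
  rw [isFlatAt_iff] at h ⊢
  refine ⟨hres, fun I' hI' => ?_⟩
  set I : Ideal A := I'.comap φ with hIdef
  have hIfin : Finite (A ⧸ I) := by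
    have hinj : Function.Injective (Ideal.quotientMap I' φ (le_refl I)) :=
      Ideal.quotientMap_injective
    exact Finite.of_injective _ hinj
  have h₀ := h.2 I hIfin
  let r := Module.finrank A B
  let b : Module.Basis (Fin r) A B := Module.finBasis A B
  have hI : ∀ a ∈ I, algebraMap A B a ∈ I' := fun a ha => ha
  have hpi := Fermat.Agent.R.H54.stmt_FlatPi p hp r
    (fun _ => ρ.V ⧸ I • (⊤ : Submodule A ρ.V)) (fun _ σ => ρ.levelAction I σ) (fun _ => h₀)
  refine Fermat.Agent.R.H54.stmt_FlatQuot p hp _ _ _ _ (sumTheta (V := ρ.V) b I I' hI)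
    (sumTheta_surjective b I I' hI) ?_ hpi
  intro σ x
  exact sumTheta_equivariant (V := ρ.V) b I I' hI (ρ.ρ σ) _ _ x

end Fermat.Agent.S59.H99
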