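import Fermat.Agent.R.H2_FiniteExtDVR

/-!
# S59, leaf SPLIT, part 3 (helper99): a finite extension of the coefficient ring over whose
residue field all quadratic polynomials of the old residue field split

`exists_split_ext`: for a complete discrete valuation ring `𝒪` (characteristic `0`, finite
residue field `k`) there is a complete discrete valuation ring `𝒪'`, finite free over `𝒪` with
local structure map, such that every monic quadratic polynomial over `k` is a product of two
linear factors over the residue field of `𝒪'`.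

Construction: `𝒪'` = integral closure of `𝒪` in the splitting field of the product of the lifts
`X² + s(b) X + s(c)`, `(b, c) ∈ k × k`.
-/

set_option autoImplicit false

open Polynomial IsLocalRing

namespace Fermat.Agent.S59.H99

/-- A monic polynomial of degree `2` in terms of its coefficients. -/
theorem monic_quadratic_eq {R : Type*} [CommRing R] {g : R[X]} (hm : g.Monic)
    (hd : g.natDegree = 2) : g = X ^ 2 + (C (g.coeff 1) * X + C (g.coeff 0)) := by
  conv_lhs => rw [hm.as_sum, hd]
  rw [Finset.sum_range_succ, Finset.sum_range_one, pow_zero, mul_one, pow_one]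
  ring

theorem quadratic_monic {R : Type*} [CommRing R] [Nontrivial R] (b c : R) :
    (X ^ 2 + (C b * X + C c) : R[X]).Monic :=
  monic_X_pow_add (lt_of_le_of_lt degree_linear_le (by norm_num))

theorem quadratic_natDegree {R : Type*} [CommRing R] [Nontrivial R] (b c : R) :
    (X ^ 2 + (C b * X + C c) : R[X]).natDegree = 2 := by
  have hlt : (C b * X + C c : R[X]).degree < (X ^ 2 : R[X]).degree := by
    rw [degree_X_pow]
    exact lt_of_le_of_lt degree_linear_le (by norm_num)
  have h : (X ^ 2 + (C b * X + C c) : R[X]).degree = ((2 : ℕ) : WithBot ℕ) := by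
    rw [degree_add_eq_left_of_degree_lt hlt, degree_X_pow]
  exact natDegree_eq_of_degree_eq_some h

/-- A split monic polynomial of degree `2` over a field is a product of two linear factors. -/
theorem exists_roots_of_splits {E : Type*} [Field E] {f : E[X]} (hf : f.Splits) (hm : f.Monic)
    (hd : f.natDegree = 2) : ∃ r₁ r₂ : E, f = (X - C r₁) * (X - C r₂) := by
  have hcard : f.roots.card = 2 := by rw [← hf.natDegree_eq_card_roots, hd]
  obtain ⟨r₁, r₂, hr⟩ := Multiset.card_eq_two.mp hcard
  refine ⟨r₁, r₂, ?_⟩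
  conv_lhs => rw [hf.eq_prod_roots_of_monic hm, hr]
  simp

/-- **The coefficient ring for SPLIT.** -/
theorem exists_split_ext (𝒪 : Type) [CommRing 𝒪] [IsDomain 𝒪] [IsDiscreteValuationRing 𝒪]
    [IsAdicComplete (maximalIdeal 𝒪) 𝒪] [Finite (ResidueField 𝒪)] [CharZero 𝒪] :
    ∃ (𝒪' : Type) (_ : CommRing 𝒪') (_ : IsDomain 𝒪') (_ : IsDiscreteValuationRing 𝒪')
      (_ : IsAdicComplete (maximalIdeal 𝒪') 𝒪') (_ : Finite (ResidueField 𝒪'))
      (_ : CharZero 𝒪') (_ : Algebra 𝒪 𝒪') (_ : Module.Finite 𝒪 𝒪') (_ : Module.Free 𝒪 𝒪')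
      (_ : IsLocalHom (algebraMap 𝒪 𝒪')),
      ∀ g : (ResidueField 𝒪)[X], g.Monic → g.natDegree = 2 →
        ∃ α β : ResidueField 𝒪',
          g.map (ResidueField.map (algebraMap 𝒪 𝒪')) = (X - C α) * (X - C β) := by
  classical
  have hfk : Fintype (ResidueField 𝒪) := Fintype.ofFinite _
  let s : ResidueField 𝒪 → 𝒪 := Function.surjInv (residue_surjective (R := 𝒪))
  have hs : ∀ x, residue 𝒪 (s x) = x := Function.surjInv_eq _
  let q : ResidueField 𝒪 × ResidueField 𝒪 → 𝒪[X] :=
    fun bc => X ^ 2 + (C (s bc.1) * X + C (s bc.2))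
  have hqm : ∀ bc, (q bc).Monic := fun bc => quadratic_monic _ _
  have hqd : ∀ bc, (q bc).natDegree = 2 := fun bc => quadratic_natDegree _ _
  let G : 𝒪[X] := ∏ bc, q bc
  have hGm : G.Monic := monic_prod_of_monic _ _ (fun bc _ => hqm bc)
  obtain ⟨𝒪', i1, i2, i3, i4, i5, i6, i7, i8, i9, i10, i11, i12, hinj, hint⟩ :=
    Fermat.Agent.R.H2.exists_finiteExtDVR 𝒪 (FractionRing 𝒪)
      ((G.map (algebraMap 𝒪 (FractionRing 𝒪))).SplittingField)
  have htf : Module.IsTorsionFree 𝒪 𝒪' := Module.isTorsionFree_iff_algebraMap_injective.mpr hinj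
  have hfree : Module.Free 𝒪 𝒪' := Module.free_of_finite_type_torsion_free'
  refine ⟨𝒪', i1, i2, i3, i4, i5, i6, i7, i8, hfree, i9, ?_⟩
  intro g hgm hgd
  set E := (G.map (algebraMap 𝒪 (FractionRing 𝒪))).SplittingField with hE
  set bc : ResidueField 𝒪 × ResidueField 𝒪 := (g.coeff 1, g.coeff 0) with hbc
  -- `q bc` reduces to `g`
  have hred : (q bc).map (residue 𝒪) = g := by
    conv_rhs => rw [monic_quadratic_eq hgm hgd]
    simp only [q, Polynomial.map_add, Polynomial.map_mul, Polynomial.map_pow, Polynomial.map_X,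
      Polynomial.map_C, hs, hbc]
  -- `q bc` splits in `E`
  have hGE : (G.map (algebraMap 𝒪 E)).Splits := by
    have h1 : G.map (algebraMap 𝒪 E) =
        (G.map (algebraMap 𝒪 (FractionRing 𝒪))).map (algebraMap (FractionRing 𝒪) E) := by
      rw [Polynomial.map_map, ← IsScalarTower.algebraMap_eq]
    rw [h1]
    exact SplittingField.splits _
  have hdvd : (q bc).map (algebraMap 𝒪 E) ∣ G.map (algebraMap 𝒪 E) :=
    Polynomial.map_dvd _ (Finset.dvd_prod_of_mem q (Finset.mem_univ bc))
  have hqE : ((q bc).map (algebraMap 𝒪 E)).Splits :=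
    hGE.of_dvd (hGm.map _).ne_zero hdvd
  obtain ⟨r₁, r₂, hr⟩ := exists_roots_of_splits hqE ((hqm bc).map _)
    (by rw [(hqm bc).natDegree_map, hqd])
  -- the roots are integral
  have hroot : ∀ r : E, ((q bc).map (algebraMap 𝒪 E)).IsRoot r → IsIntegral 𝒪 r := by
    intro r hr0
    refine ⟨q bc, hqm bc, ?_⟩
    rwa [IsRoot.def, eval_map] at hr0
  have hr₁ : IsIntegral 𝒪 r₁ := hroot r₁ (by rw [hr]; simp)
  have hr₂ : IsIntegral 𝒪 r₂ := hroot r₂ (by rw [hr]; simp)
  obtain ⟨y₁, hy₁⟩ := hint r₁ hr₁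
  obtain ⟨y₂, hy₂⟩ := hint r₂ hr₂
  subst hy₁ hy₂
  -- the factorisation over `𝒪'`
  have hfac : (q bc).map (algebraMap 𝒪 𝒪') = (X - C y₁) * (X - C y₂) := by
    apply Polynomial.map_injective (algebraMap 𝒪' E) (IsFractionRing.injective 𝒪' E)
    rw [Polynomial.map_map, ← IsScalarTower.algebraMap_eq, hr]
    simp only [Polynomial.map_mul, Polynomial.map_sub, Polynomial.map_X, Polynomial.map_C]
    rfl
  refine ⟨residue 𝒪' y₁, residue 𝒪' y₂, ?_⟩
  have hcomp : (ResidueField.map (algebraMap 𝒪 𝒪')).comp (residue 𝒪) =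
      (residue 𝒪').comp (algebraMap 𝒪 𝒪') := by
    ext x
    exact ResidueField.map_residue _ x
  rw [← hred, Polynomial.map_map, hcomp, ← Polynomial.map_map, hfac]
  simp only [Polynomial.map_mul, Polynomial.map_sub, Polynomial.map_X, Polynomial.map_C]

end Fermat.Agent.S59.H99
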