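import Fermat.Agent.Tate.T7.H99_Xfer
import Fermat.Agent.S53.Schur

/-!
# S59, leaf SPLIT, part 2 (helper99): the Taylor–Wiles condition and base change

* `exists_gram_of_twCond` : the Taylor–Wiles condition `TWCond ρbar` gives, for every subgroup
  `H` of index `2`, four pairs of elements of `H` with non-vanishing Gram determinant
  `det (tr ρbar (g_a g_b))`  (Burnside over the algebraic closure).
* `twCond_iff_gram` : the converse (`Tate.T7.H99.twCond_of_gram`), as an equivalence.
* `twCond_baseChangeAlong` : `TWCond` of the residual representation is preserved by base change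
  along a local homomorphism.
-/

set_option autoImplicit false

open IsLocalRing TensorProduct

namespace Fermat.Agent.S59.H99

open Fermat.Agent.S58.H99 Fermat.Agent.Tate.T7.H99

/-- The Taylor–Wiles condition gives a non-vanishing Gram determinant on every subgroup of
index `2`. -/
theorem exists_gram_of_twCond {k : Type} [Field k] (ρbar : ResidualGaloisRep k)
    (h : Fermat.Agent.S59.TWCond ρbar)
    (H : Subgroup (AlgebraicClosure ℚ ≃ₐ[ℚ] AlgebraicClosure ℚ)) (hH : H.index = 2) :
    ∃ g : Fin 2 × Fin 2 → H,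
      (Matrix.of fun a b => LinearMap.trace k ρbar.V
        (ρbar.ρ ((g a : AlgebraicClosure ℚ ≃ₐ[ℚ] AlgebraicClosure ℚ) *
          (g b : AlgebraicClosure ℚ ≃ₐ[ℚ] AlgebraicClosure ℚ)))).det ≠ 0 := by
  classical
  set K := AlgebraicClosure k
  have hfin : Module.finrank K (ρbar.baseChange K).V = 2 := (ρbar.baseChange K).finrank_eq
  have hnt : Nontrivial (ρbar.baseChange K).V :=
    Module.nontrivial_of_finrank_pos (R := K) (by rw [hfin]; norm_num)
  let r : H →* Module.End K (ρbar.baseChange K).V := ((ρbar.baseChange K).ρ).comp H.subtype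
  have hspan : Submodule.span K (Set.range r) = ⊤ :=
    Fermat.Agent.S53.Schur.span_range_eq_top_of_irreducible r
      (fun W hW => h K H hH W (fun σ hσ x hx => hW ⟨σ, hσ⟩ x hx))
  obtain ⟨g, hg⟩ := exists_gram_ne_zero_of_span hfin r hspan
  refine ⟨g, fun h0 => hg ?_⟩
  have hmap : (Matrix.of fun a b => LinearMap.trace K (ρbar.baseChange K).V (r (g a * g b))) =
      (Matrix.of fun a b => LinearMap.trace k ρbar.V
        (ρbar.ρ ((g a : AlgebraicClosure ℚ ≃ₐ[ℚ] AlgebraicClosure ℚ) *
          (g b : AlgebraicClosure ℚ ≃ₐ[ℚ] AlgebraicClosure ℚ)))).map (algebraMap k K) := by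
    ext a b
    simp only [Matrix.of_apply, Matrix.map_apply]
    exact LinearMap.trace_baseChange (ρbar.ρ ((g a : AlgebraicClosure ℚ ≃ₐ[ℚ] AlgebraicClosure ℚ) *
      (g b : AlgebraicClosure ℚ ≃ₐ[ℚ] AlgebraicClosure ℚ))) K
  rw [hmap, ← RingHom.mapMatrix_apply, ← RingHom.map_det, h0, map_zero]

/-- The Taylor–Wiles condition in terms of Gram determinants. -/
theorem twCond_iff_gram {k : Type} [Field k] (ρbar : ResidualGaloisRep k) :
    Fermat.Agent.S59.TWCond ρbar ↔
      ∀ H : Subgroup (AlgebraicClosure ℚ ≃ₐ[ℚ] AlgebraicClosure ℚ), H.index = 2 →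
        ∃ g : Fin 2 × Fin 2 → H,
          (Matrix.of fun a b => LinearMap.trace k ρbar.V
            (ρbar.ρ ((g a : AlgebraicClosure ℚ ≃ₐ[ℚ] AlgebraicClosure ℚ) *
              (g b : AlgebraicClosure ℚ ≃ₐ[ℚ] AlgebraicClosure ℚ)))).det ≠ 0 := by
  constructor
  · intro h H hH
    exact exists_gram_of_twCond ρbar h H hH
  · intro h K _ _ H hH V hV
    obtain ⟨g, hg⟩ := h H hH
    exact twCond_of_gram ρbar K H g hg V hV

/-- Traces of the residual representation of a base change. -/
theorem trace_residual_baseChangeAlong {A B : Type} [CommRing A] [IsLocalRing A]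
    [CommRing B] [IsLocalRing B] (φ : A →+* B) (hφ : IsLocalHom φ) (ρ : GaloisRepAdic A)
    (σ : AlgebraicClosure ℚ ≃ₐ[ℚ] AlgebraicClosure ℚ) :
    haveI := hφ
    LinearMap.trace (ResidueField B) (ρ.baseChangeAlong φ hφ).residual.V
        ((ρ.baseChangeAlong φ hφ).residual.ρ σ) =
      ResidueField.map φ (LinearMap.trace (ResidueField A) ρ.residual.V (ρ.residual.ρ σ)) := by
  have := hφ
  let _ : Algebra A B := φ.toAlgebra
  have e1 : LinearMap.trace (ResidueField A) ρ.residual.V (ρ.residual.ρ σ) =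
      residue A (LinearMap.trace A ρ.V (ρ.ρ σ)) :=
    LinearMap.trace_baseChange (ρ.ρ σ) (ResidueField A)
  have e2 : LinearMap.trace (ResidueField B) (ρ.baseChangeAlong φ hφ).residual.V
      ((ρ.baseChangeAlong φ hφ).residual.ρ σ) =
      residue B (LinearMap.trace B (ρ.baseChangeAlong φ hφ).V ((ρ.baseChangeAlong φ hφ).ρ σ)) :=
    LinearMap.trace_baseChange ((ρ.baseChangeAlong φ hφ).ρ σ) (ResidueField B)
  have e3 : LinearMap.trace B (ρ.baseChangeAlong φ hφ).V ((ρ.baseChangeAlong φ hφ).ρ σ) =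
      φ (LinearMap.trace A ρ.V (ρ.ρ σ)) :=
    LinearMap.trace_baseChange (ρ.ρ σ) B
  rw [e1, e2, e3]
  rfl

/-- **The Taylor–Wiles condition is preserved by base change along a local homomorphism.** -/
theorem twCond_baseChangeAlong {A B : Type} [CommRing A] [IsLocalRing A]
    [CommRing B] [IsLocalRing B] (φ : A →+* B) (hφ : IsLocalHom φ) (ρ : GaloisRepAdic A)
    (h : Fermat.Agent.S59.TWCond ρ.residual) :
    Fermat.Agent.S59.TWCond (ρ.baseChangeAlong φ hφ).residual := by
  have := hφ
  rw [twCond_iff_gram] at h ⊢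
  intro H hH
  obtain ⟨g, hg⟩ := h H hH
  refine ⟨g, ?_⟩
  have hmap : (Matrix.of fun a b => LinearMap.trace (ResidueField B)
        (ρ.baseChangeAlong φ hφ).residual.V ((ρ.baseChangeAlong φ hφ).residual.ρ
          ((g a : AlgebraicClosure ℚ ≃ₐ[ℚ] AlgebraicClosure ℚ) *
            (g b : AlgebraicClosure ℚ ≃ₐ[ℚ] AlgebraicClosure ℚ)))) =
      (Matrix.of fun a b => LinearMap.trace (ResidueField A) ρ.residual.V
        (ρ.residual.ρ ((g a : AlgebraicClosure ℚ ≃ₐ[ℚ] AlgebraicClosure ℚ) *
          (g b : AlgebraicClosure ℚ ≃ₐ[ℚ] AlgebraicClosure ℚ)))).map (ResidueField.map φ) := by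
    ext a b
    simp only [Matrix.of_apply, Matrix.map_apply]
    exact trace_residual_baseChangeAlong φ hφ ρ _
  rw [hmap, ← RingHom.mapMatrix_apply, ← RingHom.map_det]
  exact fun h0 => hg ((map_eq_zero _).mp h0)

end Fermat.Agent.S59.H99
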