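import Fermat.Agent.S59.Wiring
import Fermat.Agent.S59.H99_SplitFlat
import Fermat.Agent.S59.H99_SplitTW
import Fermat.Agent.S59.H99_SplitRing
import Fermat.Agent.R.H86_Point

/-!
# S59, leaf SPLIT and the wiring `mlt_of_split` (helper99)

* `Stmt_Split` / `stmt_Split` : every `ρ : GaloisRepAdic 𝒪` has a base change `ρ'` to a complete
  discrete valuation ring `𝒪'` (characteristic `0`, finite residue field), along a local
  homomorphism `ι : 𝒪 → 𝒪'`, such that all the hypotheses of `Stmt_MLT` pass from `ρ` to `ρ'`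
  and the characteristic polynomials of `ρ'.residual` split into linear factors
  (hypothesis `hsplit` of the frozen S56).
* `Stmt_MLT'` : `Stmt_MLT` with the additional hypothesis `hsplit`.
* `mlt_of_split : Stmt_Split → Stmt_MLT' → Stmt_MLT`, hence `mlt_of_mlt' : Stmt_MLT' → Stmt_MLT`.
-/

set_option autoImplicit false

open Polynomial IsLocalRing

namespace Fermat.Agent.S59.H99

open Fermat.Agent.S59

/-- Characteristic polynomials of the residual representation. -/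
theorem charpoly_residual {A : Type} [CommRing A] [IsLocalRing A] (ρ : GaloisRepAdic A)
    (σ : AlgebraicClosure ℚ ≃ₐ[ℚ] AlgebraicClosure ℚ) :
    LinearMap.charpoly (ρ.residual.ρ σ) = (LinearMap.charpoly (ρ.ρ σ)).map (residue A) :=
  LinearMap.charpoly_baseChange (A := ResidueField A) (ρ.ρ σ)

/-- **Stmt_Split.** -/
def Stmt_Split : Prop :=
  ∀ (𝒪 : Type) [CommRing 𝒪] [IsDomain 𝒪] [IsDiscreteValuationRing 𝒪]
    [IsAdicComplete (maximalIdeal 𝒪) 𝒪] [Finite (ResidueField 𝒪)] [CharZero 𝒪]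
    (ρ : GaloisRepAdic 𝒪),
    ∃ (𝒪' : Type) (_ : CommRing 𝒪') (_ : IsDomain 𝒪') (_ : IsDiscreteValuationRing 𝒪')
      (_ : IsAdicComplete (maximalIdeal 𝒪') 𝒪') (_ : Finite (ResidueField 𝒪'))
      (_ : CharZero 𝒪') (ι : 𝒪 →+* 𝒪') (_ : IsLocalHom ι) (ρ' : GaloisRepAdic 𝒪'),
      (∀ σ : AlgebraicClosure ℚ ≃ₐ[ℚ] AlgebraicClosure ℚ,
        LinearMap.charpoly (ρ'.ρ σ) = (LinearMap.charpoly (ρ.ρ σ)).map ι) ∧
      (∀ p : ℕ, ρ.DetIsCyclotomic p → ρ'.DetIsCyclotomic p) ∧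
      (∀ q : ℕ, ρ.IsUnramifiedAt q → ρ'.IsUnramifiedAt q) ∧
      (∀ q : ℕ, ρ.IsUnipotentOnInertiaAt q → ρ'.IsUnipotentOnInertiaAt q) ∧
      (∀ p : ℕ, p.Prime → ρ.IsFlatAt p → ρ'.IsFlatAt p) ∧
      (∀ p : ℕ, ρ.IsStrictOrdinaryAt p → ρ'.IsStrictOrdinaryAt p) ∧
      (ρ.residual.IsAbsolutelyIrreducible → ρ'.residual.IsAbsolutelyIrreducible) ∧
      (TWCond ρ.residual → TWCond ρ'.residual) ∧
      ∀ σ : AlgebraicClosure ℚ ≃ₐ[ℚ] AlgebraicClosure ℚ,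
        ∃ α β : ResidueField 𝒪',
          LinearMap.charpoly (ρ'.residual.ρ σ) = (X - C α) * (X - C β)

theorem stmt_Split : Stmt_Split := by
  intro 𝒪 _ _ _ _ _ _ ρ
  obtain ⟨𝒪', i1, i2, i3, i4, i5, i6, i7, i8, hfree, i9, hquad⟩ := exists_split_ext 𝒪
  have halg : (algebraMap 𝒪 𝒪').toAlgebra = i7 := Algebra.algebra_ext _ _ (fun r => rfl)
  refine ⟨𝒪', i1, i2, i3, i4, i5, i6, algebraMap 𝒪 𝒪', i9,
    ρ.baseChangeAlong (algebraMap 𝒪 𝒪') i9, ?_, ?_, ?_, ?_, ?_, ?_, ?_, ?_, ?_⟩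
  · exact fun σ => Fermat.Agent.R.H86.baseChangeAlong_charpoly _ i9 ρ σ
  · exact fun p h => Fermat.Agent.S56.H92.detIsCyclotomic_baseChangeAlong _ i9 ρ p h
  · exact fun q h => Fermat.Agent.S56.H92.isUnramifiedAt_baseChangeAlong _ i9 ρ q h
  · exact fun q h => Fermat.Agent.S56.H92.isUnipotentOnInertiaAt_baseChangeAlong _ i9 ρ q h
  · intro p hp h
    refine isFlatAt_baseChangeAlong_of_finite_free (algebraMap 𝒪 𝒪') i9 ?_ ?_ i5 ρ p hp h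
    · exact halg ▸ hfree
    · exact halg ▸ i8
  · exact fun p h => Fermat.Agent.S56.H92.isStrictOrdinaryAt_baseChangeAlong _ i9 ρ p h
  · exact fun h => Fermat.Agent.R.H86.residual_absIrr_baseChangeAlong _ i9 ρ h
  · exact fun h => twCond_baseChangeAlong _ i9 ρ h
  · intro σ
    have hm : (LinearMap.charpoly (ρ.residual.ρ σ)).Monic := LinearMap.charpoly_monic _
    have hd : (LinearMap.charpoly (ρ.residual.ρ σ)).natDegree = 2 := by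
      rw [LinearMap.charpoly_natDegree, ρ.residual.finrank_eq]
    obtain ⟨α, β, hαβ⟩ := hquad _ hm hd
    refine ⟨α, β, ?_⟩
    rw [← hαβ, charpoly_residual, charpoly_residual,
      Fermat.Agent.R.H86.baseChangeAlong_charpoly, Polynomial.map_map, Polynomial.map_map]
    congr 1

/-- **Stmt_MLT'**: `Stmt_MLT` (S59/Wiring.lean) with the additional hypothesis `hsplit` on the
residual representation (the shape of `hsplit` in the frozen S56). -/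
def Stmt_MLT' : Prop :=
  ∀ (p : ℕ) [Fact p.Prime], p ≠ 2 →
  ∀ (𝒪 : Type) [CommRing 𝒪] [IsDomain 𝒪] [IsDiscreteValuationRing 𝒪]
    [IsAdicComplete (IsLocalRing.maximalIdeal 𝒪) 𝒪] [Finite (IsLocalRing.ResidueField 𝒪)]
    [CharZero 𝒪] (ρ : GaloisRepAdic 𝒪) (a : ℕ → ℤ) (Sig : Finset ℕ),
    (∀ q ∈ Sig, q.Prime ∧ q ≠ p) →
    ρ.DetIsCyclotomic p →
    (∀ q : ℕ, q.Prime → q ≠ p → q ∉ Sig → ρ.IsUnramifiedAt q) →
    (∀ q ∈ Sig, ρ.IsUnipotentOnInertiaAt q) →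
    (ρ.IsFlatAt p ∨ ρ.IsStrictOrdinaryAt p) →
    (∀ ℓ : ℕ, ℓ.Prime → ℓ ≠ p → ℓ ∉ Sig →
      ∀ A : ValuationSubring (AlgebraicClosure ℚ), A.LiesOverPrime ℓ →
        ∀ σ : AlgebraicClosure ℚ ≃ₐ[ℚ] AlgebraicClosure ℚ, A.IsFrobeniusAt σ ℓ →
          LinearMap.charpoly (ρ.ρ σ) = X ^ 2 - C (((a ℓ : ℤ) : 𝒪)) * X + C ((ℓ : 𝒪))) →
    ρ.residual.IsAbsolutelyIrreducible → TWCond ρ.residual →
    (∀ σ : AlgebraicClosure ℚ ≃ₐ[ℚ] AlgebraicClosure ℚ,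
      ∃ α β : IsLocalRing.ResidueField 𝒪,
        LinearMap.charpoly (ρ.residual.ρ σ) = (X - C α) * (X - C β)) →
    ∀ (M₀ : ℕ), M₀ ≠ 0 → ¬ p ^ 2 ∣ M₀ → (∀ q : ℕ, q.Prime → q ≠ p → ¬ q ^ 3 ∣ M₀) →
    ∀ (f₀ : CuspForm (CongruenceSubgroup.Gamma0 M₀) 2) (𝔪 : Ideal (integralClosure ℤ ℂ)),
      f₀.IsNormalizedEigenform → 𝔪.IsMaximal → (p : integralClosure ℤ ℂ) ∈ 𝔪 →
      (∀ ℓ : ℕ, ℓ.Prime → ℓ ∉ Sig → ¬ ℓ ∣ M₀ → ℓ ≠ p →
        ∃ b : integralClosure ℤ ℂ, (b : ℂ) = ModularFormClass.qCoeff f₀ ℓ ∧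
          b - ((a ℓ : ℤ) : integralClosure ℤ ℂ) ∈ 𝔪) →
    ∃ N : ℕ, ¬ p ^ 2 ∣ N ∧ (∀ q : ℕ, q.Prime → ¬ q ^ 3 ∣ N) ∧
      ∃ f : CuspForm (CongruenceSubgroup.Gamma0 N) 2, f.IsNormalizedEigenform ∧
        ∀ ℓ : ℕ, ℓ.Prime → ℓ ≠ p → ℓ ∉ Sig → ¬ ℓ ∣ N →
          ModularFormClass.qCoeff f ℓ = (a ℓ : ℂ)

/-- **Wiring**: modularity lifting with split residual characteristic polynomials suffices. -/
theorem mlt_of_split (hS : Stmt_Split) (hM : Stmt_MLT') : Stmt_MLT := by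
  intro p hpF hp2 𝒪 _ _ _ _ _ _ ρ a Sig hSig hdet hunr hunip hloc hfrob habs hTW M₀ hM₀ hp2M
    hcube f₀ 𝔪 hf₀ h𝔪 hp𝔪 hcong
  obtain ⟨𝒪', i1, i2, i3, i4, i5, i6, ι, hι, ρ', hchar, h1, h2, h3, h4, h5, h6, h7, h8⟩ :=
    hS 𝒪 ρ
  refine hM p hp2 𝒪' ρ' a Sig hSig (h1 p hdet) (fun q hq hqp hqS => h2 q (hunr q hq hqp hqS))
    (fun q hq => h3 q (hunip q hq)) (hloc.imp (h4 p hpF.out) (h5 p)) ?_ (h6 habs) (h7 hTW) h8
    M₀ hM₀ hp2M hcube f₀ 𝔪 hf₀ h𝔪 hp𝔪 hcong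
  intro ℓ hℓ hℓp hℓS A hA σ hσ
  rw [hchar, hfrob ℓ hℓ hℓp hℓS A hA σ hσ]
  simp only [Polynomial.map_add, Polynomial.map_sub, Polynomial.map_mul, Polynomial.map_pow,
    Polynomial.map_X, map_intCast, map_natCast, Polynomial.map_intCast,
    Polynomial.map_natCast]

/-- Modularity lifting with split residual characteristic polynomials suffices. -/
theorem mlt_of_mlt' (hM : Stmt_MLT') : Stmt_MLT := mlt_of_split stmt_Split hM

end Fermat.Agent.S59.H99
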