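import Fermat.Agent.S59.Wiring
import Fermat.Prelude.Def_ModularForm_HeckeOperatorForms
import Fermat.Prelude.Thm_ModularFormClass_qCoeff_heckeU
import Fermat.Prelude.Thm_CongruenceSubgroup_one_mem_strictPeriods_Gamma0

/-!
# S59, package `Stmt_Stab` (helper61): stabilisation of a normalised eigenform

For a normalised eigenform `f` of level `N` and a prime `q ∤ N` let `α, β` be the roots of
`X² - a_q X + q`.  Then `g = α⁻¹ (U_q f - β f)` (`= f - β f(q z)`) is a normalised eigenform of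
level `N q` with `a_n(g) = a_n(f) - β a_{n/q}(f)`; in particular `a_ℓ(g) = a_ℓ(f)` for primes
`ℓ ≠ q`.
-/

set_option autoImplicit false

namespace Fermat.Agent.S59.H61

open UpperHalfPlane ModularFormClass CongruenceSubgroup
open scoped MatrixGroups

/-- Restriction of a cusp form to a smaller group. -/
noncomputable def restrictCusp {Γ Γ' : Subgroup (GL (Fin 2) ℝ)} {k : ℤ} (h : Γ' ≤ Γ)
    (f : CuspForm Γ k) : CuspForm Γ' k where
  toFun := f
  slash_action_eq' γ hγ := f.slash_action_eq' γ (h hγ)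
  holo' := f.holo'
  zero_at_cusps' hc := f.zero_at_cusps' (hc.mono h)

@[simp] theorem coe_restrictCusp {Γ Γ' : Subgroup (GL (Fin 2) ℝ)} {k : ℤ} (h : Γ' ≤ Γ)
    (f : CuspForm Γ k) : ⇑(restrictCusp h f) = ⇑f := rfl

theorem Gamma0_mul_le (N q : ℕ) : Gamma0 (N * q) ≤ Gamma0 N := by
  intro A hA
  rw [Gamma0_mem] at hA ⊢
  rw [ZMod.intCast_zmod_eq_zero_iff_dvd] at hA ⊢
  exact dvd_trans (by push_cast; exact dvd_mul_right _ _) hA

theorem Gamma0_mul_le_GL (N q : ℕ) :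
    ((Gamma0 (N * q) : Subgroup SL(2, ℤ)) : Subgroup (GL (Fin 2) ℝ)) ≤
      ((Gamma0 N : Subgroup SL(2, ℤ)) : Subgroup (GL (Fin 2) ℝ)) :=
  Subgroup.map_mono (Gamma0_mul_le N q)

theorem hper (N : ℕ) :
    (1 : ℝ) ∈ (Subgroup.map (Matrix.SpecialLinearGroup.mapGL ℝ) (Gamma0 N)).strictPeriods :=
  CongruenceSubgroup.one_mem_strictPeriods_Gamma0 N

theorem qCoeff_cusp_sub {N : ℕ} {k : ℤ} (f g : CuspForm (Gamma0 N) k) (n : ℕ) :
    qCoeff ⇑(f - g) n = qCoeff ⇑f n - qCoeff ⇑g n := by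
  simp only [qCoeff, FunLike.coe_sub]
  rw [ModularForm.qExpansion_sub one_pos (hper N) f g, map_sub]

theorem qCoeff_cusp_smul {N : ℕ} {k : ℤ} (c : ℂ) (f : CuspForm (Gamma0 N) k) (n : ℕ) :
    qCoeff ⇑(c • f) n = c * qCoeff ⇑f n := by
  have h1 : ⇑(c • f) = c • ⇑f := by
    ext z
    simp
  simp only [qCoeff, h1]
  rw [ModularForm.qExpansion_smul one_pos (hper N) c f]
  simp

/-- The roots of `X² - a X + q`. -/
theorem exists_roots (a : ℂ) (q : ℕ) (hq : q ≠ 0) :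
    ∃ α β : ℂ, α + β = a ∧ α * β = q ∧ α ≠ 0 := by
  obtain ⟨s, hs⟩ := IsAlgClosed.exists_pow_nat_eq (a ^ 2 - 4 * (q : ℂ)) (n := 2) (by norm_num)
  refine ⟨(a + s) / 2, (a - s) / 2, by ring, ?_, ?_⟩
  · have : (a + s) / 2 * ((a - s) / 2) = (a ^ 2 - s ^ 2) / 4 := by ring
    rw [this, hs]; ring
  · intro h
    have h2 : (a + s) / 2 * ((a - s) / 2) = (q : ℂ) := by
      have : (a + s) / 2 * ((a - s) / 2) = (a ^ 2 - s ^ 2) / 4 := by ring
      rw [this, hs]; ring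
    rw [h, zero_mul] at h2
    exact hq (by exact_mod_cast h2.symm)

/-- The stabilised form `α⁻¹ (U_q f - β f)` of level `N q`. -/
noncomputable def stab (N q : ℕ) [NeZero (N * q)] (f : CuspForm (Gamma0 N) 2) (α β : ℂ) :
    CuspForm (Gamma0 (N * q)) 2 :=
  α⁻¹ • (CuspForm.heckeULin (N := N * q) (p := q) 2 (dvd_mul_left q N)
      (restrictCusp (Gamma0_mul_le_GL N q) f)
    - β • restrictCusp (Gamma0_mul_le_GL N q) f)

theorem qCoeff_stab (N q : ℕ) [NeZero (N * q)] (hq : q ≠ 0) (f : CuspForm (Gamma0 N) 2)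
    (α β : ℂ) (n : ℕ) :
    qCoeff ⇑(stab N q f α β) n = α⁻¹ * (qCoeff ⇑f (n * q) - β * qCoeff ⇑f n) := by
  rw [stab, qCoeff_cusp_smul, qCoeff_cusp_sub, qCoeff_cusp_smul, coe_restrictCusp]
  congr 2
  rw [CuspForm.coe_heckeULin_apply]
  have := ModularFormClass.qCoeff_heckeU (k := 2)
    (restrictCusp (Gamma0_mul_le_GL N q) f) (hper (N * q)) hq n
  rw [this, ModularForm.coeffHeckeU_apply, coe_restrictCusp]

/-! ### Consequences of the eigenform relations -/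

section Relations

variable {N : ℕ} {f : CuspForm (Gamma0 N) 2}

theorem coeff_pow_succ_succ (hf : f.IsNormalizedEigenform) {q : ℕ} (hq : q.Prime)
    (hqN : ¬ q ∣ N) (r : ℕ) :
    qCoeff ⇑f (q ^ (r + 2)) = qCoeff ⇑f q * qCoeff ⇑f (q ^ (r + 1)) - q * qCoeff ⇑f (q ^ r) :=
  hf.qCoeff_prime_pow_of_not_dvd q r hq hqN

/-- `a_{n q} = a_n a_q` for `q ∤ n`. -/
theorem coeff_mul_prime_of_not_dvd (hf : f.IsNormalizedEigenform) {q : ℕ} (hq : q.Prime)
    {n : ℕ} (hn : ¬ q ∣ n) : qCoeff ⇑f (n * q) = qCoeff ⇑f n * qCoeff ⇑f q :=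
  hf.qCoeff_mul_of_coprime n q ((Nat.Prime.coprime_iff_not_dvd hq).2 hn).symm

/-- The Hecke relation at `q ∤ N` for all `n ≠ 0`. -/
theorem hecke_rel (hf : f.IsNormalizedEigenform) {q : ℕ} (hq : q.Prime) (hqN : ¬ q ∣ N)
    {n : ℕ} (hn : n ≠ 0) :
    qCoeff ⇑f (n * q * q) = qCoeff ⇑f q * qCoeff ⇑f (n * q) - q * qCoeff ⇑f n := by
  obtain ⟨r, m, hm, rfl⟩ := Nat.exists_eq_pow_mul_and_not_dvd hn q hq.ne_one
  have hcop : ∀ j : ℕ, (q ^ j).Coprime m := fun j =>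
    Nat.Coprime.pow_left j ((Nat.Prime.coprime_iff_not_dvd hq).2 hm)
  have e2 : q ^ r * m * q * q = q ^ (r + 2) * m := by ring
  have e1 : q ^ r * m * q = q ^ (r + 1) * m := by ring
  rw [e2, e1, hf.qCoeff_mul_of_coprime _ _ (hcop (r + 2)),
    hf.qCoeff_mul_of_coprime _ _ (hcop (r + 1)), hf.qCoeff_mul_of_coprime _ _ (hcop r),
    coeff_pow_succ_succ hf hq hqN r]
  ring

end Relations

/-! ### Coefficients of the stabilised form -/

section Coeffs

variable {N q : ℕ} [NeZero (N * q)] {f : CuspForm (Gamma0 N) 2} {α β : ℂ}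

theorem stab_coeff_of_not_dvd (hf : f.IsNormalizedEigenform) (hq : q.Prime)
    (hsum : α + β = qCoeff ⇑f q) (hα : α ≠ 0) {n : ℕ} (hn : ¬ q ∣ n) :
    qCoeff ⇑(stab N q f α β) n = qCoeff ⇑f n := by
  rw [qCoeff_stab N q hq.ne_zero, coeff_mul_prime_of_not_dvd hf hq hn, ← hsum]
  field_simp
  ring

theorem stab_coeff_mul (hf : f.IsNormalizedEigenform) (hq : q.Prime) (hqN : ¬ q ∣ N)
    (hsum : α + β = qCoeff ⇑f q) (hprod : α * β = q) (hα : α ≠ 0) {n : ℕ} (hn : n ≠ 0) :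
    qCoeff ⇑(stab N q f α β) (n * q) = qCoeff ⇑f (n * q) - β * qCoeff ⇑f n := by
  rw [qCoeff_stab N q hq.ne_zero, hecke_rel hf hq hqN hn, ← hsum, ← hprod]
  field_simp
  ring

theorem stab_isNormalizedEigenform (hf : f.IsNormalizedEigenform) (hq : q.Prime) (hqN : ¬ q ∣ N)
    (hsum : α + β = qCoeff ⇑f q) (hprod : α * β = q) (hα : α ≠ 0) :
    (stab N q f α β).IsNormalizedEigenform := by
  have hnd : ∀ {n : ℕ}, ¬ q ∣ n → qCoeff ⇑(stab N q f α β) n = qCoeff ⇑f n :=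
    fun hn => stab_coeff_of_not_dvd hf hq hsum hα hn
  have hmul : ∀ {n : ℕ}, n ≠ 0 →
      qCoeff ⇑(stab N q f α β) (n * q) = qCoeff ⇑f (n * q) - β * qCoeff ⇑f n :=
    fun hn => stab_coeff_mul hf hq hqN hsum hprod hα hn
  have hq1 : ¬ q ∣ 1 := hq.one_lt.ne' ∘ Nat.dvd_one.1
  have hb1 : qCoeff ⇑(stab N q f α β) 1 = 1 := by rw [hnd hq1, hf.qCoeff_one]
  have hbq : qCoeff ⇑(stab N q f α β) q = α := by
    have := hmul (n := 1) one_ne_zero
    rw [one_mul, hf.qCoeff_one, mul_one, ← hsum] at this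
    rw [this]; ring
  have hpow : ∀ {p : ℕ}, p.Prime → p ≠ q → ∀ j : ℕ, ¬ q ∣ p ^ j := by
    intro p hp hpq j h
    exact hpq ((Nat.prime_dvd_prime_iff_eq hq hp).1 (hq.dvd_of_dvd_pow h)).symm
  -- the case `q ∣ m`, `q ∤ n` of multiplicativity
  have key : ∀ m n : ℕ, m ≠ 0 → n ≠ 0 → m.Coprime n → q ∣ m →
      qCoeff ⇑(stab N q f α β) (m * n) =
        qCoeff ⇑(stab N q f α β) m * qCoeff ⇑(stab N q f α β) n := by
    intro m n hm hn hmn hqm
    obtain ⟨m', rfl⟩ := hqm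
    have hm' : m' ≠ 0 := fun h => hm (by rw [h, mul_zero])
    have hqn : ¬ q ∣ n :=
      (Nat.Prime.coprime_iff_not_dvd hq).1 (Nat.Coprime.coprime_dvd_left (dvd_mul_right q m') hmn)
    have hm'n : m'.Coprime n := Nat.Coprime.coprime_dvd_left (dvd_mul_left m' q) hmn
    have e1 : q * m' * n = m' * n * q := by ring
    have e2 : q * m' = m' * q := mul_comm _ _
    have hmn' : (m' * q).Coprime n := by rwa [e2] at hmn
    rw [e1, e2, hmul (mul_ne_zero hm' hn), hmul hm', hnd hqn]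
    have e3 : m' * n * q = m' * q * n := by ring
    rw [e3, hf.qCoeff_mul_of_coprime _ _ hmn', hf.qCoeff_mul_of_coprime _ _ hm'n]
    ring
  refine ⟨hb1, ?_, ?_, ?_⟩
  · intro m n hmn
    rcases eq_or_ne m 0 with rfl | hm
    · have : n = 1 := by simpa using hmn
      subst this
      rw [hb1, mul_one, mul_one]
    rcases eq_or_ne n 0 with rfl | hn
    · have : m = 1 := by simpa using hmn
      subst this
      rw [hb1, one_mul, one_mul]
    by_cases hqm : q ∣ m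
    · exact key m n hm hn hmn hqm
    by_cases hqn : q ∣ n
    · rw [mul_comm m n, key n m hn hm hmn.symm hqn, mul_comm]
    · have hqmn : ¬ q ∣ m * n := fun h => (hq.dvd_mul.1 h).elim hqm hqn
      rw [hnd hqmn, hnd hqm, hnd hqn, hf.qCoeff_mul_of_coprime m n hmn]
  · intro p r hp hpNq
    have hpq : p ≠ q := fun h => hpNq (h ▸ dvd_mul_left p N)
    have hpN : ¬ p ∣ N := fun h => hpNq (dvd_mul_of_dvd_left h q)
    rw [hnd (hpow hp hpq (r + 2)), hnd (hpow hp hpq (r + 1)), hnd (hpow hp hpq r),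
      hnd (fun h => hpow hp hpq 1 (by rwa [pow_one])),
      hf.qCoeff_prime_pow_of_not_dvd p r hp hpN]
  · intro p r hp hpNq
    by_cases hpq : p = q
    · subst hpq
      have h2 : qCoeff ⇑(stab N p f α β) (p ^ (r + 2)) =
          qCoeff ⇑f (p ^ (r + 2)) - β * qCoeff ⇑f (p ^ (r + 1)) := by
        have := hmul (n := p ^ (r + 1)) (pow_ne_zero _ hq.ne_zero)
        rwa [← pow_succ] at this
      have h1 : qCoeff ⇑(stab N p f α β) (p ^ (r + 1)) =
          qCoeff ⇑f (p ^ (r + 1)) - β * qCoeff ⇑f (p ^ r) := by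
        have := hmul (n := p ^ r) (pow_ne_zero _ hq.ne_zero)
        rwa [← pow_succ] at this
      rw [h2, h1, hbq, coeff_pow_succ_succ hf hq hqN r, ← hsum, ← hprod]
      ring
    · have hpN : p ∣ N := by
        rcases (Nat.Prime.dvd_mul hp).1 hpNq with h | h
        · exact h
        · exact absurd ((Nat.prime_dvd_prime_iff_eq hp hq).1 h) hpq
      rw [hnd (hpow hp hpq (r + 2)), hnd (hpow hp hpq (r + 1)),
        hnd (fun h => hpow hp hpq 1 (by rwa [pow_one])),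
        hf.qCoeff_prime_pow_of_dvd p r hp hpN]

end Coeffs

/-- **Stmt_Stab**: stabilisation of a normalised eigenform at a prime not dividing the level. -/
theorem stmt_Stab : Stmt_Stab := by
  intro N q hq hqN f hf
  have hN : N ≠ 0 := fun h => hqN (h ▸ dvd_zero q)
  have : NeZero (N * q) := ⟨mul_ne_zero hN hq.ne_zero⟩
  obtain ⟨α, β, hsum, hprod, hα⟩ := exists_roots (qCoeff ⇑f q) q hq.ne_zero
  refine ⟨stab N q f α β, stab_isNormalizedEigenform hf hq hqN hsum hprod hα, ?_⟩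
  intro ℓ hℓ hℓq
  exact stab_coeff_of_not_dvd hf hq hsum hα
    (fun h => hℓq ((Nat.prime_dvd_prime_iff_eq hq hℓ).1 h).symm)

end Fermat.Agent.S59.H61
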