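import Fermat.Agent.S59.H99_SplitFlat
import Fermat.Agent.R.Flat.H54_ClosureSub
import Fermat.Agent.R.Flat.H54_ClosureProd

/-!
# S59, leaf DEF, part 5 (helper99): the flat condition under base change and descent

* `isFlatAt_baseChangeAlong` : flatness passes to `ρ ⊗_A B` for EVERY local homomorphism
  `A → B` with `B` of finite residue field.
* `isFlatAt_of_isEquiv`.
* `isFlatAt_of_pair` : descent along a jointly injective pair `A → B₁`, `A → B₂` of finite rings.
* `isFlatAt_of_quot` : descent from the finite quotients `A ⧸ I`.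
-/

set_option autoImplicit false
set_option linter.unusedSectionVars false
set_option linter.style.haveILetI false

open IsLocalRing TensorProduct

namespace Fermat.Agent.S59.H99

open Fermat.Agent.R Fermat.Agent.S56.H92

section Reps

variable {A B : Type} [CommRing A] [CommRing B] [Algebra A B]
variable {V : Type} [AddCommGroup V] [Module A V]

theorem mk_tmul_eq_of_sub_mem (I' : Ideal B) {x y : B} (h : x - y ∈ I') (v : V) :
    (Submodule.Quotient.mk (x ⊗ₜ[A] v) : (B ⊗[A] V) ⧸ (I' • (⊤ : Submodule B (B ⊗[A] V)))) =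
      Submodule.Quotient.mk (y ⊗ₜ[A] v) := by
  rw [← sub_eq_zero, ← Submodule.Quotient.mk_sub, Submodule.Quotient.mk_eq_zero,
    ← TensorProduct.sub_tmul]
  have : (x - y) ⊗ₜ[A] v = (x - y) • ((1 : B) ⊗ₜ[A] v) := by
    rw [TensorProduct.smul_tmul', smul_eq_mul, mul_one]
  rw [this]
  exact Submodule.smul_mem_smul h Submodule.mem_top

theorem sumTheta_surjective_of_reps {r : ℕ} (b : Fin r → B) (I : Ideal A) (I' : Ideal B)
    (hI : ∀ a ∈ I, algebraMap A B a ∈ I') (hb : ∀ x : B, ∃ i, x - b i ∈ I') :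
    Function.Surjective (sumTheta (V := V) b I I' hI) := by
  classical
  intro q
  obtain ⟨w, rfl⟩ := Submodule.Quotient.mk_surjective _ q
  induction w using TensorProduct.induction_on with
  | zero => exact ⟨0, by rw [map_zero]; rfl⟩
  | tmul x v =>
    obtain ⟨i, hi⟩ := hb x
    refine ⟨Pi.single i (Submodule.Quotient.mk v), ?_⟩
    rw [sumTheta_apply, Finset.sum_eq_single i]
    · rw [Pi.single_eq_same, Submodule.liftQ_apply, thetaX_apply]
      exact (mk_tmul_eq_of_sub_mem I' hi v).symm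
    · intro j _ hj
      rw [Pi.single_eq_of_ne hj, map_zero]
    · intro h
      exact absurd (Finset.mem_univ i) h
  | add x y hx hy =>
    obtain ⟨a, ha⟩ := hx
    obtain ⟨c, hc⟩ := hy
    exact ⟨a + c, by rw [map_add, ha, hc]; rfl⟩

end Reps

/-- **Flatness passes to every base change** (to a local ring with finite residue field). -/
theorem isFlatAt_baseChangeAlong {A B : Type} [CommRing A] [IsLocalRing A]
    [CommRing B] [IsLocalRing B] (φ : A →+* B) (hφ : IsLocalHom φ)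
    (hres : Finite (ResidueField B))
    (ρ : GaloisRepAdic A) (p : ℕ) (hp : p.Prime) (h : ρ.IsFlatAt p) :
    (ρ.baseChangeAlong φ hφ).IsFlatAt p := by
  let _ : Algebra A B := φ.toAlgebra
  rw [isFlatAt_iff] at h ⊢
  refine ⟨hres, fun I' hI' => ?_⟩
  set I : Ideal A := I'.comap φ with hIdef
  have hIfin : Finite (A ⧸ I) := by
    have hinj : Function.Injective (Ideal.quotientMap I' φ (le_refl I)) :=
      Ideal.quotientMap_injective
    exact Finite.of_injective _ hinj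
  have h₀ := h.2 I hIfin
  obtain ⟨r, ⟨e⟩⟩ := Finite.exists_equiv_fin (B ⧸ I')
  let b : Fin r → B := fun i => Quotient.out (e.symm i)
  have hb : ∀ x : B, ∃ i, x - b i ∈ I' := by
    intro x
    refine ⟨e (Ideal.Quotient.mk I' x), ?_⟩
    rw [← Ideal.Quotient.eq]
    have : Ideal.Quotient.mk I' (b (e (Ideal.Quotient.mk I' x))) =
        e.symm (e (Ideal.Quotient.mk I' x)) := Quotient.out_eq _
    rw [this, Equiv.symm_apply_apply]
  have hI : ∀ a ∈ I, algebraMap A B a ∈ I' := fun a ha => ha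
  have hpi := Fermat.Agent.R.H54.stmt_FlatPi p hp r
    (fun _ => ρ.V ⧸ I • (⊤ : Submodule A ρ.V)) (fun _ σ => ρ.levelAction I σ) (fun _ => h₀)
  refine Fermat.Agent.R.H54.stmt_FlatQuot p hp _ _ _ _ (sumTheta (V := ρ.V) b I I' hI)
    (sumTheta_surjective_of_reps b I I' hI hb) ?_ hpi
  intro σ x
  exact sumTheta_equivariant (V := ρ.V) b I I' hI (ρ.ρ σ) _ _ x

section Equiv

variable {A : Type} [CommRing A] [IsLocalRing A]

theorem smul_top_le_comap {V W : Type} [AddCommGroup V] [Module A V] [AddCommGroup W]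
    [Module A W] (I : Ideal A) (f : V →ₗ[A] W) :
    I • (⊤ : Submodule A V) ≤ (I • (⊤ : Submodule A W)).comap f := by
  rw [Submodule.smul_le]
  intro r hr v _
  rw [Submodule.mem_comap, map_smul]
  exact Submodule.smul_mem_smul hr Submodule.mem_top

theorem isFlatAt_of_isEquiv {ρ ρ' : GaloisRepAdic A} (he : ρ.IsEquiv ρ') (p : ℕ) (hp : p.Prime)
    (h : ρ.IsFlatAt p) : ρ'.IsFlatAt p := by
  obtain ⟨e⟩ := he
  rw [isFlatAt_iff] at h ⊢
  refine ⟨h.1, fun I hI => ?_⟩
  have h₀ := h.2 I hI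
  let π : (ρ.V ⧸ I • (⊤ : Submodule A ρ.V)) →ₗ[A] (ρ'.V ⧸ I • (⊤ : Submodule A ρ'.V)) :=
    Submodule.mapQ _ _ (e.toLinearEquiv : ρ.V →ₗ[A] ρ'.V) (smul_top_le_comap I _)
  refine Fermat.Agent.R.H54.stmt_FlatQuot p hp _ _ _ _ π.toAddMonoidHom ?_ ?_ h₀
  · intro y
    obtain ⟨w, rfl⟩ := Submodule.Quotient.mk_surjective _ y
    obtain ⟨v, rfl⟩ := e.toLinearEquiv.surjective w
    exact ⟨Submodule.Quotient.mk v, rfl⟩
  · intro σ x
    obtain ⟨v, rfl⟩ := Submodule.Quotient.mk_surjective _ x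
    change π (Submodule.Quotient.mk (ρ.ρ σ v)) = Submodule.Quotient.mk (ρ'.ρ σ (e.toLinearEquiv v))
    rw [← e.map_apply]
    rfl

end Equiv

section Descent

/-- Flatness of `V ⧸ I V` passes to `V ⧸ J V` for `I ≤ J`. -/
theorem isFlatGaloisModule_of_le {A : Type} [CommRing A] [IsLocalRing A] (ρ : GaloisRepAdic A)
    (p : ℕ) (hp : p.Prime) {I J : Ideal A} (hIJ : I ≤ J)
    (h : IsFlatGaloisModule p (ρ.V ⧸ I • (⊤ : Submodule A ρ.V)) (fun σ => ρ.levelAction I σ)) :
    IsFlatGaloisModule p (ρ.V ⧸ J • (⊤ : Submodule A ρ.V)) (fun σ => ρ.levelAction J σ) := by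
  let π : (ρ.V ⧸ I • (⊤ : Submodule A ρ.V)) →ₗ[A] (ρ.V ⧸ J • (⊤ : Submodule A ρ.V)) :=
    Submodule.mapQ _ _ LinearMap.id (by
      rw [Submodule.comap_id]
      exact Submodule.smul_mono hIJ le_rfl)
  refine Fermat.Agent.R.H54.stmt_FlatQuot p hp _ _ _ _ π.toAddMonoidHom ?_ ?_ h
  · intro y
    obtain ⟨w, rfl⟩ := Submodule.Quotient.mk_surjective _ y
    exact ⟨Submodule.Quotient.mk w, rfl⟩
  · intro σ x
    obtain ⟨v, rfl⟩ := Submodule.Quotient.mk_surjective _ x
    rfl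

/-- Descent of flatness along a pair of local homomorphisms. -/
theorem isFlatGaloisModule_of_pair {P A B : Type} [CommRing P] [IsLocalRing P]
    [CommRing A] [IsLocalRing A] [CommRing B] [IsLocalRing B]
    (pA : P →+* A) (hpA : IsLocalHom pA) (pB : P →+* B) (hpB : IsLocalHom pB)
    (ρ : GaloisRepAdic P) (p : ℕ) (hp : p.Prime)
    (IA : Ideal A) (IB : Ideal B) (hIA : Finite (A ⧸ IA)) (hIB : Finite (B ⧸ IB))
    (hA : (ρ.baseChangeAlong pA hpA).IsFlatAt p) (hB : (ρ.baseChangeAlong pB hpB).IsFlatAt p) :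
    IsFlatGaloisModule p (ρ.V ⧸ (IA.comap pA ⊓ IB.comap pB) • (⊤ : Submodule P ρ.V))
      (fun σ => ρ.levelAction (IA.comap pA ⊓ IB.comap pB) σ) := by
  rw [isFlatAt_iff] at hA hB
  have hA0 := hA.2 IA hIA
  have hB0 := hB.2 IB hIB
  have hprod := Fermat.Agent.R.H54.stmt_FlatProd p hp _ _ _ _ hA0 hB0
  have b : Module.Basis (Fin 2) P ρ.V := Module.finBasisOfFinrankEq P ρ.V ρ.finrank_eq
  letI algA : Algebra P A := pA.toAlgebra
  letI algB : Algebra P B := pB.toAlgebra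
  set I : Ideal P := IA.comap pA ⊓ IB.comap pB with hI
  have hkA : I • (⊤ : Submodule P ρ.V) ≤
      LinearMap.ker (thetaX (R := P) (V := ρ.V) IA (1 : A)) :=
    smul_top_le_ker_thetaX IA 1 I (fun r hr => by rw [mul_one]; exact hr.1)
  have hkB : I • (⊤ : Submodule P ρ.V) ≤
      LinearMap.ker (thetaX (R := P) (V := ρ.V) IB (1 : B)) :=
    smul_top_le_ker_thetaX IB 1 I (fun r hr => by rw [mul_one]; exact hr.2)
  let ιA : (ρ.V ⧸ I • (⊤ : Submodule P ρ.V)) →+
      (A ⊗[P] ρ.V) ⧸ (IA • (⊤ : Submodule A (A ⊗[P] ρ.V))) :=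
    (Submodule.liftQ _ (thetaX (R := P) (V := ρ.V) IA (1 : A)) hkA).toAddMonoidHom
  let ιB : (ρ.V ⧸ I • (⊤ : Submodule P ρ.V)) →+
      (B ⊗[P] ρ.V) ⧸ (IB • (⊤ : Submodule B (B ⊗[P] ρ.V))) :=
    (Submodule.liftQ _ (thetaX (R := P) (V := ρ.V) IB (1 : B)) hkB).toAddMonoidHom
  refine Fermat.Agent.R.H54.stmt_FlatSub p hp _ _ _ _ (ιA.prod ιB) ?_ ?_ hprod
  · rw [injective_iff_map_eq_zero]
    intro x hx
    obtain ⟨v, rfl⟩ := Submodule.Quotient.mk_surjective _ x
    have h1 : thetaX (R := P) (V := ρ.V) IA (1 : A) v = 0 := congrArg Prod.fst hx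
    have h2 : thetaX (R := P) (V := ρ.V) IB (1 : B) v = 0 := congrArg Prod.snd hx
    have m1 := mem_of_thetaX_one_eq_zero IA b h1
    have m2 := mem_of_thetaX_one_eq_zero IB b h2
    rw [Submodule.Quotient.mk_eq_zero]
    refine Fermat.Agent.S56.H92.mem_smul_top_of_repr_mem b _ fun i => ?_
    exact ⟨Fermat.Agent.S56.H92.repr_mem_of_mem_smul_top b _ m1 i,
      Fermat.Agent.S56.H92.repr_mem_of_mem_smul_top b _ m2 i⟩
  · intro σ x
    refine Prod.ext ?_ ?_
    · exact liftQ_thetaX_mapQ IA (1 : A) I hkA (ρ.ρ σ) _ _ x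
    · exact liftQ_thetaX_mapQ IB (1 : B) I hkB (ρ.ρ σ) _ _ x

/-- Descent of flatness along one local homomorphism. -/
theorem isFlatGaloisModule_of_baseChange {A B : Type} [CommRing A] [IsLocalRing A]
    [CommRing B] [IsLocalRing B] (φ : A →+* B) (hφ : IsLocalHom φ)
    (ρ : GaloisRepAdic A) (p : ℕ) (hp : p.Prime) (I' : Ideal B) (hI' : Finite (B ⧸ I'))
    (h : (ρ.baseChangeAlong φ hφ).IsFlatAt p) :
    IsFlatGaloisModule p (ρ.V ⧸ (I'.comap φ) • (⊤ : Submodule A ρ.V))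
      (fun σ => ρ.levelAction (I'.comap φ) σ) :=
  isFlatGaloisModule_of_le ρ p hp inf_le_left
    (isFlatGaloisModule_of_pair φ hφ φ hφ ρ p hp I' I' hI' hI' h h)

/-- **Descent of flatness along a jointly injective pair of maps to finite rings.** -/
theorem isFlatAt_of_pair {P A B : Type} [CommRing P] [IsLocalRing P]
    [CommRing A] [IsLocalRing A] [CommRing B] [IsLocalRing B] [Finite A] [Finite B]
    (pA : P →+* A) (hpA : IsLocalHom pA) (pB : P →+* B) (hpB : IsLocalHom pB)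
    (hinj : ∀ x, pA x = 0 → pB x = 0 → x = 0) (hres : Finite (ResidueField P))
    (ρ : GaloisRepAdic P) (p : ℕ) (hp : p.Prime)
    (hA : (ρ.baseChangeAlong pA hpA).IsFlatAt p) (hB : (ρ.baseChangeAlong pB hpB).IsFlatAt p) :
    ρ.IsFlatAt p := by
  rw [isFlatAt_iff]
  refine ⟨hres, fun J _ => ?_⟩
  have hAf : Finite (A ⧸ (⊥ : Ideal A)) :=
    Finite.of_surjective (Ideal.Quotient.mk ⊥) Ideal.Quotient.mk_surjective
  have hBf : Finite (B ⧸ (⊥ : Ideal B)) :=
    Finite.of_surjective (Ideal.Quotient.mk ⊥) Ideal.Quotient.mk_surjective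
  refine isFlatGaloisModule_of_le ρ p hp ?_
    (isFlatGaloisModule_of_pair pA hpA pB hpB ρ p hp ⊥ ⊥ hAf hBf hA hB)
  intro x hx
  have := hinj x hx.1 hx.2
  rw [this]
  exact J.zero_mem

/-- **Descent of flatness from the finite quotients.** -/
theorem isFlatAt_of_quot {A : Type} [CommRing A] [IsLocalRing A]
    (hres : Finite (ResidueField A)) (ρ : GaloisRepAdic A) (p : ℕ) (hp : p.Prime)
    (h : ∀ J : Ideal A, J ≠ ⊤ → Finite (A ⧸ J) →
      ∃ (B : Type) (_ : CommRing B) (_ : IsLocalRing B) (φ : A →+* B) (hφ : IsLocalHom φ),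
        Finite B ∧ RingHom.ker φ ≤ J ∧ (ρ.baseChangeAlong φ hφ).IsFlatAt p) :
    ρ.IsFlatAt p := by
  rw [isFlatAt_iff]
  have key : ∀ J : Ideal A, J ≠ ⊤ → Finite (A ⧸ J) →
      IsFlatGaloisModule p (ρ.V ⧸ J • (⊤ : Submodule A ρ.V)) (fun σ => ρ.levelAction J σ) := by
    intro J hJ hJf
    obtain ⟨B, _, _, φ, hφ, hBf, hker, hfl⟩ := h J hJ hJf
    have hBf' : Finite (B ⧸ (⊥ : Ideal B)) :=
      Finite.of_surjective (Ideal.Quotient.mk ⊥) Ideal.Quotient.mk_surjective
    exact isFlatGaloisModule_of_le ρ p hp hker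
      (isFlatGaloisModule_of_baseChange φ hφ ρ p hp ⊥ hBf' hfl)
  refine ⟨hres, fun J hJf => ?_⟩
  by_cases hJ : J = ⊤
  · have hm : Finite (A ⧸ maximalIdeal A) := hres
    subst hJ
    exact isFlatGaloisModule_of_le ρ p hp le_top
      (key (maximalIdeal A) (maximalIdeal.isMaximal A).ne_top hm)
  · exact key J hJ hJf

end Descent

end Fermat.Agent.S59.H99
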