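import Fermat.Agent.R.H99_EigenChar

/-!
# S59, leaf THETA (helper99): the residual eigen-character

Let `f₀` be a normalised eigenform of level `N`, `𝔪` a maximal ideal of the ring of algebraic
integers over `p`, `S` a set of primes containing the primes dividing `N`, and `a : ℕ → ℤ` with
`a_ℓ(f₀) ≡ a ℓ mod 𝔪` for all primes `ℓ ∤ N`, `ℓ ∉ S`.  Then there is a ring homomorphism
`θ : heckeAlgebra N 2 S → ZMod p` with `θ (T_ℓ) = a ℓ`, and it is the reduction modulo `𝔪` of the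
eigen-character of `f₀`.

* `eigenCharMod`        : `heckeAlgebra N 2 S →+* (integralClosure ℤ ℂ ⧸ 𝔪)`.
* `exists_theta`        : `θ` with values in `ZMod p`.
* `exists_theta_residue`: `θ` with values in the residue field of a local ring `𝒪` of residue
  characteristic `p`.
-/

set_option autoImplicit false

open CuspForm CongruenceSubgroup ModularFormClass IsLocalRing

namespace Fermat.Agent.S59.H99

open Fermat.Agent.R.H99

variable {N : ℕ} [NeZero N]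

/-- The eigen-character of a normalised eigenform modulo an ideal of the algebraic integers. -/
noncomputable def eigenCharMod (S : Set ℕ) {g : CuspForm (Gamma0 N) 2}
    (hg : g.IsNormalizedEigenform) (𝔪 : Ideal (integralClosure ℤ ℂ)) :
    heckeAlgebra N 2 S →+* (integralClosure ℤ ℂ ⧸ 𝔪) :=
  (Ideal.Quotient.mk 𝔪).comp (eigenChar S hg)

theorem eigenCharMod_T (S : Set ℕ) {g : CuspForm (Gamma0 N) 2}
    (hg : g.IsNormalizedEigenform) (𝔪 : Ideal (integralClosure ℤ ℂ)) (a : ℤ)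
    {ℓ : ℕ} (hℓ : ℓ.Prime) (hℓN : ¬ ℓ ∣ N) (hℓS : ℓ ∉ S)
    (h : ∃ b : integralClosure ℤ ℂ, (b : ℂ) = qCoeff g ℓ ∧
      b - (a : integralClosure ℤ ℂ) ∈ 𝔪) :
    eigenCharMod S hg 𝔪 (heckeAlgebra.T hℓ hℓN hℓS) = ((a : ℤ) : integralClosure ℤ ℂ ⧸ 𝔪) := by
  obtain ⟨b, hb, hba⟩ := h
  have hb' : eigenChar S hg (heckeAlgebra.T hℓ hℓN hℓS) = b := by
    apply Subtype.ext
    rw [coe_eigenChar, eigenCharC_T, hb]
  rw [eigenCharMod, RingHom.comp_apply, hb', ← map_intCast (Ideal.Quotient.mk 𝔪)]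
  exact (Ideal.Quotient.eq).mpr hba

/-- The quotient of the algebraic integers by an ideal containing `p` has characteristic `p`
(if the ideal is proper). -/
theorem charP_quotient (p : ℕ) [hpF : Fact p.Prime] (𝔪 : Ideal (integralClosure ℤ ℂ))
    (h𝔪 : 𝔪 ≠ ⊤) (hp : (p : integralClosure ℤ ℂ) ∈ 𝔪) :
    CharP (integralClosure ℤ ℂ ⧸ 𝔪) p := by
  have : Nontrivial (integralClosure ℤ ℂ ⧸ 𝔪) := Ideal.Quotient.nontrivial_iff.mpr h𝔪
  refine (CharP.charP_iff_prime_eq_zero hpF.out).mpr ?_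
  have : Ideal.Quotient.mk 𝔪 (p : integralClosure ℤ ℂ) = 0 :=
    Ideal.Quotient.eq_zero_iff_mem.mpr hp
  rwa [map_natCast] at this

/-- **THETA.**  The residual eigen-character with values in `ZMod p`. -/
theorem exists_theta (p : ℕ) [hpF : Fact p.Prime] (S : Set ℕ)
    (hS : ∀ q : ℕ, q.Prime → q ∣ N → q ∈ S)
    {f₀ : CuspForm (Gamma0 N) 2} (hf₀ : f₀.IsNormalizedEigenform)
    (𝔪 : Ideal (integralClosure ℤ ℂ)) (h𝔪 : 𝔪.IsMaximal)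
    (hp : (p : integralClosure ℤ ℂ) ∈ 𝔪) (a : ℕ → ℤ)
    (hcong : ∀ ℓ : ℕ, ℓ.Prime → ¬ ℓ ∣ N → ℓ ∉ S →
      ∃ b : integralClosure ℤ ℂ, (b : ℂ) = qCoeff f₀ ℓ ∧
        b - ((a ℓ : ℤ) : integralClosure ℤ ℂ) ∈ 𝔪) :
    haveI := charP_quotient p 𝔪 h𝔪.ne_top hp
    ∃ θ : heckeAlgebra N 2 S →+* ZMod p,
      (∀ (ℓ : ℕ) (hℓ : ℓ.Prime) (hℓN : ¬ ℓ ∣ N) (hℓS : ℓ ∉ S),
        θ (heckeAlgebra.T hℓ hℓN hℓS) = ((a ℓ : ℤ) : ZMod p)) ∧
      ∀ T : heckeAlgebra N 2 S,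
        ZMod.castHom (dvd_refl p) (integralClosure ℤ ℂ ⧸ 𝔪) (θ T) = eigenCharMod S hf₀ 𝔪 T := by
  have hchar := charP_quotient p 𝔪 h𝔪.ne_top hp
  let _ : Field (integralClosure ℤ ℂ ⧸ 𝔪) := Ideal.Quotient.field 𝔪
  set ι : ZMod p →+* (integralClosure ℤ ℂ ⧸ 𝔪) :=
    ZMod.castHom (dvd_refl p) (integralClosure ℤ ℂ ⧸ 𝔪) with hι
  have hιinj : Function.Injective ι := ι.injective
  set ψ : heckeAlgebra N 2 S →+* (integralClosure ℤ ℂ ⧸ 𝔪) := eigenCharMod S hf₀ 𝔪 with hψ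
  -- the values of `ψ` lie in the prime field
  have hrange : ∀ T : heckeAlgebra N 2 S, ψ T ∈ ι.range := by
    rintro ⟨T, hT⟩
    induction hT using Algebra.adjoin_induction with
    | mem x hx =>
      rcases hx with ⟨ℓ, hℓ, hℓN, hℓS, rfl⟩ | ⟨q, hqN, hq, hqS, rfl⟩
      · refine ⟨((a ℓ : ℤ) : ZMod p), ?_⟩
        rw [map_intCast]
        exact (eigenCharMod_T S hf₀ 𝔪 (a ℓ) hℓ hℓN hℓS (hcong ℓ hℓ hℓN hℓS)).symm
      · exact absurd (hS q hq hqN) hqS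
    | algebraMap r =>
      refine ⟨(r : ZMod p), ?_⟩
      rw [map_intCast]
      have : (⟨algebraMap ℤ _ r, Subalgebra.algebraMap_mem _ r⟩ : heckeAlgebra N 2 S) =
          ((r : ℤ) : heckeAlgebra N 2 S) := by
        apply Subtype.ext
        simp
      rw [this, map_intCast]
    | add x y hx hy ihx ihy =>
      have : (⟨x + y, Subalgebra.add_mem _ hx hy⟩ : heckeAlgebra N 2 S) =
          (⟨x, hx⟩ : heckeAlgebra N 2 S) + ⟨y, hy⟩ := rfl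
      rw [this, map_add]
      exact ι.range.add_mem ihx ihy
    | mul x y hx hy ihx ihy =>
      have : (⟨x * y, Subalgebra.mul_mem _ hx hy⟩ : heckeAlgebra N 2 S) =
          (⟨x, hx⟩ : heckeAlgebra N 2 S) * ⟨y, hy⟩ := rfl
      rw [this, map_mul]
      exact ι.range.mul_mem ihx ihy
  let e : ZMod p ≃+* ι.range := RingEquiv.ofBijective ι.rangeRestrict
    ⟨fun x y hxy => hιinj (congrArg Subtype.val hxy), ι.rangeRestrict_surjective⟩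
  let θ : heckeAlgebra N 2 S →+* ZMod p :=
    (e.symm : ι.range →+* ZMod p).comp (ψ.codRestrict ι.range hrange)
  have hθ : ∀ T, ι (θ T) = ψ T := by
    intro T
    have h1 : e (θ T) = ψ.codRestrict ι.range hrange T := by
      simp only [θ, RingHom.comp_apply, RingHom.coe_coe, RingEquiv.apply_symm_apply]
    exact congrArg Subtype.val h1
  refine ⟨θ, ?_, hθ⟩
  intro ℓ hℓ hℓN hℓS
  apply hιinj
  rw [hθ, map_intCast]
  exact eigenCharMod_T S hf₀ 𝔪 (a ℓ) hℓ hℓN hℓS (hcong ℓ hℓ hℓN hℓS)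

/-- **THETA**, with values in the residue field of a local ring of residue characteristic `p`. -/
theorem exists_theta_residue (p : ℕ) [hpF : Fact p.Prime] (S : Set ℕ)
    (hS : ∀ q : ℕ, q.Prime → q ∣ N → q ∈ S)
    {f₀ : CuspForm (Gamma0 N) 2} (hf₀ : f₀.IsNormalizedEigenform)
    (𝔪 : Ideal (integralClosure ℤ ℂ)) (h𝔪 : 𝔪.IsMaximal)
    (hp : (p : integralClosure ℤ ℂ) ∈ 𝔪) (a : ℕ → ℤ)
    (hcong : ∀ ℓ : ℕ, ℓ.Prime → ¬ ℓ ∣ N → ℓ ∉ S →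
      ∃ b : integralClosure ℤ ℂ, (b : ℂ) = qCoeff f₀ ℓ ∧
        b - ((a ℓ : ℤ) : integralClosure ℤ ℂ) ∈ 𝔪)
    (𝒪 : Type*) [CommRing 𝒪] [IsLocalRing 𝒪] (hp𝒪 : (p : 𝒪) ∈ maximalIdeal 𝒪) :
    ∃ θ : heckeAlgebra N 2 S →+* ResidueField 𝒪,
      ∀ (ℓ : ℕ) (hℓ : ℓ.Prime) (hℓN : ¬ ℓ ∣ N) (hℓS : ℓ ∉ S),
        θ (heckeAlgebra.T hℓ hℓN hℓS) = residue 𝒪 ((a ℓ : ℤ) : 𝒪) := by
  obtain ⟨θ, hθ, -⟩ := exists_theta p S hS hf₀ 𝔪 h𝔪 hp a hcong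
  have hchar : CharP (ResidueField 𝒪) p := by
    refine (CharP.charP_iff_prime_eq_zero hpF.out).mpr ?_
    have : residue 𝒪 (p : 𝒪) = 0 := (residue_eq_zero_iff _).mpr hp𝒪
    rwa [map_natCast] at this
  refine ⟨(ZMod.castHom (dvd_refl p) (ResidueField 𝒪)).comp θ, ?_⟩
  intro ℓ hℓ hℓN hℓS
  rw [RingHom.comp_apply, hθ, map_intCast, map_intCast]

/-- **Stmt_Theta** (shape of helper53, 23:38Z, with the additional hypothesis `hS` that `S`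
contains the primes dividing `N`: without it the Hecke algebra contains the operators `U_q`,
whose eigenvalues modulo `𝔪` need not lie in the residue field of `𝒪`). -/
def Stmt_Theta : Prop :=
  ∀ (p : ℕ) [Fact p.Prime] (𝒪 : Type) [CommRing 𝒪] [IsLocalRing 𝒪],
    (p : 𝒪) ∈ maximalIdeal 𝒪 →
    ∀ (N : ℕ) [NeZero N] (S : Set ℕ), (∀ q : ℕ, q.Prime → q ∣ N → q ∈ S) →
    ∀ (a : ℕ → ℤ) (f₀ : CuspForm (Gamma0 N) 2) (𝔪 : Ideal (integralClosure ℤ ℂ)),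
      f₀.IsNormalizedEigenform → 𝔪.IsMaximal → (p : integralClosure ℤ ℂ) ∈ 𝔪 →
      (∀ ℓ : ℕ, ℓ.Prime → ℓ ∉ S → ¬ ℓ ∣ N →
        ∃ b : integralClosure ℤ ℂ, (b : ℂ) = qCoeff f₀ ℓ ∧
          b - ((a ℓ : ℤ) : integralClosure ℤ ℂ) ∈ 𝔪) →
      ∃ θ : heckeAlgebra N 2 S →+* ResidueField 𝒪,
        ∀ (ℓ : ℕ) (hℓ : ℓ.Prime) (hℓN : ¬ ℓ ∣ N) (hℓS : ℓ ∉ S),
          θ (heckeAlgebra.T hℓ hℓN hℓS) = ((a ℓ : ℤ) : ResidueField 𝒪)

theorem stmt_Theta : Stmt_Theta := by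
  intro p _ 𝒪 _ _ hp𝒪 N _ S hS a f₀ 𝔪 hf₀ h𝔪 hp hcong
  obtain ⟨θ, hθ⟩ := exists_theta_residue p S hS hf₀ 𝔪 h𝔪 hp a
    (fun ℓ hℓ hℓN hℓS => hcong ℓ hℓ hℓS hℓN) 𝒪 hp𝒪
  refine ⟨θ, fun ℓ hℓ hℓN hℓS => ?_⟩
  rw [hθ ℓ hℓ hℓN hℓS, map_intCast]

end Fermat.Agent.S59.H99
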