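import Fermat.Agent.S56
import Fermat.Agent.S59.Min

/-!
# S59: `Stmt_TWprimes` (helper47)

`stmt_TWprimes : Stmt_TWprimes` (`S59/Min.lean`), directly from the frozen statement S56
(`Fermat.Agent.S56.result`, `Fermat/Agent/S56.lean`) with `S := Smin`.
-/

set_option autoImplicit false

namespace Fermat.Agent.S59.H47

open Polynomial IsLocalRing

/-- **TW primes**: the Taylor–Wiles primes of S56, in terms of `cond`. -/
theorem stmt_TWprimes : Stmt_TWprimes := by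
  intro 𝒪 _ _ _ _ _ p _ hp2 hp𝒪 fl ρbar Smin h
  have key := Fermat.Agent.S56.result p hp2 hp𝒪 ρbar h.habs h.hdet h.hsplit h.hTW Smin Smin
    h.hpSmin (Finset.Subset.refl _) h.hS h.hmin
  cases fl with
  | false =>
    obtain ⟨r, hr⟩ := key.1
    refine ⟨r, fun n => ?_⟩
    obtain ⟨qv, h1, h2, h3, h4⟩ := hr n
    exact ⟨qv, ⟨h1, h2, h3⟩, fun DQ => h4 DQ⟩
  | true =>
    obtain ⟨r, hr⟩ := key.2
    refine ⟨r, fun n => ?_⟩
    obtain ⟨qv, h1, h2, h3, h4⟩ := hr n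
    exact ⟨qv, ⟨h1, h2, h3⟩, fun DQ => h4 DQ⟩

end Fermat.Agent.S59.H47
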