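import Fermat.Agent.R.H89_CycChar
import Fermat.Agent.S56.H92_StableSO

/-!
# S59, leaf DEF, part 1 (helper99): the cyclotomic relation `x = ε(σ) z`

The prelude expresses "`x = ε(σ) · z`" (`ε` the `p`-adic cyclotomic character) as
`∀ n a, (σ acts on μ_{p^n} by the a-th power) → x - a z ∈ (p^n)`.  This file isolates this
relation (`CycRel`) and proves that it descends along injective maps into rings in which `p` is
nilpotent and along the projective system of the quotients `A ⧸ 𝔪 ^ (m+1)` of a noetherian local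
ring.
-/

set_option autoImplicit false
set_option linter.unusedSectionVars false

open IsLocalRing

namespace Fermat.Agent.S59.H99

/-- `σ` acts on the `p ^ n`-th roots of unity by the `a`-th power. -/
def ActsPow (p : ℕ) (σ : AlgebraicClosure ℚ ≃ₐ[ℚ] AlgebraicClosure ℚ) (n a : ℕ) : Prop :=
  ∀ μ : AlgebraicClosure ℚ, μ ^ p ^ n = 1 → σ μ = μ ^ a

section

variable (p : ℕ) [Fact p.Prime] (σ : AlgebraicClosure ℚ ≃ₐ[ℚ] AlgebraicClosure ℚ)

theorem exists_actsPow (n : ℕ) : ∃ a : ℕ, ActsPow p σ n a := by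
  refine ⟨(PadicInt.toZModPow n ((Fermat.Agent.R.H89.h89Chi p σ : ℤ_[p]ˣ) : ℤ_[p])).val, ?_⟩
  intro μ hμ
  exact cyclotomicCharacter.spec (L := AlgebraicClosure ℚ) p
    (MulSemiringAction.toRingAut (AlgebraicClosure ℚ ≃ₐ[ℚ] AlgebraicClosure ℚ)
      (AlgebraicClosure ℚ) σ) μ hμ

variable {p σ}

theorem ActsPow.mono {n N a : ℕ} (h : n ≤ N) (ha : ActsPow p σ N a) : ActsPow p σ n a := by
  intro μ hμ
  apply ha
  obtain ⟨d, rfl⟩ := Nat.exists_eq_add_of_le h
  rw [pow_add, pow_mul, hμ, one_pow]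

theorem ActsPow.natCast_eq {n a b : ℕ} (ha : ActsPow p σ n a) (hb : ActsPow p σ n b) :
    (a : ZMod (p ^ n)) = (b : ZMod (p ^ n)) := by
  rw [← Fermat.Agent.R.H89.h89Chi_toZModPow_eq p σ n a ha,
    ← Fermat.Agent.R.H89.h89Chi_toZModPow_eq p σ n b hb]

theorem ActsPow.sub_mem_span {A : Type} [CommRing A] {n a b : ℕ} (ha : ActsPow p σ n a)
    (hb : ActsPow p σ n b) : ((a : A) - (b : A)) ∈ Ideal.span {((p ^ n : ℕ) : A)} := by
  have h := ha.natCast_eq hb
  have h2 : ((a : ℤ) : ZMod (p ^ n)) = ((b : ℤ) : ZMod (p ^ n)) := by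
    rw [Int.cast_natCast, Int.cast_natCast]
    exact h
  rw [ZMod.intCast_eq_intCast_iff_dvd_sub] at h2
  obtain ⟨c, hc⟩ := h2
  rw [Ideal.mem_span_singleton']
  refine ⟨-(c : A), ?_⟩
  have h3 : ((b : ℤ) : A) - ((a : ℤ) : A) = (((p ^ n : ℕ) : ℤ) : A) * (c : A) := by
    rw [← Int.cast_sub, hc, Int.cast_mul]
  simp only [Int.cast_natCast] at h3
  linear_combination h3

end

/-- The relation `x = ε(σ) · z`, in the prelude's form. -/
def CycRel {A : Type} [CommRing A] (p : ℕ) (σ : AlgebraicClosure ℚ ≃ₐ[ℚ] AlgebraicClosure ℚ)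
    (x z : A) : Prop :=
  ∀ n a : ℕ, ActsPow p σ n a → x - (a : A) * z ∈ Ideal.span {((p ^ n : ℕ) : A)}

section

variable {A B : Type} [CommRing A] [CommRing B] {p : ℕ}
  {σ : AlgebraicClosure ℚ ≃ₐ[ℚ] AlgebraicClosure ℚ}

theorem CycRel.map (φ : A →+* B) {x z : A} (h : CycRel p σ x z) : CycRel p σ (φ x) (φ z) := by
  intro n a ha
  obtain ⟨c, hc⟩ := Ideal.mem_span_singleton'.1 (h n a ha)
  have h1 : φ x - (a : B) * φ z = φ (x - (a : A) * z) := by
    rw [map_sub, map_mul, map_natCast]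
  rw [h1, ← hc, map_mul, map_natCast]
  exact Ideal.mem_span_singleton'.2 ⟨φ c, rfl⟩

/-- If `p ^ M = 0` in `A`, the relation is an equality. -/
theorem CycRel.eq_of_pow_eq_zero {x z : A} (h : CycRel p σ x z) {M : ℕ}
    (hM : ((p ^ M : ℕ) : A) = 0) {b : ℕ} (hb : ActsPow p σ M b) : x = (b : A) * z := by
  have := h M b hb
  rw [hM, Ideal.span_singleton_eq_bot.mpr rfl, Ideal.mem_bot, sub_eq_zero] at this
  exact this

/-- The relation follows from the equalities at all large levels. -/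
theorem cycRel_of_forall_eq [Fact p.Prime] {x z : A} (M : ℕ)
    (h : ∀ N : ℕ, M ≤ N → ∀ b : ℕ, ActsPow p σ N b → x = (b : A) * z) : CycRel p σ x z := by
  intro n a ha
  obtain ⟨b, hb⟩ := exists_actsPow p σ (max n M)
  have hx := h (max n M) (le_max_right _ _) b hb
  have hab := (hb.mono (le_max_left n M)).sub_mem_span (A := A) ha
  have : x - (a : A) * z = ((b : A) - (a : A)) * z := by rw [hx]; ring
  rw [this]
  exact Ideal.mul_mem_right _ _ hab

/-- Descent of the relation along a jointly injective family of homomorphisms into rings in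
which `p ^ M = 0`. -/
theorem cycRel_of_family [Fact p.Prime] {ι : Type} {C : ι → Type} [∀ i, CommRing (C i)]
    (φ : ∀ i, A →+* C i) (hinj : ∀ a : A, (∀ i, φ i a = 0) → a = 0) (M : ℕ)
    (hM : ∀ i, ((p ^ M : ℕ) : C i) = 0) {x z : A}
    (h : ∀ i, CycRel p σ (φ i x) (φ i z)) : CycRel p σ x z := by
  refine cycRel_of_forall_eq M fun N hN b hb => ?_
  rw [← sub_eq_zero]
  apply hinj
  intro i
  have h1 := (h i).eq_of_pow_eq_zero (hM i) (hb.mono hN)
  rw [map_sub, map_mul, map_natCast, h1, sub_self]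

end

section Krull

variable {A : Type} [CommRing A] [IsLocalRing A] [IsNoetherianRing A] {p : ℕ}
  {σ : AlgebraicClosure ℚ ≃ₐ[ℚ] AlgebraicClosure ℚ}

/-- Ideals of a noetherian local ring are closed. -/
theorem mem_of_forall_mem_sup_pow (J : Ideal A) (x : A)
    (h : ∀ m : ℕ, x ∈ J ⊔ maximalIdeal A ^ m) : x ∈ J := by
  have hkrull := Ideal.iInf_pow_smul_eq_bot_of_isLocalRing (R := A) (M := A ⧸ J)
    (maximalIdeal A) (Ideal.IsPrime.ne_top inferInstance)
  have hx : (Ideal.Quotient.mk J x : A ⧸ J) ∈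
      (⨅ i : ℕ, maximalIdeal A ^ i • ⊤ : Submodule A (A ⧸ J)) := by
    rw [Submodule.mem_iInf]
    intro m
    obtain ⟨y, hy, w, hw, hyw⟩ := Submodule.mem_sup.mp (h m)
    have h1 : (Ideal.Quotient.mk J x : A ⧸ J) = w • (Ideal.Quotient.mk J 1 : A ⧸ J) := by
      rw [← hyw, map_add, Ideal.Quotient.eq_zero_iff_mem.mpr hy, zero_add]
      rw [Algebra.smul_def, map_one, mul_one]
      rfl
    rw [h1]
    exact Submodule.smul_mem_smul hw Submodule.mem_top
  rw [hkrull, Submodule.mem_bot] at hx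
  exact Ideal.Quotient.eq_zero_iff_mem.mp hx

theorem natCast_pow_mem_maximalIdeal_pow (hp : (p : A) ∈ maximalIdeal A) (m : ℕ) :
    ((p ^ m : ℕ) : A) ∈ maximalIdeal A ^ m := by
  rw [Nat.cast_pow]
  exact Ideal.pow_mem_pow hp m

/-- Descent of the relation from the quotients `A ⧸ 𝔪 ^ (m + 1)`. -/
theorem cycRel_of_quot [Fact p.Prime] (hp : (p : A) ∈ maximalIdeal A) {x z : A}
    (h : ∀ m : ℕ, CycRel p σ (Ideal.Quotient.mk (maximalIdeal A ^ (m + 1)) x)
      (Ideal.Quotient.mk (maximalIdeal A ^ (m + 1)) z)) : CycRel p σ x z := by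
  intro n a ha
  apply mem_of_forall_mem_sup_pow
  intro m
  obtain ⟨b, hb⟩ := exists_actsPow p σ (max n (m + 1))
  have hM : ((p ^ (m + 1) : ℕ) : A ⧸ maximalIdeal A ^ (m + 1)) = 0 := by
    have := natCast_pow_mem_maximalIdeal_pow hp (m + 1)
    rw [← Ideal.Quotient.eq_zero_iff_mem, map_natCast] at this
    exact this
  have h1 := (h m).eq_of_pow_eq_zero hM (hb.mono (le_max_right n (m + 1)))
  rw [← sub_eq_zero, ← map_natCast (Ideal.Quotient.mk (maximalIdeal A ^ (m + 1))),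
    ← map_mul, ← map_sub, Ideal.Quotient.eq_zero_iff_mem] at h1
  have hab := (hb.mono (le_max_left n (m + 1))).sub_mem_span (A := A) ha
  have e : x - (a : A) * z = ((b : A) - (a : A)) * z + (x - (b : A) * z) := by ring
  rw [e]
  refine Submodule.add_mem_sup (Ideal.mul_mem_right _ _ hab) ?_
  exact Ideal.pow_le_pow_right (Nat.le_succ m) h1

end Krull

end Fermat.Agent.S59.H99
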