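import Fermat.Agent.S59.H99_DefCyc
import Fermat.Agent.S56.H92_StableFl

/-!
# S59, leaf DEF, part 2 (helper99): descent along jointly injective families

`JFam A p`: a nonempty family of local homomorphisms `φ i : A → B i` of local rings which is
jointly injective and along which the cyclotomic relation `CycRel p` descends.  The three
descent clauses of `GaloisRep.IsDeformationCondition` (injective base change, fibre products,
the limit over the artinian quotients) are descent along such families.

This file: the families (`JFam.ofNilp`, `JFam.ofQuot`) and descent of `DetIsCyclotomic`,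
`IsUnramifiedAt`, `IsUnipotentOnInertiaAt`.
-/

set_option autoImplicit false
set_option linter.unusedSectionVars false
set_option linter.style.haveILetI false

open IsLocalRing TensorProduct

namespace Fermat.Agent.S59.H99

/-- A jointly injective family of local homomorphisms out of `A`, along which the cyclotomic
relation descends. -/
structure JFam (A : Type) [CommRing A] [IsLocalRing A] (p : ℕ) : Type 1 where
  /-- the index type -/
  ι : Type
  /-- the family is not empty -/
  ne : Nonempty ι
  /-- the targets -/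
  B : ι → Type
  /-- the targets are commutative rings -/
  cr : ∀ i, CommRing (B i)
  /-- the targets are local -/
  lr : ∀ i, IsLocalRing (B i)
  /-- the homomorphisms -/
  φ : ∀ i, A →+* B i
  /-- the homomorphisms are local -/
  hφ : ∀ i, IsLocalHom (φ i)
  /-- joint injectivity -/
  inj : ∀ a : A, (∀ i, φ i a = 0) → a = 0
  /-- descent of the cyclotomic relation -/
  cyc : ∀ (σ : AlgebraicClosure ℚ ≃ₐ[ℚ] AlgebraicClosure ℚ) (x z : A),
    (∀ i, CycRel p σ (φ i x) (φ i z)) → CycRel p σ x z

attribute [instance] JFam.cr JFam.lr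

section Constructions

variable {A : Type} [CommRing A] [IsLocalRing A] (p : ℕ) [Fact p.Prime]

/-- A jointly injective family into rings in which `p ^ M = 0`. -/
def JFam.ofNilp {ι : Type} (hne : Nonempty ι) (B : ι → Type) [∀ i, CommRing (B i)]
    [∀ i, IsLocalRing (B i)] (φ : ∀ i, A →+* B i) (hφ : ∀ i, IsLocalHom (φ i))
    (hinj : ∀ a : A, (∀ i, φ i a = 0) → a = 0) (M : ℕ)
    (hM : ∀ i, ((p ^ M : ℕ) : B i) = 0) : JFam A p where
  ι := ι
  ne := hne
  B := B
  cr := inferInstance
  lr := inferInstance
  φ := φ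
  hφ := hφ
  inj := hinj
  cyc := fun _ _ _ h => cycRel_of_family φ hinj M hM h

theorem nontrivial_quot_pow' (m : ℕ) : Nontrivial (A ⧸ maximalIdeal A ^ (m + 1)) := by
  rw [Ideal.Quotient.nontrivial_iff]
  intro h
  have h1 : maximalIdeal A ^ (m + 1) ≤ maximalIdeal A := Ideal.pow_le_self (Nat.succ_ne_zero m)
  rw [h] at h1
  exact (maximalIdeal.isMaximal A).ne_top (top_le_iff.mp h1)

theorem isLocalRing_quot_pow (m : ℕ) : IsLocalRing (A ⧸ maximalIdeal A ^ (m + 1)) :=
  haveI := nontrivial_quot_pow' (A := A) m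
  IsLocalRing.of_surjective' (Ideal.Quotient.mk _) Ideal.Quotient.mk_surjective

/-- The family of the quotients `A ⧸ 𝔪 ^ (m + 1)` of a noetherian local ring. -/
def JFam.ofQuot [IsNoetherianRing A] (hp : (p : A) ∈ maximalIdeal A) : JFam A p where
  ι := ℕ
  ne := ⟨0⟩
  B := fun m => A ⧸ maximalIdeal A ^ (m + 1)
  cr := inferInstance
  lr := fun m => isLocalRing_quot_pow m
  φ := fun m => Ideal.Quotient.mk (maximalIdeal A ^ (m + 1))
  hφ := fun m =>
    haveI := isLocalRing_quot_pow (A := A) m
    IsLocalHom.of_surjective _ Ideal.Quotient.mk_surjective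
  inj := by
    intro a ha
    have hk := Ideal.iInf_pow_eq_bot_of_isLocalRing (maximalIdeal A)
      (Ideal.IsPrime.ne_top inferInstance)
    have : a ∈ (⨅ i : ℕ, maximalIdeal A ^ i) := by
      rw [Ideal.mem_iInf]
      intro i
      have := Ideal.Quotient.eq_zero_iff_mem.mp (ha i)
      exact Ideal.pow_le_pow_right (Nat.le_succ i) this
    rw [hk] at this
    exact this
  cyc := fun _ _ _ h => cycRel_of_quot hp h

end Constructions

section Generic

variable {A B : Type} [CommRing A] [CommRing B] [Algebra A B]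
variable {V : Type} [AddCommGroup V] [Module A V]

/-- Coordinates of `(f ⊗ B) (1 ⊗ v)`. -/
theorem repr_baseChange_one_tmul {n : ℕ} (b : Module.Basis (Fin n) A V) (f : V →ₗ[A] V) (v : V)
    (k : Fin n) :
    (b.baseChange B).repr ((f.baseChange B) ((1 : B) ⊗ₜ[A] v)) k =
      algebraMap A B (b.repr (f v) k) := by
  rw [LinearMap.baseChange_tmul, Module.Basis.baseChange_repr_tmul, Algebra.smul_def, mul_one]

end Generic

section Descent

variable {A : Type} [CommRing A] [IsLocalRing A] {p : ℕ} (F : JFam A p)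

/-- Joint injectivity on endomorphisms of a finite free module. -/
theorem JFam.end_eq_zero {V : Type} [AddCommGroup V] [Module A V] [Module.Free A V]
    [Module.Finite A V] (f : V →ₗ[A] V)
    (h : ∀ i, letI := (F.φ i).toAlgebra; f.baseChange (F.B i) = 0) : f = 0 := by
  let b := Module.finBasis A V
  apply b.ext
  intro j
  rw [LinearMap.zero_apply]
  apply b.repr.injective
  ext k
  rw [map_zero, Finsupp.zero_apply]
  apply F.inj
  intro i
  letI := (F.φ i).toAlgebra
  have h1 := repr_baseChange_one_tmul (B := F.B i) b f (b j) k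
  rw [h i, LinearMap.zero_apply, map_zero, Finsupp.zero_apply] at h1
  exact h1.symm

/-- Joint injectivity on endomorphisms: equality form. -/
theorem JFam.end_eq {V : Type} [AddCommGroup V] [Module A V] [Module.Free A V]
    [Module.Finite A V] (f g : V →ₗ[A] V)
    (h : ∀ i, letI := (F.φ i).toAlgebra; f.baseChange (F.B i) = g.baseChange (F.B i)) :
    f = g := by
  rw [← sub_eq_zero]
  apply F.end_eq_zero
  intro i
  letI := (F.φ i).toAlgebra
  rw [LinearMap.baseChange_sub]
  exact sub_eq_zero.mpr (h i)

/-- Units descend. -/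
theorem JFam.isUnit {a : A} (h : ∀ i, IsUnit (F.φ i a)) : IsUnit a := by
  obtain ⟨i⟩ := F.ne
  haveI := F.hφ i
  exact isUnit_of_map_unit (F.φ i) a (h i)

theorem JFam.mem_maximalIdeal {a : A} (i : F.ι) (h : F.φ i a ∈ maximalIdeal (F.B i)) :
    a ∈ maximalIdeal A := by
  rw [IsLocalRing.mem_maximalIdeal, mem_nonunits_iff] at h ⊢
  intro ha
  exact h (ha.map _)

/-- Polynomials: joint injectivity. -/
theorem JFam.poly_eq (f g : Polynomial A)
    (h : ∀ i, f.map (F.φ i) = g.map (F.φ i)) : f = g := by
  ext n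
  rw [← sub_eq_zero]
  apply F.inj
  intro i
  rw [map_sub, ← Polynomial.coeff_map, ← Polynomial.coeff_map, h i, sub_self]

variable (ρ : GaloisRepAdic A)

theorem JFam.detIsCyclotomic
    (h : ∀ i, (ρ.baseChangeAlong (F.φ i) (F.hφ i)).DetIsCyclotomic p) :
    ρ.DetIsCyclotomic p := by
  refine ⟨?_, ?_⟩
  · obtain ⟨i⟩ := F.ne
    apply F.mem_maximalIdeal i
    rw [map_natCast]
    exact (h i).1
  · intro n σ a ha
    have key : CycRel p σ (LinearMap.det (ρ.ρ σ)) 1 := by
      apply F.cyc
      intro i m c hc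
      letI := (F.φ i).toAlgebra
      have h1 := (h i).2 m σ c hc
      have h2 : LinearMap.det ((ρ.baseChangeAlong (F.φ i) (F.hφ i)).ρ σ) =
          F.φ i (LinearMap.det (ρ.ρ σ)) := LinearMap.det_baseChange (A := F.B i) (ρ.ρ σ)
      rw [h2] at h1
      rw [map_one, mul_one]
      exact h1
    have := key n a ha
    rwa [mul_one] at this

theorem JFam.isUnramifiedAt (q : ℕ)
    (h : ∀ i, (ρ.baseChangeAlong (F.φ i) (F.hφ i)).IsUnramifiedAt q) :
    ρ.IsUnramifiedAt q := by
  intro P hP σ hσ
  apply F.end_eq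
  intro i
  letI := (F.φ i).toAlgebra
  have h1 := h i P hP σ hσ
  rw [Fermat.Agent.S56.H92.baseChangeAlong_ρ_apply] at h1
  rw [h1]
  exact (LinearMap.baseChange_one (R := A) (A := F.B i) (M := ρ.V)).symm

theorem JFam.isUnipotentOnInertiaAt (q : ℕ)
    (h : ∀ i, (ρ.baseChangeAlong (F.φ i) (F.hφ i)).IsUnipotentOnInertiaAt q) :
    ρ.IsUnipotentOnInertiaAt q := by
  intro P hP σ hσ
  apply F.poly_eq
  intro i
  letI := (F.φ i).toAlgebra
  have h1 := h i P hP σ hσ
  rw [Fermat.Agent.S56.H92.baseChangeAlong_ρ_apply] at h1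
  have h2 : LinearMap.charpoly ((ρ.ρ σ).baseChange (F.B i)) =
      (LinearMap.charpoly (ρ.ρ σ)).map (F.φ i) :=
    LinearMap.charpoly_baseChange (A := F.B i) (ρ.ρ σ)
  rw [← h2]
  exact h1.trans (by simp)

end Descent

end Fermat.Agent.S59.H99
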